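/-
ML / HARD (helper72) : the model ring of the Steinberg condition at the HARD raising primes
(`q = 1 mod p`, `rbar(Frob_q)` scalar) : definitions.

Local variables at a hard `q` :
`N = rho(tau) - 1 = [[-x1, x0], [-x2, x1]]`, `G = eps rho(Phi) - 1 = [[d - y1, y0], [-y2, y1]]`, `d = q - 1`.
The Steinberg relations say that the `2 x 2` minors of `[[x0,x1,y0,y1-d],[x1,x2,y1,y2]]` vanish.
`x 0, x 1, x 2 = x0, x1, x2`, `x 3, x 4, x 5 = y0, y1, y2`.
-/
import Mathlib

set_option autoImplicit false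

namespace Fermat.Agent.ML.Hard

/-- the six relations of one (deformed) scroll block. -/
structure Scroll {A : Type*} [CommRing A] (x : Fin 6 → A) (d : A) : Prop where
  r12 : x 1 * x 1 = x 0 * x 2
  r13 : x 1 * x 3 = x 0 * x 4
  r14 : x 1 * x 4 = x 0 * x 5 + d * x 1
  r23 : x 2 * x 3 = x 0 * x 5 + d * x 1
  r24 : x 2 * x 4 = x 1 * x 5 + d * x 2
  r34 : x 4 * x 4 = x 3 * x 5 + d * x 4

/-- indices of the NORMAL monomials of one block. -/
inductive NIdx
  | Ia (i l n : ℕ)
  | Ib (i l n : ℕ)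
  | IIa (i k n : ℕ)
  | IIb (i k n : ℕ)
  deriving DecidableEq

/-- degree of a normal monomial. -/
def NIdx.deg : NIdx → ℕ
  | .Ia i l n => i + l + n
  | .Ib i l n => i + l + n + 1
  | .IIa i k n => i + k + n + 1
  | .IIb i k n => i + k + n + 1

/-- the normal monomials. -/
def nm {A : Type*} [CommRing A] (x : Fin 6 → A) : NIdx → A
  | .Ia i l n => x 0 ^ i * x 3 ^ l * x 5 ^ n
  | .Ib i l n => x 0 ^ i * x 3 ^ l * x 4 * x 5 ^ n
  | .IIa i k n => x 0 ^ i * x 1 * x 2 ^ k * x 5 ^ n
  | .IIb i k n => x 0 ^ i * x 2 ^ (k + 1) * x 5 ^ n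

/-- exponents `(m, al, be)` of the leading monomial `lam^m b^al g^be` of a normal monomial in the chart. -/
def NIdx.expo : NIdx → ℕ × ℕ × ℕ
  | .Ia i l n => (2 * n, i, l + n)
  | .Ib i l n => (2 * n + 1, i, l + n + 1)
  | .IIa i k n => (2 * k + 2 * n + 1, i + k + 1, n)
  | .IIb i k n => (2 * k + 2 * n + 2, i + k + 1, n)

theorem NIdx.expo_injective : Function.Injective NIdx.expo := by
  intro a b h
  cases a <;> cases b <;> simp only [NIdx.expo, Prod.mk.injEq] at h <;>
    first
      | (obtain ⟨h1, h2, h3⟩ := h; exfalso; omega)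
      | (obtain ⟨h1, h2, h3⟩ := h; congr 1 <;> omega)

theorem NIdx.deg_eq_expo (ι : NIdx) : ι.deg = ι.expo.2.1 + ι.expo.2.2 := by
  cases ι <;> simp only [NIdx.deg, NIdx.expo] <;> omega

/-- the chart : `x0 = b, x1 = lam b, x2 = lam^2 b, y0 = g, y1 = lam g, y2 = lam^2 g - D lam`. -/
def chart {R : Type*} [CommRing R] (lam b g D : R) : Fin 6 → R :=
  ![b, lam * b, lam ^ 2 * b, g, lam * g, lam ^ 2 * g - D * lam]

theorem scroll_chart {R : Type*} [CommRing R] (lam b g D : R) : Scroll (chart lam b g D) D := by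
  constructor <;> simp [chart] <;> ring

theorem Scroll.smul {A : Type*} [CommRing A] {x : Fin 6 → A} {d : A} (h : Scroll x d) (c : A) :
    Scroll (fun j => c * x j) (c * d) := by
  constructor
  · linear_combination c ^ 2 * h.r12
  · linear_combination c ^ 2 * h.r13
  · linear_combination c ^ 2 * h.r14
  · linear_combination c ^ 2 * h.r23
  · linear_combination c ^ 2 * h.r24
  · linear_combination c ^ 2 * h.r34

theorem nm_smul {A : Type*} [CommRing A] (x : Fin 6 → A) (c : A) (ι : NIdx) :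
    nm (fun j => c * x j) ι = c ^ ι.deg * nm x ι := by
  cases ι <;> simp only [nm, NIdx.deg] <;> ring

theorem nm_map {A B : Type*} [CommRing A] [CommRing B] (φ : A →+* B) (x : Fin 6 → A) (ι : NIdx) :
    φ (nm x ι) = nm (fun j => φ (x j)) ι := by
  cases ι <;> simp only [nm, map_mul, map_pow]

theorem Scroll.map {A B : Type*} [CommRing A] [CommRing B] (φ : A →+* B) {x : Fin 6 → A} {d : A}
    (h : Scroll x d) : Scroll (fun j => φ (x j)) (φ d) := by
  constructor
  · simpa only [map_mul, map_add] using congrArg φ h.r12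
  · simpa only [map_mul, map_add] using congrArg φ h.r13
  · simpa only [map_mul, map_add] using congrArg φ h.r14
  · simpa only [map_mul, map_add] using congrArg φ h.r23
  · simpa only [map_mul, map_add] using congrArg φ h.r24
  · simpa only [map_mul, map_add] using congrArg φ h.r34

/-- the weight filtration of one block : the additive group generated by the `d^e * (normal monomial)`
of weight `e + deg ≥ w`. -/
def Wblk {A : Type*} [CommRing A] (x : Fin 6 → A) (d : A) (w : ℕ) : AddSubgroup A :=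
  AddSubgroup.closure {a | ∃ (e : ℕ) (ι : NIdx), w ≤ e + ι.deg ∧ a = d ^ e * nm x ι}

/-- **The abstract output of HARD** : `m`-adic order is a valuation, with a Hilbert function bound. -/
structure OrdModel (p : ℕ) (B : Type*) [CommRing B] (m : Ideal B) (H : ℕ → ℕ) : Prop where
  p_mem : (p : B) ∈ m
  /-- `B / m = F_p` -/
  res : ∀ f : B, ∃ c : ℤ, f - (c : B) ∈ m
  /-- the `m`-adic order is additive on products -/
  mul : ∀ (f g : B) (i j : ℕ), f ∉ m ^ (i + 1) → g ∉ m ^ (j + 1) → f * g ∉ m ^ (i + j + 1)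
  /-- `m^i / m^(i+1)` is generated by `H i` elements -/
  hilb : ∀ i, ∃ T : Finset B, T.card ≤ H i ∧
    ∀ f ∈ m ^ i, ∃ c : B → ℤ, f - ∑ t ∈ T, c t • t ∈ m ^ (i + 1)

end Fermat.Agent.ML.Hard
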