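/-
ML / HARD (helper72) : the model ring `BB` (polynomial ring modulo the scroll relations of the raised hard
primes), its ideal `mm`, the substitution `Psi`.
`Hr` = raised hard primes, `σ` = all the other variables.  `d q = p * D q`.
-/
import Fermat.Agent.ML.Hard.Defs

set_option autoImplicit false

open MvPolynomial

namespace Fermat.Agent.ML.Hard

variable (p : ℕ) (Hr σ : Type) (D : Hr → ℤ)

/-- variables of the model ring -/
abbrev PV := (Hr × Fin 6) ⊕ σ

/-- variables of the chart -/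
abbrev QV := (Hr × Fin 3) ⊕ σ

/-- the six generators of the block `q` in the polynomial ring. -/
noncomputable def genP (q : Hr) : Fin 6 → MvPolynomial (PV Hr σ) ℤ := fun j => X (Sum.inl (q, j))

/-- the relations. -/
def relSet : Set (MvPolynomial (PV Hr σ) ℤ) :=
  {f | ∃ q : Hr,
    f = genP Hr σ q 1 * genP Hr σ q 1 - genP Hr σ q 0 * genP Hr σ q 2 ∨
    f = genP Hr σ q 1 * genP Hr σ q 3 - genP Hr σ q 0 * genP Hr σ q 4 ∨
    f = genP Hr σ q 1 * genP Hr σ q 4 - (genP Hr σ q 0 * genP Hr σ q 5 + C ((p : ℤ) * D q) * genP Hr σ q 1) ∨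
    f = genP Hr σ q 2 * genP Hr σ q 3 - (genP Hr σ q 0 * genP Hr σ q 5 + C ((p : ℤ) * D q) * genP Hr σ q 1) ∨
    f = genP Hr σ q 2 * genP Hr σ q 4 - (genP Hr σ q 1 * genP Hr σ q 5 + C ((p : ℤ) * D q) * genP Hr σ q 2) ∨
    f = genP Hr σ q 4 * genP Hr σ q 4 - (genP Hr σ q 3 * genP Hr σ q 5 + C ((p : ℤ) * D q) * genP Hr σ q 4)}

/-- **the model ring**. -/
abbrev BB := MvPolynomial (PV Hr σ) ℤ ⧸ Ideal.span (relSet p Hr σ D)

/-- the block generators in `BB`. -/
noncomputable def gen (q : Hr) : Fin 6 → BB p Hr σ D := fun j => Ideal.Quotient.mk _ (genP Hr σ q j)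

/-- the free variables in `BB`. -/
noncomputable def fv (s : σ) : BB p Hr σ D := Ideal.Quotient.mk _ (X (Sum.inr s))

/-- the ideal `(p, all variables)`. -/
noncomputable def mm : Ideal (BB p Hr σ D) :=
  Ideal.span ({(p : BB p Hr σ D)} ∪ Set.range (fun z : Hr × Fin 6 => gen p Hr σ D z.1 z.2) ∪
    Set.range (fv p Hr σ D))

theorem scroll_gen (q : Hr) : Scroll (gen p Hr σ D q) (((p : ℤ) * D q : ℤ) : BB p Hr σ D) := by
  have key : ∀ f ∈ relSet p Hr σ D, (Ideal.Quotient.mk (Ideal.span (relSet p Hr σ D))) f = 0 :=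
    fun f hf => Ideal.Quotient.eq_zero_iff_mem.2 (Ideal.subset_span hf)
  have hC : (((p : ℤ) * D q : ℤ) : BB p Hr σ D) =
      Ideal.Quotient.mk (Ideal.span (relSet p Hr σ D)) (C ((p : ℤ) * D q)) := by
    rw [← map_intCast (Ideal.Quotient.mk (Ideal.span (relSet p Hr σ D)))]
    congr 1
  constructor
  · have := key _ ⟨q, Or.inl rfl⟩
    rw [map_sub, sub_eq_zero] at this
    simpa only [map_mul, map_add, gen, hC] using this
  · have := key _ ⟨q, Or.inr (Or.inl rfl)⟩
    rw [map_sub, sub_eq_zero] at this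
    simpa only [map_mul, map_add, gen, hC] using this
  · have := key _ ⟨q, Or.inr (Or.inr (Or.inl rfl))⟩
    rw [map_sub, sub_eq_zero] at this
    simpa only [map_mul, map_add, gen, hC] using this
  · have := key _ ⟨q, Or.inr (Or.inr (Or.inr (Or.inl rfl)))⟩
    rw [map_sub, sub_eq_zero] at this
    simpa only [map_mul, map_add, gen, hC] using this
  · have := key _ ⟨q, Or.inr (Or.inr (Or.inr (Or.inr (Or.inl rfl))))⟩
    rw [map_sub, sub_eq_zero] at this
    simpa only [map_mul, map_add, gen, hC] using this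
  · have := key _ ⟨q, Or.inr (Or.inr (Or.inr (Or.inr (Or.inr rfl))))⟩
    rw [map_sub, sub_eq_zero] at this
    simpa only [map_mul, map_add, gen, hC] using this

/-- the chart of the block `q` over a coefficient ring `k`. -/
noncomputable def chartQ (k : Type) [CommRing k] (Dk : Hr → k) (q : Hr) :
    Fin 6 → MvPolynomial (QV Hr σ) k :=
  chart (X (Sum.inl (q, 0))) (X (Sum.inl (q, 1))) (X (Sum.inl (q, 2))) (C (Dk q))

/-- the substitution on the polynomial ring. -/
noncomputable def PsiP : MvPolynomial (PV Hr σ) ℤ →ₐ[ℤ] MvPolynomial (QV Hr σ) ℤ :=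
  aeval (fun v : PV Hr σ => match v with
    | Sum.inl (q, j) => C (p : ℤ) * chartQ Hr σ ℤ D q j
    | Sum.inr s => C (p : ℤ) * X (Sum.inr s))

theorem PsiP_rel (f : MvPolynomial (PV Hr σ) ℤ) (hf : f ∈ Ideal.span (relSet p Hr σ D)) :
    PsiP p Hr σ D f = 0 := by
  have hle : Ideal.span (relSet p Hr σ D) ≤ RingHom.ker (PsiP p Hr σ D).toRingHom := by
    rw [Ideal.span_le]
    rintro f ⟨q, hf⟩
    have hg : ∀ j, PsiP p Hr σ D (genP Hr σ q j) = C (p : ℤ) * chartQ Hr σ ℤ D q j := by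
      intro j
      simp [PsiP, genP]
    have hc : ∀ c : ℤ, PsiP p Hr σ D (C c) = C c := by
      intro c
      simp [PsiP]
    show PsiP p Hr σ D f = 0
    rcases hf with h | h | h | h | h | h <;> rw [h] <;>
      simp only [map_sub, map_mul, map_add, hg, hc] <;>
      simp only [chartQ, chart, Matrix.cons_val_zero, Matrix.cons_val_one, Matrix.cons_val] <;> ring
  exact hle hf

/-- **the substitution** `Psi : BB → ℤ[lam, b, g, X]`. -/
noncomputable def Psi : BB p Hr σ D →+* MvPolynomial (QV Hr σ) ℤ :=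
  Ideal.Quotient.lift _ (PsiP p Hr σ D).toRingHom (PsiP_rel p Hr σ D)

theorem Psi_gen (q : Hr) (j : Fin 6) :
    Psi p Hr σ D (gen p Hr σ D q j) = C (p : ℤ) * chartQ Hr σ ℤ D q j := by
  simp [Psi, gen, genP, PsiP]

theorem Psi_fv (s : σ) : Psi p Hr σ D (fv p Hr σ D s) = C (p : ℤ) * X (Sum.inr s) := by
  simp [Psi, fv, PsiP]

end Fermat.Agent.ML.Hard
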