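/-
ML / HARD : [H5c] the determinant trick on the torsion side.

`Y` a finite module over a commutative ring `R`, `m` an ideal acting nilpotently, `R/m = F_p`, `#Y[m] ≤ p^δ`.
If `β` kills `Y[I]` then some `F ∈ β^δ + I` kills `Y`.

PROOF (Pontryagin dual).  `Y' := Hom(Y, ℚ/ℤ)` (`CharacterModule Y`, or `AddChar`), an `R`-module by `(a φ)(y) = φ(a y)`.
(1) `Y'/mY'` is dual to `Y[m]`, so (Nakayama, `m` nilpotent on `Y'`) `Y'` is generated by `δ' ≤ δ` elements `φ_j`.
(2) `(I Y')^⊥ = Y[I]`, and `β φ` vanishes on `Y[I]`, so `β Y' ≤ I Y'` (double annihilator in a finite group).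
(3) `β φ_i = ∑ a_ij φ_j`, `a_ij ∈ I`; `F' := det (β - (a_ij))` kills all `φ_j`, hence `Y'`, hence `Y` (characters separate
points); `F' ∈ β^δ' + I`; `F := β^(δ-δ') F'`.
-/
import Mathlib

set_option autoImplicit false

namespace Fermat.Agent.ML.Hard

namespace DetAux

/-- the Pontryagin dual of an abelian group (a type synonym of `AddChar Y ℂ`). -/
def PD (Y : Type*) [AddCommGroup Y] : Type _ := AddChar Y ℂ

section Basic

variable {Y : Type*} [AddCommGroup Y]

noncomputable instance : AddCommGroup (PD Y) := inferInstanceAs (AddCommGroup (AddChar Y ℂ))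

instance [Finite Y] : Finite (PD Y) := inferInstanceAs (Finite (AddChar Y ℂ))

/-- evaluation -/
def ev (ψ : PD Y) (y : Y) : ℂ := (show AddChar Y ℂ from ψ) y

theorem ev_ext {ψ φ : PD Y} (h : ∀ y, ev ψ y = ev φ y) : ψ = φ :=
  DFunLike.ext (F := AddChar Y ℂ) _ _ h

theorem ev_zero_left (y : Y) : ev (0 : PD Y) y = 1 := rfl

theorem ev_add_left (ψ φ : PD Y) (y : Y) : ev (ψ + φ) y = ev ψ y * ev φ y := rfl

theorem ev_zero_right (ψ : PD Y) : ev ψ 0 = 1 := AddChar.map_zero_eq_one _

theorem ev_add_right (ψ : PD Y) (y z : Y) : ev ψ (y + z) = ev ψ y * ev ψ z :=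
  AddChar.map_add_eq_mul _ _ _

theorem eq_zero_of_ev [Finite Y] {y : Y} (h : ∀ ψ : PD Y, ev ψ y = 1) : y = 0 :=
  AddChar.forall_apply_eq_zero.1 h

/-- double annihilator -/
theorem mem_of_perp [Finite Y] (N : AddSubgroup (PD Y)) (ψ : PD Y)
    (h : ∀ y : Y, (∀ φ ∈ N, ev φ y = 1) → ev ψ y = 1) : ψ ∈ N := by
  by_contra hψ
  have hx : (QuotientAddGroup.mk' N ψ) ≠ 0 := by
    intro h0
    exact hψ ((QuotientAddGroup.eq_zero_iff ψ).1 h0)
  obtain ⟨Ξ, hΞ⟩ := AddChar.exists_apply_ne_zero.2 hx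
  obtain ⟨y, hy⟩ := (AddChar.doubleDualEmb_bijective (α := Y)).2
    (Ξ.compAddMonoidHom (QuotientAddGroup.mk' N))
  have hev : ∀ φ : PD Y, ev φ y = Ξ (QuotientAddGroup.mk' N φ) := by
    intro φ
    have := DFunLike.congr_fun hy φ
    exact this
  apply hΞ
  rw [← hev]
  apply h
  intro φ hφ
  have h0 : QuotientAddGroup.mk' N φ = 0 := (QuotientAddGroup.eq_zero_iff φ).2 hφ
  rw [hev, h0]
  exact AddChar.map_zero_eq_one _

theorem card_PD [Finite Y] : Nat.card (PD Y) = Nat.card Y := by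
  cases nonempty_fintype Y
  have : Nat.card (AddChar Y ℂ) = Nat.card Y := by
    rw [Nat.card_eq_fintype_card, Nat.card_eq_fintype_card, AddChar.card_eq]
  exact this

end Basic

section Mod

variable {R : Type*} [CommRing R] {Y : Type*} [AddCommGroup Y] [Module R Y]

/-- the action of `R` on the dual: `(a ψ)(y) = ψ (a y)`. -/
noncomputable instance : SMul R (PD Y) :=
  ⟨fun a ψ => AddChar.compAddMonoidHom (show AddChar Y ℂ from ψ) (DistribSMul.toAddMonoidHom Y a)⟩

theorem ev_smul (a : R) (ψ : PD Y) (y : Y) : ev (a • ψ) y = ev ψ (a • y) := rfl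

noncomputable instance : Module R (PD Y) where
  one_smul ψ := ev_ext fun y => by rw [ev_smul, one_smul]
  mul_smul a b ψ := ev_ext fun y => by rw [ev_smul, ev_smul, ev_smul, smul_smul, mul_comm]
  smul_zero a := ev_ext fun y => by rw [ev_smul, ev_zero_left, ev_zero_left]
  smul_add a ψ φ := ev_ext fun y => by
    rw [ev_smul, ev_add_left, ev_add_left, ev_smul, ev_smul]
  add_smul a b ψ := ev_ext fun y => by
    rw [ev_smul, ev_add_left, ev_smul, ev_smul, add_smul, ev_add_right]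
  zero_smul ψ := ev_ext fun y => by rw [ev_smul, zero_smul, ev_zero_right, ev_zero_left]

/-- restriction of characters to a submodule -/
noncomputable def resPD (S : Submodule R Y) : PD Y →ₗ[R] PD S where
  toFun ψ := AddChar.compAddMonoidHom (show AddChar Y ℂ from ψ) S.subtype.toAddMonoidHom
  map_add' _ _ := rfl
  map_smul' _ _ := rfl

theorem ev_resPD (S : Submodule R Y) (ψ : PD Y) (s : S) : ev (resPD S ψ) s = ev ψ (s : Y) := rfl

/-- the `I`-torsion -/
def tors (I : Ideal R) (Y : Type*) [AddCommGroup Y] [Module R Y] : Submodule R Y where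
  carrier := {y | ∀ a ∈ I, a • y = 0}
  zero_mem' := fun a _ => smul_zero a
  add_mem' := fun {x y} hx hy a ha => by rw [smul_add, hx a ha, hy a ha, add_zero]
  smul_mem' := fun c x hx a ha => by rw [smul_comm, hx a ha, smul_zero]

theorem mem_tors {I : Ideal R} {y : Y} : y ∈ tors I Y ↔ ∀ a ∈ I, a • y = 0 := Iff.rfl

/-- a character which is trivial on `Y[I]` lies in `I Y'`. -/
theorem mem_smul_top_of_tors [Finite Y] (I : Ideal R) (ψ : PD Y)
    (h : ∀ y ∈ tors I Y, ev ψ y = 1) : ψ ∈ (I • ⊤ : Submodule R (PD Y)) := by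
  have := mem_of_perp (I • ⊤ : Submodule R (PD Y)).toAddSubgroup ψ ?_
  · exact this
  intro y hy
  apply h
  intro a ha
  apply eq_zero_of_ev
  intro φ
  rw [← ev_smul]
  exact hy _ (Submodule.smul_mem_smul ha Submodule.mem_top)

theorem ev_eq_one_of_mem_smul_top (I : Ideal R) {ψ : PD Y}
    (hψ : ψ ∈ (I • ⊤ : Submodule R (PD Y))) {y : Y} (hy : y ∈ tors I Y) : ev ψ y = 1 := by
  refine Submodule.smul_induction_on hψ ?_ ?_
  · intro a ha φ _
    rw [ev_smul, hy a ha, ev_zero_right]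
  · intro φ φ' h1 h2
    rw [ev_add_left, h1, h2, one_mul]

/-- `#(Y'/IY') ≤ #Y[I]` -/
theorem card_quot_le [Finite Y] (I : Ideal R) :
    Nat.card (PD Y ⧸ (I • ⊤ : Submodule R (PD Y))) ≤ Nat.card (tors I Y) := by
  rw [← card_PD (Y := tors I Y)]
  have hle : (I • ⊤ : Submodule R (PD Y)) ≤ LinearMap.ker (resPD (tors I Y)) := by
    intro ψ hψ
    rw [LinearMap.mem_ker]
    exact ev_ext fun s => by
      rw [ev_resPD, ev_zero_left]
      exact ev_eq_one_of_mem_smul_top I hψ s.2
  refine Nat.card_le_card_of_injective ((I • ⊤ : Submodule R (PD Y)).liftQ (resPD (tors I Y)) hle) ?_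
  rw [← LinearMap.ker_eq_bot]
  apply Submodule.ker_liftQ_eq_bot
  intro ψ hψ
  rw [LinearMap.mem_ker] at hψ
  apply mem_smul_top_of_tors
  intro y hy
  have := congrArg (fun φ => ev φ (⟨y, hy⟩ : tors I Y)) hψ
  simpa [ev_resPD, ev_zero_left] using this

/-- Nakayama for an ideal which acts nilpotently -/
theorem eq_top_of_sup_smul {M : Type*} [AddCommGroup M] [Module R M] (m : Ideal R)
    (N : Submodule R M) (h : N ⊔ m • ⊤ = ⊤) (E : ℕ) (hE : (m ^ E • ⊤ : Submodule R M) = ⊥) :
    N = ⊤ := by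
  have key : ∀ k : ℕ, N ⊔ (m ^ k • ⊤ : Submodule R M) = ⊤ := by
    intro k
    induction k with
    | zero => simp
    | succ k ih =>
      rw [eq_top_iff]
      calc (⊤ : Submodule R M) = N ⊔ m • ⊤ := h.symm
        _ = N ⊔ m • (N ⊔ (m ^ k • ⊤ : Submodule R M)) := by rw [ih]
        _ = N ⊔ (m • N ⊔ m • (m ^ k • ⊤ : Submodule R M)) := by rw [Submodule.smul_sup]
        _ ≤ N ⊔ (m ^ (k + 1) • ⊤ : Submodule R M) := by
          refine sup_le le_sup_left (sup_le (le_trans Submodule.smul_le_right le_sup_left) ?_)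
          rw [← Submodule.mul_smul, ← pow_succ']
          exact le_sup_right
  have := key E
  rwa [hE, sup_bot_eq] at this

end Mod

theorem exists_gens_aux {p : ℕ} [Fact p.Prime] {Q : Type*} [AddCommGroup Q] [Finite Q]
    [Module (ZMod p) Q] {δ : ℕ} (hcard : Nat.card Q ≤ p ^ δ) :
    ∃ d ≤ δ, ∃ b : Fin d → Q, ∀ x : Q, ∃ n : Fin d → ℕ, x = ∑ i, n i • b i := by
  have hfin : Module.Finite (ZMod p) Q := Module.Finite.of_finite
  have h1 : Nat.card Q = p ^ Module.finrank (ZMod p) Q := by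
    have := Module.natCard_eq_pow_finrank (K := ZMod p) (V := Q)
    rwa [Nat.card_zmod] at this
  refine ⟨Module.finrank (ZMod p) Q, ?_, ⇑(Module.finBasis (ZMod p) Q), ?_⟩
  · rw [h1] at hcard
    exact (Nat.pow_le_pow_iff_right (Fact.out : p.Prime).one_lt).1 hcard
  · intro x
    refine ⟨fun i => ((Module.finBasis (ZMod p) Q).repr x i).val, ?_⟩
    conv_lhs => rw [← (Module.finBasis (ZMod p) Q).sum_repr x]
    refine Finset.sum_congr rfl fun i _ => ?_
    rw [← Nat.cast_smul_eq_nsmul (ZMod p), ZMod.natCast_zmod_val]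

/-- a finite abelian group killed by `p` with at most `p ^ δ` elements has `≤ δ` generators -/
theorem exists_gens {p : ℕ} (hp : p.Prime) {Q : Type*} [AddCommGroup Q] [Finite Q]
    (hpQ : ∀ x : Q, p • x = 0) {δ : ℕ} (hcard : Nat.card Q ≤ p ^ δ) :
    ∃ d ≤ δ, ∃ b : Fin d → Q, ∀ x : Q, ∃ n : Fin d → ℕ, x = ∑ i, n i • b i :=
  @exists_gens_aux p ⟨hp⟩ Q _ _ (AddCommGroup.zmodModule hpQ) δ hcard

end DetAux

open DetAux in
/-- **[DET]** -/
theorem exists_det {R : Type*} [CommRing R] (m I : Ideal R) {p : ℕ} (hp : p.Prime)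
    (hpm : (p : R) ∈ m) (hres : ∀ f : R, ∃ c : ℤ, f - (c : R) ∈ m)
    {Y : Type*} [AddCommGroup Y] [Module R Y] [Finite Y] {E : ℕ}
    (hE : ∀ a ∈ m ^ E, ∀ y : Y, a • y = 0) (β : R)
    (hβ : ∀ y : Y, (∀ a ∈ I, a • y = 0) → β • y = 0) (δ : ℕ)
    (hsoc : Nat.card {y : Y // ∀ a ∈ m, a • y = 0} ≤ p ^ δ) :
    ∃ F : R, F - β ^ δ ∈ I ∧ ∀ y : Y, F • y = 0 := by
  classical
  rcases subsingleton_or_nontrivial R with hR | hR
  · have := Module.subsingleton R Y
    exact ⟨β ^ δ, by simp, fun y => Subsingleton.elim _ _⟩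
  -- generators of the dual
  have hcard : Nat.card (PD Y ⧸ (m • ⊤ : Submodule R (PD Y))) ≤ p ^ δ :=
    (card_quot_le m).trans hsoc
  have hpQ : ∀ x : PD Y ⧸ (m • ⊤ : Submodule R (PD Y)), p • x = 0 := by
    intro x
    obtain ⟨ψ, rfl⟩ := Submodule.Quotient.mk_surjective _ x
    rw [← Submodule.Quotient.mk_smul, Submodule.Quotient.mk_eq_zero,
      ← Nat.cast_smul_eq_nsmul R]
    exact Submodule.smul_mem_smul hpm Submodule.mem_top
  have hfinQ : Finite (PD Y ⧸ (m • ⊤ : Submodule R (PD Y))) :=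
    Finite.of_surjective _ (Submodule.Quotient.mk_surjective _)
  obtain ⟨d, hd, b, hb⟩ := exists_gens hp hpQ hcard
  choose φ hφ using fun i => Submodule.Quotient.mk_surjective _ (b i)
  have hspan : Submodule.span R (Set.range φ) = ⊤ := by
    refine eq_top_of_sup_smul m _ ?_ E ?_
    · rw [eq_top_iff]
      intro ψ _
      obtain ⟨n, hn⟩ := hb (Submodule.Quotient.mk ψ)
      have h1 : ψ - ∑ i, n i • φ i ∈ (m • ⊤ : Submodule R (PD Y)) := by
        rw [← Submodule.Quotient.mk_eq_zero, Submodule.Quotient.mk_sub, hn, sub_eq_zero]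
        rw [← Submodule.mkQ_apply, map_sum]
        refine Finset.sum_congr rfl fun i _ => ?_
        rw [map_nsmul, Submodule.mkQ_apply, hφ]
      have h2 : ∑ i, n i • φ i ∈ Submodule.span R (Set.range φ) :=
        Submodule.sum_mem _ fun i _ =>
          nsmul_mem (Submodule.subset_span (Set.mem_range_self i)) _
      have h3 := Submodule.add_mem_sup h2 h1
      rwa [add_sub_cancel] at h3
    · rw [eq_bot_iff, Submodule.smul_le]
      intro a ha ψ _
      rw [Submodule.mem_bot]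
      exact ev_ext fun y => by rw [ev_smul, hE a ha, ev_zero_right, ev_zero_left]
  -- `β Y' ≤ I Y'`
  have hI : LinearMap.range (algebraMap R (Module.End R (PD Y)) β) ≤ I • ⊤ := by
    rintro _ ⟨ψ, rfl⟩
    apply mem_smul_top_of_tors
    intro y hy
    rw [Module.algebraMap_end_apply, ev_smul, hβ y hy, ev_zero_right]
  obtain ⟨A, hA, hAI⟩ := Matrix.isRepresentation.toEnd_exists_mem_ideal R φ hspan _ I hI
  have hzero : Polynomial.aeval (algebraMap R (Module.End R (PD Y)) β) A.1.charpoly = 0 := by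
    rw [← hA, Polynomial.aeval_algHom_apply,
      ← map_zero (Matrix.isRepresentation.toEnd R φ hspan)]
    congr 1
    ext1
    rw [Polynomial.aeval_subalgebra_coe, Matrix.aeval_self_charpoly, Subalgebra.coe_zero]
  rw [Polynomial.aeval_algebraMap_apply] at hzero
  have hdeg : A.1.charpoly.natDegree = d := by
    rw [Matrix.charpoly_natDegree_eq_dim, Fintype.card_fin]
  have hcoef : ∀ k, A.1.charpoly.coeff k ∈ I ^ (d - k) := by
    intro k
    have := Matrix.coeff_charpoly_mem_ideal_pow hAI k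
    rwa [Fintype.card_fin] at this
  set F' : R := Polynomial.aeval β A.1.charpoly with hF'
  have hF'I : F' - β ^ d ∈ I := by
    rw [hF', Polynomial.aeval_def, Polynomial.eval₂_eq_sum_range, hdeg, Finset.sum_range_succ]
    have hlead : A.1.charpoly.coeff d = 1 := by
      have := A.1.charpoly_monic
      rw [Polynomial.Monic, Polynomial.leadingCoeff, hdeg] at this
      exact this
    rw [hlead, map_one, one_mul, add_sub_cancel_right]
    refine Ideal.sum_mem _ fun k hk => ?_
    have hk' : k < d := Finset.mem_range.1 hk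
    refine Ideal.mul_mem_right _ _ ?_
    exact Ideal.pow_le_self (by omega) (hcoef k)
  refine ⟨β ^ (δ - d) * F', ?_, ?_⟩
  · have : β ^ (δ - d) * F' - β ^ δ = β ^ (δ - d) * (F' - β ^ d) := by
      rw [mul_sub, ← pow_add, Nat.sub_add_cancel hd]
    rw [this]
    exact Ideal.mul_mem_left _ _ hF'I
  · intro y
    apply eq_zero_of_ev
    intro ψ
    rw [← ev_smul, mul_comm, mul_smul]
    have h0 : F' • (β ^ (δ - d) • ψ) = 0 := by
      have := LinearMap.congr_fun hzero (β ^ (δ - d) • ψ)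
      rwa [Module.algebraMap_end_apply, LinearMap.zero_apply] at this
    rw [h0, ev_zero_left]

end Fermat.Agent.ML.Hard
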