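/-
ML / HARD : [H5a] consequences of `OrdModel` : sizes of `B / m^i` and of `B / (F, m^J)`.

`#(B/m^(i+1)) ≤ #(B/m^i) p^(H i)` : `m^i/m^(i+1)` is killed by `p` and generated by `H i` elements.
`card_cut_le` : let `f' ≤ f` be maximal with `F ∈ m^f'`.  If `J ≤ f'` : `B/(F, m^J) = B/m^J`, `≤ p^(J H J)`.
Otherwise multiplication by `F` is an injection `B/m^(J-f') → B/m^J` (field `mul`) with cokernel `B/(F, m^J)`, so
`#(B/(F,m^J)) = #(B/m^J) / #(B/m^(J-f')) ≤ p^(f' H J)`.
-/
import Fermat.Agent.ML.Hard.Defs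

set_option autoImplicit false
set_option linter.style.haveILetI false

namespace Fermat.Agent.ML.Hard

namespace OrdModel

variable {p : ℕ} {B : Type*} [CommRing B] {m : Ideal B} {H : ℕ → ℕ}

/-- generators of `m^i / m^(i+1)` which lie in `m^i`. -/
theorem exists_gens (M : OrdModel p B m H) (i : ℕ) :
    ∃ (r : ℕ) (g : Fin r → B), r ≤ H i ∧ (∀ j, g j ∈ m ^ i) ∧
      ∀ f ∈ m ^ i, ∃ c : Fin r → ℤ, f - ∑ j, c j • g j ∈ m ^ (i + 1) := by
  classical
  obtain ⟨T, hT, hgen⟩ := M.hilb i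
  let L : (T → ℤ) →ₗ[ℤ] B := Fintype.linearCombination ℤ (fun t : T => (t : B))
  let G : Submodule ℤ (T → ℤ) := ((m ^ i).restrictScalars ℤ).comap L
  obtain ⟨r, ⟨b⟩⟩ := Submodule.nonempty_basis_of_pid (Pi.basisFun ℤ T) G
  have hr : r ≤ T.card := by
    have h1 := Submodule.finrank_le G
    rw [Module.finrank_eq_card_basis b, Module.finrank_eq_card_basis (Pi.basisFun ℤ T)] at h1
    simpa using h1
  refine ⟨r, fun j => L (b j : T → ℤ), hr.trans hT, fun j => (b j).2, fun f hf => ?_⟩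
  obtain ⟨c, hc⟩ := hgen f hf
  let c' : T → ℤ := fun t => c t
  have hL : L c' = ∑ t ∈ T, c t • t := by
    show Fintype.linearCombination ℤ (fun t : T => (t : B)) c' = _
    rw [Fintype.linearCombination_apply]
    exact Finset.sum_coe_sort T (fun t => c t • t)
  have hc' : c' ∈ G := by
    show L c' ∈ m ^ i
    rw [hL]
    have := (m ^ i).sub_mem hf (Ideal.pow_le_pow_right (Nat.le_succ i) hc)
    simpa using this
  refine ⟨fun j => b.repr ⟨c', hc'⟩ j, ?_⟩
  have h2 : ∑ j, b.repr ⟨c', hc'⟩ j • L (b j : T → ℤ) = L c' := by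
    have h3 := congrArg (fun x : G => L (x : T → ℤ)) (b.sum_repr ⟨c', hc'⟩)
    simp only [Submodule.coe_sum, Submodule.coe_smul, map_sum, map_smul] at h3
    exact h3
  rw [h2, hL]
  exact hc

theorem exists_surj (M : OrdModel p B m H) (hp : 0 < p) (i : ℕ) :
    ∃ (r : ℕ) (φ : (B ⧸ m ^ i) × (Fin r → Fin p) → B ⧸ m ^ (i + 1)), r ≤ H i ∧
      Function.Surjective φ := by
  classical
  obtain ⟨r, g, hr, hg, hgen⟩ := M.exists_gens i
  haveI : NeZero p := ⟨hp.ne'⟩
  refine ⟨r, fun x => Ideal.Quotient.mk _ (Quotient.out x.1 + ∑ j, ((x.2 j : ℕ) : ℤ) • g j), hr,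
    fun y => ?_⟩
  obtain ⟨b, rfl⟩ := Ideal.Quotient.mk_surjective y
  set x : B ⧸ m ^ i := Ideal.Quotient.mk _ b with hx
  have h1 : b - Quotient.out x ∈ m ^ i := by
    rw [← Ideal.Quotient.eq, ← hx]
    exact (Ideal.Quotient.mk_out x).symm
  obtain ⟨c, hc⟩ := hgen _ h1
  refine ⟨(x, fun j => ⟨(c j % p).toNat, ?_⟩), ?_⟩
  · have h2 : 0 ≤ c j % p := Int.emod_nonneg _ (by exact_mod_cast hp.ne')
    have h3 : c j % p < p := Int.emod_lt_of_pos _ (by exact_mod_cast hp)
    omega
  · rw [Ideal.Quotient.eq]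
    have h4 : ∀ j, (((c j % p).toNat : ℕ) : ℤ) = c j % p := fun j =>
      Int.toNat_of_nonneg (Int.emod_nonneg _ (by exact_mod_cast hp.ne'))
    have h5 : ∑ j, c j • g j - ∑ j, (c j % p) • g j ∈ m ^ (i + 1) := by
      rw [← Finset.sum_sub_distrib]
      refine Ideal.sum_mem _ fun j _ => ?_
      rw [← sub_smul]
      have h6 : c j - c j % p = p * (c j / p) := by
        have := Int.emod_add_mul_ediv (c j) p
        linarith
      rw [h6, zsmul_eq_mul, pow_succ']
      push_cast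
      exact Ideal.mul_mem_mul (Ideal.mul_mem_right _ _ M.p_mem) (hg j)
    simp only [h4]
    have h7 : Quotient.out x + ∑ j, (c j % p) • g j - b =
        -(b - Quotient.out x - ∑ j, c j • g j) - (∑ j, c j • g j - ∑ j, (c j % p) • g j) := by ring
    rw [h7]
    exact (m ^ (i + 1)).sub_mem ((m ^ (i + 1)).neg_mem hc) h5

theorem finite_quot (M : OrdModel p B m H) (hp : 0 < p) (i : ℕ) : Finite (B ⧸ m ^ i) := by
  induction i with
  | zero =>
    rw [pow_zero, Ideal.one_eq_top]
    haveI : Subsingleton (B ⧸ (⊤ : Ideal B)) := Ideal.Quotient.subsingleton_iff.2 rfl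
    infer_instance
  | succ i ih =>
    obtain ⟨r, φ, -, hφ⟩ := M.exists_surj hp i
    haveI := ih
    exact Finite.of_surjective φ hφ

theorem card_succ_le (M : OrdModel p B m H) (hp : 0 < p) (i : ℕ) :
    Nat.card (B ⧸ m ^ (i + 1)) ≤ Nat.card (B ⧸ m ^ i) * p ^ H i := by
  obtain ⟨r, φ, hr, hφ⟩ := M.exists_surj hp i
  haveI := M.finite_quot hp i
  have h1 := Nat.card_le_card_of_surjective φ hφ
  rw [Nat.card_prod, Nat.card_fun, Nat.card_fin, Nat.card_fin] at h1
  exact h1.trans (Nat.mul_le_mul_left _ (Nat.pow_le_pow_right hp hr))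

theorem card_add_le (M : OrdModel p B m H) (hp : 0 < p) (hH : Monotone H) (a k : ℕ) :
    Nat.card (B ⧸ m ^ (a + k)) ≤ Nat.card (B ⧸ m ^ a) * p ^ (k * H (a + k)) := by
  induction k with
  | zero => simp
  | succ k ih =>
    have h1 := M.card_succ_le hp (a + k)
    have h2 : p ^ (k * H (a + k)) ≤ p ^ (k * H (a + (k + 1))) :=
      Nat.pow_le_pow_right hp (Nat.mul_le_mul_left _ (hH (by omega)))
    have h3 : p ^ H (a + k) ≤ p ^ H (a + (k + 1)) := Nat.pow_le_pow_right hp (hH (by omega))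
    calc Nat.card (B ⧸ m ^ (a + (k + 1))) ≤ Nat.card (B ⧸ m ^ (a + k)) * p ^ H (a + k) := h1
      _ ≤ (Nat.card (B ⧸ m ^ a) * p ^ (k * H (a + (k + 1)))) * p ^ H (a + (k + 1)) :=
          Nat.mul_le_mul (ih.trans (Nat.mul_le_mul_left _ h2)) h3
      _ = Nat.card (B ⧸ m ^ a) * p ^ ((k + 1) * H (a + (k + 1))) := by
          rw [mul_assoc, ← pow_add, Nat.succ_mul]

/-- **[H-CUT]** -/
theorem card_cut_le (M : OrdModel p B m H) (hp : 0 < p) (hH : Monotone H) {F : B} {f : ℕ}
    (hF : F ∉ m ^ (f + 1)) (J : ℕ) :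
    Nat.card (B ⧸ (Ideal.span {F} ⊔ m ^ J)) ≤ p ^ (f * H J) := by
  classical
  have hex : ∃ e, F ∉ m ^ (e + 1) := ⟨f, hF⟩
  set f' := Nat.find hex with hf'
  have h1 : F ∉ m ^ (f' + 1) := Nat.find_spec hex
  have h2 : f' ≤ f := Nat.find_min' hex hF
  have h3 : F ∈ m ^ f' := by
    rcases Nat.eq_zero_or_pos f' with h0 | h0
    · rw [h0, pow_zero, Ideal.one_eq_top]; trivial
    · by_contra hn
      have := Nat.find_min hex (m := f' - 1) (by omega)
      apply this
      rwa [Nat.sub_add_cancel h0]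
  have hpow : p ^ (f' * H J) ≤ p ^ (f * H J) := Nat.pow_le_pow_right hp (Nat.mul_le_mul_right _ h2)
  refine le_trans ?_ hpow
  haveI := M.finite_quot hp J
  rcases Nat.lt_or_ge f' J with hJ | hJ
  · -- `f' < J`
    obtain ⟨k, rfl⟩ : ∃ k, J = (k + 1) + f' := ⟨J - f' - 1, by omega⟩
    haveI := M.finite_quot hp (k + 1)
    let ψ : (B ⧸ (Ideal.span {F} ⊔ m ^ (k + 1 + f'))) × (B ⧸ m ^ (k + 1)) → B ⧸ m ^ (k + 1 + f') :=
      fun x => Ideal.Quotient.mk _ (Quotient.out x.1 + F * Quotient.out x.2)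
    have hψ : Function.Injective ψ := by
      rintro ⟨x, y⟩ ⟨x', y'⟩ hxy
      have e1 : Quotient.out x + F * Quotient.out y - (Quotient.out x' + F * Quotient.out y') ∈
          m ^ (k + 1 + f') := (Ideal.Quotient.eq).1 hxy
      have e2 : x = x' := by
        rw [← Ideal.Quotient.mk_out x, ← Ideal.Quotient.mk_out x', Ideal.Quotient.eq]
        have e3 : Quotient.out x - Quotient.out x' =
            (Quotient.out x + F * Quotient.out y - (Quotient.out x' + F * Quotient.out y')) +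
              F * (Quotient.out y' - Quotient.out y) := by ring
        rw [e3]
        exact Ideal.add_mem _ (Ideal.mem_sup_right e1)
          (Ideal.mem_sup_left (Ideal.mul_mem_right _ _ (Ideal.mem_span_singleton_self F)))
      subst e2
      have e4 : F * (Quotient.out y - Quotient.out y') ∈ m ^ (k + 1 + f') := by
        have : F * (Quotient.out y - Quotient.out y') =
            Quotient.out x + F * Quotient.out y - (Quotient.out x + F * Quotient.out y') := by ring
        rw [this]; exact e1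
      have e5 : y = y' := by
        rw [← Ideal.Quotient.mk_out y, ← Ideal.Quotient.mk_out y', Ideal.Quotient.eq]
        by_contra hn
        have := M.mul F _ f' k h1 hn
        apply this
        rwa [show f' + k + 1 = k + 1 + f' by omega]
      rw [e5]
    have c1 := Nat.card_le_card_of_injective ψ hψ
    rw [Nat.card_prod] at c1
    have c2 := M.card_add_le hp hH (k + 1) f'
    have c3 : 0 < Nat.card (B ⧸ m ^ (k + 1)) := Nat.card_pos
    have c4 : Nat.card (B ⧸ (Ideal.span {F} ⊔ m ^ (k + 1 + f'))) * Nat.card (B ⧸ m ^ (k + 1)) ≤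
        p ^ (f' * H (k + 1 + f')) * Nat.card (B ⧸ m ^ (k + 1)) := by
      rw [mul_comm (p ^ _)]; exact c1.trans c2
    exact Nat.le_of_mul_le_mul_right c4 c3
  · -- `J ≤ f'`
    have e1 : Ideal.span {F} ⊔ m ^ J = m ^ J := by
      rw [sup_eq_right, Ideal.span_singleton_le_iff_mem]
      exact Ideal.pow_le_pow_right hJ h3
    rw [e1]
    have c2 := M.card_add_le hp hH 0 J
    rw [zero_add] at c2
    have c0 : Nat.card (B ⧸ m ^ 0) = 1 := by
      rw [pow_zero, Ideal.one_eq_top]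
      haveI : Subsingleton (B ⧸ (⊤ : Ideal B)) := Ideal.Quotient.subsingleton_iff.2 rfl
      exact Nat.card_of_subsingleton 0
    rw [c0, one_mul] at c2
    exact c2.trans (Nat.pow_le_pow_right hp (Nat.mul_le_mul_right _ hJ))

end OrdModel

end Fermat.Agent.ML.Hard
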