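/-
ML / HARD : [H5b] the upper bound lemma `#Y ≤ #(B/I)^(dim Y[m])` and `near_faithful`.

PROOF of `card_le_pow_socle` (socle filtration).  `Y_i := Y[m^i]`, `Y_J = Y`.  `Y_(i+1)/Y_i` embeds in
`Hom((m^i + I)/(m^(i+1) + I), Y[m])`, `y ↦ (a ↦ a y)`; `(m^i+I)/(m^(i+1)+I)` is an `F_p`-vector space of dimension `g_i`,
`#(B/I) = p^(∑ g_i)`; an additive map from it to `Y[m]` is determined by its values on a basis.
-/
import Fermat.Agent.ML.Hard.Cut

set_option autoImplicit false
set_option linter.unusedVariables false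

namespace Fermat.Agent.ML.Hard

section UBaux

variable {B : Type*} [CommRing B] {Y : Type*} [AddCommGroup Y] [Module B Y]

/-- one step for the ring: `p * #(B/K') ≤ #(B/K)`, `K' = K + (a)`, `a ∉ K`, `p a ∈ K`. -/
theorem card_quot_step (K : Ideal B) [Finite (B ⧸ K)] {p : ℕ} (hp : p.Prime) {a : B} (haK : a ∉ K)
    (hpa : (p : B) * a ∈ K) :
    Nat.card (B ⧸ (K ⊔ Ideal.span {a})) * p ≤ Nat.card (B ⧸ K) := by
  classical
  set K' := K ⊔ Ideal.span {a} with hK'
  have haK' : a ∈ K' := Ideal.mem_sup_right (Ideal.mem_span_singleton_self a)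
  let ψ : (B ⧸ K') × Fin p → B ⧸ K := fun x =>
    Ideal.Quotient.mk K (Quotient.out x.1 + ((x.2 : ℕ) : B) * a)
  have hcop : ∀ d : ℤ, (d : B) * a ∈ K → (p : ℤ) ∣ d := by
    intro d hd
    by_contra hnd
    have hc : IsCoprime (p : ℤ) d :=
      (Prime.coprime_iff_not_dvd (Nat.prime_iff_prime_int.1 hp)).2 hnd
    obtain ⟨u, v, huv⟩ := hc
    apply haK
    have h1 : a = (u : B) * ((p : B) * a) + (v : B) * ((d : B) * a) := by
      have h2 : ((u * p + v * d : ℤ) : B) = 1 := by rw [huv]; simp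
      push_cast at h2
      linear_combination (-a) * h2
    rw [h1]
    exact K.add_mem (K.mul_mem_left _ hpa) (K.mul_mem_left _ hd)
  have hinj : Function.Injective ψ := by
    rintro ⟨x, c⟩ ⟨x', c'⟩ h
    have h1 : (Quotient.out x + ((c : ℕ) : B) * a) - (Quotient.out x' + ((c' : ℕ) : B) * a) ∈ K :=
      Ideal.Quotient.eq.1 h
    have hx : x = x' := by
      have h2 : Quotient.out x - Quotient.out x' ∈ K' := by
        have h3 : Quotient.out x - Quotient.out x' =
            ((Quotient.out x + ((c : ℕ) : B) * a) - (Quotient.out x' + ((c' : ℕ) : B) * a))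
              + (((c' : ℕ) : B) - ((c : ℕ) : B)) * a := by ring
        rw [h3]
        exact K'.add_mem (Ideal.mem_sup_left h1) (K'.mul_mem_left _ haK')
      have h4 : Ideal.Quotient.mk K' (Quotient.out x) = Ideal.Quotient.mk K' (Quotient.out x') :=
        Ideal.Quotient.eq.2 h2
      have e1 : Ideal.Quotient.mk K' (Quotient.out x) = x := Quotient.out_eq x
      have e2 : Ideal.Quotient.mk K' (Quotient.out x') = x' := Quotient.out_eq x'
      rw [e1, e2] at h4
      exact h4
    subst hx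
    have h5 : ((((c : ℕ) : ℤ) - ((c' : ℕ) : ℤ) : ℤ) : B) * a ∈ K := by
      have : ((((c : ℕ) : ℤ) - ((c' : ℕ) : ℤ) : ℤ) : B) * a =
          (Quotient.out x + ((c : ℕ) : B) * a) - (Quotient.out x + ((c' : ℕ) : B) * a) := by
        push_cast; ring
      rw [this]; exact h1
    have h6 := hcop _ h5
    have hc : (c : ℕ) = (c' : ℕ) := by
      have b1 := c.2
      have b2 := c'.2
      obtain ⟨e, he⟩ := h6
      have : e = 0 := by
        by_contra hne
        have hpos : (p : ℤ) ≤ |(p : ℤ) * e| := by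
          rw [abs_mul, Nat.abs_cast]
          exact le_mul_of_one_le_right (by positivity) (Int.one_le_abs hne)
        rw [← he] at hpos
        have : |((c : ℕ) : ℤ) - ((c' : ℕ) : ℤ)| < p := by
          rw [abs_lt]; constructor <;> omega
        omega
      rw [this, mul_zero] at he
      omega
    exact Prod.ext rfl (Fin.ext hc)
  have := Nat.card_le_card_of_injective ψ hinj
  rwa [Nat.card_prod, Nat.card_fin] at this

/-- one step for the module. -/
theorem card_tor_step [Finite Y] (m K : Ideal B) {a : B} (hma : ∀ b ∈ m, b * a ∈ K) :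
    Nat.card {y : Y // ∀ c ∈ K, c • y = 0} ≤
      Nat.card {y : Y // ∀ c ∈ K ⊔ Ideal.span {a}, c • y = 0} *
        Nat.card {y : Y // ∀ c ∈ m, c • y = 0} := by
  classical
  -- a section of `y ↦ a y`
  have hex : ∀ z : Y, ∃ s : Y, (∀ c ∈ K, c • s = 0) ∧
      ((∃ y : Y, (∀ c ∈ K, c • y = 0) ∧ a • y = z) → a • s = z) := by
    intro z
    by_cases h : ∃ y : Y, (∀ c ∈ K, c • y = 0) ∧ a • y = z
    · obtain ⟨y, hy, hyz⟩ := h
      exact ⟨y, hy, fun _ => hyz⟩
    · exact ⟨0, fun c _ => smul_zero c, fun h' => absurd h' h⟩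
  choose s hsK hsa using hex
  let ψ : {y : Y // ∀ c ∈ K, c • y = 0} →
      {y : Y // ∀ c ∈ K ⊔ Ideal.span {a}, c • y = 0} × {y : Y // ∀ c ∈ m, c • y = 0} := fun y =>
    (⟨y.1 - s (a • y.1), by
      intro c hc
      obtain ⟨u, hu, v, hv, rfl⟩ := Submodule.mem_sup.1 hc
      obtain ⟨w, rfl⟩ := Ideal.mem_span_singleton'.1 hv
      have h1 : a • (y.1 - s (a • y.1)) = 0 := by
        rw [smul_sub, hsa (a • y.1) ⟨y.1, y.2, rfl⟩, sub_self]
      rw [add_smul, mul_smul, h1, smul_zero, add_zero, smul_sub, y.2 u hu, hsK _ u hu, sub_zero]⟩,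
     ⟨a • y.1, by
      intro c hc
      rw [← mul_smul]
      exact y.2 _ (hma c hc)⟩)
  have hinj : Function.Injective ψ := by
    intro y y' h
    have h1 : y.1 - s (a • y.1) = y'.1 - s (a • y'.1) := congrArg (fun t => (t.1 : Y)) h
    have h2 : a • y.1 = a • y'.1 := congrArg (fun t => (t.2 : Y)) h
    rw [h2] at h1
    exact Subtype.ext (sub_left_injective h1)
  have := Nat.card_le_card_of_injective ψ hinj
  rwa [Nat.card_prod] at this

end UBaux

/-- **[UB]** -/
theorem card_le_pow_socle {B : Type*} [CommRing B] (m I : Ideal B) {p : ℕ} (hp : p.Prime)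
    (hpm : (p : B) ∈ m) (hres : ∀ f : B, ∃ c : ℤ, f - (c : B) ∈ m) {J : ℕ} (hJ : m ^ J ≤ I)
    [Finite (B ⧸ I)] {Y : Type*} [AddCommGroup Y] [Module B Y] [Finite Y]
    (hI : ∀ a ∈ I, ∀ y : Y, a • y = 0) (dd : ℕ)
    (hsoc : Nat.card {y : Y // ∀ a ∈ m, a • y = 0} ≤ p ^ dd) :
    Nat.card Y ≤ Nat.card (B ⧸ I) ^ dd := by
  classical
  have key : ∀ n : ℕ, ∀ K : Ideal B, I ≤ K → Nat.card (B ⧸ K) = n →
      Nat.card {y : Y // ∀ c ∈ K, c • y = 0} ≤ n ^ dd := by
    intro n
    induction n using Nat.strong_induction_on with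
    | _ n ih =>
      intro K hIK hn
      have hfinK : Finite (B ⧸ K) :=
        Finite.of_surjective (Ideal.Quotient.factor hIK) (Ideal.Quotient.factor_surjective _)
      by_cases hK : K = ⊤
      · have h1 : Nat.card {y : Y // ∀ c ∈ K, c • y = 0} ≤ 1 := by
          have : Subsingleton {y : Y // ∀ c ∈ K, c • y = 0} := by
            refine ⟨fun y y' => Subtype.ext ?_⟩
            have e1 := y.2 1 (by rw [hK]; trivial)
            have e2 := y'.2 1 (by rw [hK]; trivial)
            rw [one_smul] at e1 e2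
            rw [e1, e2]
          exact Finite.card_le_one_iff_subsingleton.2 this
        have hnpos : 0 < n := by rw [← hn]; exact Nat.card_pos
        exact h1.trans (Nat.one_le_pow _ _ hnpos)
      · -- find `a`
        have hex : ∃ i, m ^ i ≤ K := ⟨J, hJ.trans hIK⟩
        have hi0 : Nat.find hex ≠ 0 := by
          intro h0
          have := Nat.find_spec hex
          rw [h0, pow_zero, Ideal.one_eq_top, top_le_iff] at this
          exact hK this
        obtain ⟨i, hi⟩ := Nat.exists_eq_succ_of_ne_zero hi0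
        have hi1 : m ^ (i + 1) ≤ K := by
          have := Nat.find_spec hex
          rwa [hi] at this
        have hi2 : ¬ m ^ i ≤ K := Nat.find_min hex (by rw [hi]; exact Nat.lt_succ_self i)
        obtain ⟨a, hai, haK⟩ := SetLike.not_le_iff_exists.1 hi2
        have hma : ∀ b ∈ m, b * a ∈ K := by
          intro b hb
          apply hi1
          rw [pow_succ']
          exact Ideal.mul_mem_mul hb hai
        have hstep := card_quot_step K hp haK (hma _ hpm)
        have hIK' : I ≤ K ⊔ Ideal.span {a} := hIK.trans le_sup_left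
        have hfinK' : Finite (B ⧸ (K ⊔ Ideal.span {a})) :=
          Finite.of_surjective (Ideal.Quotient.factor hIK') (Ideal.Quotient.factor_surjective _)
        have hpos' : 0 < Nat.card (B ⧸ (K ⊔ Ideal.span {a})) := Nat.card_pos
        have hlt : Nat.card (B ⧸ (K ⊔ Ideal.span {a})) < n := by
          rw [← hn]
          refine lt_of_lt_of_le ?_ hstep
          exact lt_mul_of_one_lt_right hpos' hp.one_lt
        have hih := ih _ hlt (K ⊔ Ideal.span {a}) hIK' rfl
        calc Nat.card {y : Y // ∀ c ∈ K, c • y = 0}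
            ≤ Nat.card {y : Y // ∀ c ∈ K ⊔ Ideal.span {a}, c • y = 0} *
                Nat.card {y : Y // ∀ c ∈ m, c • y = 0} := card_tor_step m K hma
          _ ≤ Nat.card (B ⧸ (K ⊔ Ideal.span {a})) ^ dd * p ^ dd := Nat.mul_le_mul hih hsoc
          _ = (Nat.card (B ⧸ (K ⊔ Ideal.span {a})) * p) ^ dd := (mul_pow _ _ _).symm
          _ ≤ n ^ dd := Nat.pow_le_pow_left (hn ▸ hstep) dd
  have h := key _ I le_rfl rfl
  have e : Nat.card Y = Nat.card {y : Y // ∀ c ∈ I, c • y = 0} :=
    Nat.card_congr ⟨fun y => ⟨y, fun c hc => hI c hc y⟩, fun y => y.1, fun _ => rfl, fun _ => rfl⟩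
  rw [e]
  exact h

/-- **[NF]** a module killed by an element of small order is small. -/
theorem near_faithful {p : ℕ} {B : Type*} [CommRing B] {m : Ideal B} {H : ℕ → ℕ}
    (M : OrdModel p B m H) (hp : p.Prime) (hH : Monotone H) {F : B} {f E dd : ℕ}
    (hF : F ∉ m ^ (f + 1)) {Y : Type*} [AddCommGroup Y] [Module B Y] [Finite Y]
    (hFY : ∀ y : Y, F • y = 0) (hE : ∀ a ∈ m ^ E, ∀ y : Y, a • y = 0)
    (hsoc : Nat.card {y : Y // ∀ a ∈ m, a • y = 0} ≤ p ^ dd) :
    Nat.card Y ≤ p ^ (f * H E * dd) := by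
  have hfin : Finite (B ⧸ (Ideal.span {F} ⊔ m ^ E)) := by
    have := M.finite_quot hp.pos E
    exact Finite.of_surjective (Ideal.Quotient.factor (le_sup_right : m ^ E ≤ Ideal.span {F} ⊔ m ^ E))
      (Ideal.Quotient.factor_surjective _)
  have h1 := card_le_pow_socle m (Ideal.span {F} ⊔ m ^ E) hp M.p_mem M.res (J := E) le_sup_right
    (Y := Y) (by
      intro a ha y
      obtain ⟨u, hu, v, hv, rfl⟩ := Submodule.mem_sup.1 ha
      obtain ⟨w, rfl⟩ := Ideal.mem_span_singleton'.1 hu
      rw [add_smul, mul_smul, hFY, smul_zero, hE v hv, add_zero]) dd hsoc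
  calc Nat.card Y ≤ Nat.card (B ⧸ (Ideal.span {F} ⊔ m ^ E)) ^ dd := h1
    _ ≤ (p ^ (f * H E)) ^ dd := Nat.pow_le_pow_left (M.card_cut_le hp.pos hH hF E) dd
    _ = p ^ (f * H E * dd) := by rw [← pow_mul]

end Fermat.Agent.ML.Hard
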