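/-
ML / HARD : the abstract STAGE and the abstract END in the presence of hard raising primes (`OrdModel` instead of slicing).

`A` a commutative ring acting on the finite module `X`, `mA` an ideal with `A/mA = F_p`, nilpotent on `X` (`mA^E₀ X = 0`, `E₀` ARBITRARY: it
does not enter the estimates); `G ≤ X` a BIG submodule, `mA^E G = 0` (`E` enters the estimates);
`J ≤ Ann_A G`; `φ : B → A/J` with `φ(mB) = mA/J`, `(B, mB, H)` an `OrdModel` (`H E = O(E^r)`).

* `surj_of_gen`  : (GEN) `mA/J ≤ φ(mB) (A/J)`, `mA^E ≤ J`  ⟹  every `s ∈ mA` is `φ b`, `b ∈ mB`.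
* `coreF`  : if every `F ∈ β^δ + I` has a lift to `B` of order `≤ f`, and `p^(f H(E) δ) < #G`, then `β` does not kill `X[I]`.
* `stepF`  : the stage `j → j+1` (`= Raise.step`, without slicing): auxiliary INTEGER point `xa : B → ℤ`.
* `finalF` : the END : `G[ker π]` is not killed by `p^c`.
-/
import Fermat.Agent.ML.Hard.UB
import Fermat.Agent.ML.Hard.Det
import Fermat.Agent.ML.Raise.Big

set_option autoImplicit false

namespace Fermat.Agent.ML.Hard

open Fermat.Agent.ML.Raise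

variable {A : Type*} [CommRing A]

section Surj

variable {B : Type*} [CommRing B]

/-- **[SURJ]** (GEN) + nilpotence ⟹ the model ring surjects. -/
theorem surj_of_gen {J mA : Ideal A} {mB : Ideal B} (φ : B →+* A ⧸ J)
    (hres : ∀ s : A, ∃ c : ℤ, s - (c : A) ∈ mA)
    (hle : Ideal.map φ mB ≤ Ideal.map (Ideal.Quotient.mk J) mA)
    (hgen : Ideal.map (Ideal.Quotient.mk J) mA ≤ Ideal.map φ mB) {E : ℕ} (hnil : mA ^ E ≤ J) :
    Function.Surjective φ := by
  let _ : Algebra B (A ⧸ J) := φ.toAlgebra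
  have halg : algebraMap B (A ⧸ J) = φ := rfl
  set N : Submodule B (A ⧸ J) := LinearMap.range (Algebra.linearMap B (A ⧸ J)) with hN
  have h1 : (⊤ : Submodule B (A ⧸ J)) ≤ N ⊔ mB • ⊤ := by
    intro t _
    obtain ⟨s, rfl⟩ := Ideal.Quotient.mk_surjective t
    obtain ⟨c, hc⟩ := hres s
    have e : Ideal.Quotient.mk J s = Algebra.linearMap B (A ⧸ J) (c : B) + Ideal.Quotient.mk J (s - (c : A)) := by
      rw [Algebra.linearMap_apply, halg, map_intCast, map_sub, map_intCast]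
      ring
    rw [e]
    refine Submodule.add_mem_sup (LinearMap.mem_range_self _ _) ?_
    rw [Ideal.smul_top_eq_map, Submodule.restrictScalars_mem, halg]
    exact hgen (Ideal.mem_map_of_mem _ hc)
  have key : ∀ k : ℕ, (⊤ : Submodule B (A ⧸ J)) ≤ N ⊔ (mB ^ k) • ⊤ := by
    intro k
    induction k with
    | zero => 
      rw [pow_zero, Ideal.one_eq_top, Submodule.top_smul]
      exact le_sup_right
    | succ k ih =>
      calc (⊤ : Submodule B (A ⧸ J)) ≤ N ⊔ (mB ^ k) • ⊤ := ih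
        _ ≤ N ⊔ (mB ^ k) • (N ⊔ mB • ⊤) := sup_le_sup_left (Submodule.smul_mono le_rfl h1) _
        _ ≤ N ⊔ (mB ^ (k + 1)) • ⊤ := by
          rw [Submodule.smul_sup, ← Submodule.mul_smul, ← pow_succ]
          exact sup_le le_sup_left (sup_le (le_sup_of_le_left Submodule.smul_le_right) le_sup_right)
  have h2 : (mB ^ E) • (⊤ : Submodule B (A ⧸ J)) = ⊥ := by
    rw [eq_bot_iff, Ideal.smul_top_eq_map, halg, Ideal.map_pow]
    intro t ht
    rw [Submodule.restrictScalars_mem] at ht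
    have h3 := Ideal.pow_right_mono hle E ht
    rw [← Ideal.map_pow] at h3
    have h4 := Ideal.map_mono (f := Ideal.Quotient.mk J) hnil h3
    rw [Ideal.map_quotient_self] at h4
    exact h4
  intro t
  have h5 := key E (Submodule.mem_top (x := t))
  rw [h2, sup_bot_eq] at h5
  obtain ⟨b, hb⟩ := h5
  exact ⟨b, hb⟩

theorem exists_lift_pow {J mA : Ideal A} {mB : Ideal B} (φ : B →+* A ⧸ J)
    (hmap : Ideal.map φ mB = Ideal.map (Ideal.Quotient.mk J) mA) (E : ℕ) (b : B) (hb : b ∈ mB ^ E) :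
    ∃ s ∈ mA ^ E, φ b = Ideal.Quotient.mk J s := by
  have h2 : φ b ∈ Ideal.map (Ideal.Quotient.mk J) (mA ^ E) := by
    rw [Ideal.map_pow, ← hmap, ← Ideal.map_pow]
    exact Ideal.mem_map_of_mem _ hb
  obtain ⟨s, hs, e⟩ := (Ideal.mem_map_iff_of_surjective _ Ideal.Quotient.mk_surjective).1 h2
  exact ⟨s, hs, e.symm⟩

theorem exists_lift_pow' {J mA : Ideal A} {mB : Ideal B} (φ : B →+* A ⧸ J)
    (hsurj : Function.Surjective φ)
    (hmap : Ideal.map φ mB = Ideal.map (Ideal.Quotient.mk J) mA) (E : ℕ) (s : A) (hs : s ∈ mA ^ E) :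
    ∃ b ∈ mB ^ E, φ b = Ideal.Quotient.mk J s := by
  have h2 : Ideal.Quotient.mk J s ∈ Ideal.map φ (mB ^ E) := by
    rw [Ideal.map_pow, hmap, ← Ideal.map_pow]
    exact Ideal.mem_map_of_mem _ hs
  exact (Ideal.mem_map_iff_of_surjective _ hsurj).1 h2

/-- a point `xa` of the model ring with `xa(mB) ≤ (p)` bounds the order from above. -/
theorem not_mem_pow_of_eval {C : Type*} [CommRing C] {mB : Ideal B} (π : C) (xa : B →+* C)
    (hxa : ∀ b ∈ mB, π ∣ xa b) {F : B} {f : ℕ} (h : ¬ π ^ f ∣ xa F) : F ∉ mB ^ f := by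
  intro hF
  apply h
  have h1 : mB ≤ (Ideal.span {π}).comap xa := fun b hb => by
    rw [Ideal.mem_comap, Ideal.mem_span_singleton]
    exact hxa b hb
  have h2 := (Ideal.pow_right_mono h1 f).trans (Ideal.le_comap_pow _ _) hF
  rwa [Ideal.mem_comap, Ideal.span_singleton_pow, Ideal.mem_span_singleton] at h2

end Surj

variable {X : Type*} [AddCommGroup X] [Module A X]

/-- **[CORE-F]** -/
theorem coreF [Finite X] {p δ E₀ E f : ℕ} (hp : p.Prime)
    (mA I : Ideal A) (hpm : (p : A) ∈ mA) (hres : ∀ s : A, ∃ c : ℤ, s - (c : A) ∈ mA)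
    (hE₀ : ∀ s ∈ mA ^ E₀, ∀ x : X, s • x = 0)
    (hsoc : Nat.card {x : X // ∀ s ∈ mA, s • x = 0} ≤ p ^ δ)
    (G : Submodule A X) (hE : ∀ s ∈ mA ^ E, ∀ x ∈ G, s • x = 0)
    {B : Type*} [CommRing B] {mB : Ideal B} {H : ℕ → ℕ} (M : OrdModel p B mB H) (hH : Monotone H)
    (J : Ideal A) (hJ : ∀ s ∈ J, ∀ x ∈ G, s • x = 0) (φ : B →+* A ⧸ J)
    (hsurj : Function.Surjective φ)
    (hmap : Ideal.map φ mB = Ideal.map (Ideal.Quotient.mk J) mA)
    (β : A)
    (hcert : ∀ F : A, F - β ^ δ ∈ I → ∃ Ft : B, φ Ft = Ideal.Quotient.mk J F ∧ Ft ∉ mB ^ (f + 1))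
    (hbig : p ^ (f * H E * δ) < Nat.card G) :
    ∃ v : X, (∀ s ∈ I, s • v = 0) ∧ β • v ≠ 0 := by
  by_contra hcon
  push Not at hcon
  obtain ⟨F, hFI, hFX⟩ := exists_det mA I hp hpm hres hE₀ β hcon δ hsoc
  obtain ⟨Ft, hFt, hFtm⟩ := hcert F hFI
  have htors : Module.IsTorsionBySet A G (J : Set A) := by
    intro x s
    exact Subtype.ext (hJ s.1 s.2 x.1 x.2)
  let _ : Module (A ⧸ J) G := htors.module
  let _ : Module B G := Module.compHom G φ
  have key : ∀ (b : B) (s : A), φ b = Ideal.Quotient.mk J s → ∀ x : G, b • x = s • x := by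
    intro b s e x
    show φ b • x = s • x
    rw [e]
    rfl
  have h1 := near_faithful M hp hH hFtm (Y := G) (E := E) (dd := δ)
    (fun y => by rw [key Ft F hFt y]; exact Subtype.ext (hFX y.1))
    (fun b hb y => by
      obtain ⟨s, hs, e⟩ := exists_lift_pow φ hmap E b hb
      rw [key b s e y]
      exact Subtype.ext (hE s hs y.1 y.2))
    (by
      refine le_trans ?_ hsoc
      refine Nat.card_le_card_of_injective
        (fun y : {y : G // ∀ b ∈ mB, b • y = 0} => (⟨y.1.1, fun s hs => ?_⟩ : {x : X // ∀ s ∈ mA, s • x = 0}))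
        (fun y y' h => Subtype.ext (Subtype.ext (congrArg (fun w : {x : X // ∀ s ∈ mA, s • x = 0} => w.1) h)))
      obtain ⟨b, hb, e⟩ := exists_lift_pow' φ hsurj hmap 1 s (by rwa [pow_one])
      have := y.2 b (by rwa [pow_one] at hb)
      rw [key b s e y.1] at this
      exact congrArg Subtype.val this)
  exact absurd hbig (not_lt.2 h1)

theorem not_pow_succ_dvd_mul {M : Type*} [CommRing M] [IsDomain M] {π a b : M} (hP : Prime π)
    (i j : ℕ) (ha : ¬ π ^ (i + 1) ∣ a) (hb : ¬ π ^ (j + 1) ∣ b) : ¬ π ^ (i + j + 1) ∣ a * b := by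
  rw [← emultiplicity_lt_iff_not_dvd] at ha hb ⊢
  rw [emultiplicity_mul hP]
  push_cast at ha hb ⊢
  rw [ENat.lt_add_one_iff (by simp)] at ha hb
  rw [ENat.lt_add_one_iff (by simp)]
  exact add_le_add ha hb

theorem not_pow_succ_dvd_pow {M : Type*} [CommRing M] [IsDomain M] {π N : M} (hP : Prime π)
    {f : ℕ} (h : ¬ π ^ (f + 1) ∣ N) (δ : ℕ) : ¬ π ^ (δ * f + 1) ∣ N ^ δ := by
  induction δ with
  | zero =>
    rw [Nat.zero_mul, zero_add, pow_one, pow_zero]
    exact hP.not_dvd_one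
  | succ δ ih =>
    rw [pow_succ N, Nat.succ_mul]
    exact not_pow_succ_dvd_mul hP _ _ ih h

theorem aeval_mem_pow {p r : ℕ} (z : Fin r → A) (mA : Ideal A) (hpm : (p : A) ∈ mA)
    (hz : ∀ i, z i ∈ mA) (n : ℕ) (s : SS r) (hs : s ∈ aa p r ^ n) :
    MvPolynomial.aeval z s ∈ mA ^ n := by
  have h1 : aa p r ≤ mA.comap (MvPolynomial.aeval z : SS r →ₐ[ℤ] A).toRingHom := by
    rw [aa, Ideal.span_le]
    rintro x (rfl | ⟨i, rfl⟩)
    · rw [SetLike.mem_coe, Ideal.mem_comap]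
      simpa using hpm
    · rw [SetLike.mem_coe, Ideal.mem_comap]
      simpa using hz i
  exact (Ideal.pow_right_mono h1 n).trans (Ideal.le_comap_pow _ _) hs

/-- **[STEP-F]** the abstract raising step, hard primes allowed (among the raised ones, and/or the new one).
`c` = (a unit multiple of) `c_(j+1)`, `β' = β_(j+1)`; `ct`, `βt` lifts to the model ring; `xa` the auxiliary integer point. -/
theorem stepF [Finite X] {X' : Type*} [AddCommGroup X'] [Module A X'] [Finite X']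
    {p a r D δ E₀ E f₁ Bd m : ℕ} (hp : p.Prime) (z : Fin r → A)
    (mA : Ideal A) (hpm : (p : A) ∈ mA) (hres : ∀ s : A, ∃ c : ℤ, s - (c : A) ∈ mA)
    (hz : ∀ i, z i ∈ mA)
    (hE₀ : ∀ s ∈ mA ^ E₀, ∀ x : X, s • x = 0)
    (hsoc : Nat.card {x : X // ∀ s ∈ mA, s • x = 0} ≤ p ^ δ)
    (G : Submodule A X) (hE : ∀ s ∈ mA ^ E, ∀ x ∈ G, s • x = 0)
    {B : Type*} [CommRing B] {mB : Ideal B} {H : ℕ → ℕ} (M : OrdModel p B mB H) (hH : Monotone H)
    (J : Ideal A) (hJ : ∀ s ∈ J, ∀ x ∈ G, s • x = 0) (φ : B →+* A ⧸ J)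
    (hsurj : Function.Surjective φ)
    (hmap : Ideal.map φ mB = Ideal.map (Ideal.Quotient.mk J) mA)
    (xa : B →+* ℤ) (hxa : ∀ b ∈ mB, (p : ℤ) ∣ xa b)
    (c β' : A) (ct βt : B) (hc : φ ct = Ideal.Quotient.mk J c) (hβ : φ βt = Ideal.Quotient.mk J β')
    (hxc : xa ct = 0) (hxβ : ¬ (p : ℤ) ^ (f₁ + 1) ∣ xa βt) (hBd : δ * f₁ < Bd)
    (hbig : p ^ (δ * f₁ * H E * δ) < Nat.card G)
    (hemb : ∀ x : X, c • x = 0 → ∃ x' : X', ∀ s : A, s • x' = 0 ↔ s • x = 0)
    {e' : Fin D → X'} (H' : IsBoxBasis p a z e') (hm : (r + 1) * m + Bd ≤ a + 1) :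
    p ^ (m ^ (r + 1)) ≤ Nat.card (LinearMap.range (LinearMap.lsmul A X' β')) := by
  have hP : Prime (p : ℤ) := Nat.prime_iff_prime_int.1 hp
  obtain ⟨v, hvI, hvβ⟩ := coreF hp mA (Ideal.span {c} ⊔ mA ^ Bd) hpm hres hE₀ hsoc G hE M hH J hJ φ hsurj
    hmap β' (f := δ * f₁) (by
      intro F hF
      obtain ⟨u, hu, h, hh, e⟩ := Submodule.mem_sup.1 hF
      obtain ⟨g, rfl⟩ := Ideal.mem_span_singleton'.1 hu
      obtain ⟨gt, hgt⟩ := hsurj (Ideal.Quotient.mk J g)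
      obtain ⟨ht, hht, eh⟩ := exists_lift_pow' φ hsurj hmap Bd h hh
      refine ⟨βt ^ δ + gt * ct + ht, ?_, ?_⟩
      · rw [map_add, map_add, map_pow, map_mul, hβ, hgt, hc, eh, ← map_pow, ← map_mul, ← map_add,
          ← map_add]
        congr 1
        linear_combination e
      · refine not_mem_pow_of_eval (p : ℤ) xa hxa ?_
        rw [map_add, map_add, map_pow, map_mul, hxc, mul_zero, add_zero]
        intro hd
        have h1 : (p : ℤ) ^ Bd ∣ xa ht := by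
          by_contra h2
          exact not_mem_pow_of_eval (p : ℤ) xa hxa h2 hht
        have h3 : (p : ℤ) ^ (δ * f₁ + 1) ∣ xa ht := (pow_dvd_pow _ hBd).trans h1
        exact not_pow_succ_dvd_pow hP hxβ δ ((dvd_add_left h3).1 hd)) hbig
  have hcv : c • v = 0 := hvI c (Ideal.mem_sup_left (Ideal.mem_span_singleton_self c))
  obtain ⟨v', hv'⟩ := hemb v hcv
  refine big hp H' (LinearMap.lsmul A X' β') v' (B := Bd) ?_ ?_ hm
  · intro s hs
    rw [hv']
    exact hvI _ (Ideal.mem_sup_right (aeval_mem_pow z mA hpm hz Bd s hs))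
  · show β' • v' ≠ 0
    rw [Ne, hv']
    exact hvβ

/-- **[FINAL-F]** the abstract END: `π : A → ℤ/p^n` the point of `W` (`J ≤ ker π`: the model ring maps onto the ring acting on
`G ⊕ W[p^n]`).  Then `G[ker π]` is not killed by `p^c`. -/
theorem finalF [Finite X] {p n δ E₀ E c : ℕ} (hp : p.Prime)
    (mA : Ideal A) (hpm : (p : A) ∈ mA) (hres : ∀ s : A, ∃ c : ℤ, s - (c : A) ∈ mA)
    (hE₀ : ∀ s ∈ mA ^ E₀, ∀ x : X, s • x = 0)
    (hsoc : Nat.card {x : X // ∀ s ∈ mA, s • x = 0} ≤ p ^ δ)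
    (G : Submodule A X) (hE : ∀ s ∈ mA ^ E, ∀ x ∈ G, s • x = 0)
    {B : Type*} [CommRing B] {mB : Ideal B} {H : ℕ → ℕ} (M : OrdModel p B mB H) (hH : Monotone H)
    (J : Ideal A) (hJ : ∀ s ∈ J, ∀ x ∈ G, s • x = 0) (φ : B →+* A ⧸ J)
    (hsurj : Function.Surjective φ)
    (hmap : Ideal.map φ mB = Ideal.map (Ideal.Quotient.mk J) mA)
    (π : A →+* ZMod (p ^ n)) (hJπ : ∀ s ∈ J, π s = 0) (hπm : ∀ s ∈ mA, (p : ZMod (p ^ n)) ∣ π s)
    (hn : c * δ < n)
    (hbig : p ^ (c * δ * H E * δ) < Nat.card G) :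
    ∃ v : X, (∀ s : A, π s = 0 → s • v = 0) ∧ (p : A) ^ c • v ≠ 0 := by
  obtain ⟨v, hvI, hvβ⟩ := coreF hp mA (RingHom.ker π) hpm hres hE₀ hsoc G hE M hH J hJ φ hsurj
    hmap ((p : A) ^ c) (f := c * δ) (by
      intro F hF
      obtain ⟨Ft, hFt⟩ := hsurj (Ideal.Quotient.mk J F)
      refine ⟨Ft, hFt, fun hmem => ?_⟩
      obtain ⟨s, hs, e⟩ := exists_lift_pow φ hmap _ Ft hmem
      have h1 : π F = π s := by
        rw [hFt] at e
        have := hJπ _ (Ideal.Quotient.eq.1 e)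
        rwa [map_sub, sub_eq_zero] at this
      have h2 : (p : ZMod (p ^ n)) ^ (c * δ + 1) ∣ π s := by
        have h3 : mA ≤ (Ideal.span {(p : ZMod (p ^ n))}).comap π := fun b hb => by
          rw [Ideal.mem_comap, Ideal.mem_span_singleton]
          exact hπm b hb
        have h4 := (Ideal.pow_right_mono h3 _).trans (Ideal.le_comap_pow _ _) hs
        rwa [Ideal.mem_comap, Ideal.span_singleton_pow, Ideal.mem_span_singleton] at h4
      have h5 : π F = (p : ZMod (p ^ n)) ^ (c * δ) := by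
        have := (RingHom.mem_ker).1 hF
        rw [map_sub, sub_eq_zero] at this
        rw [this, map_pow, map_pow, map_natCast, ← pow_mul]
      rw [← h1, h5] at h2
      -- `p^(cδ+1) ∣ p^(cδ)` in `ℤ/p^n`, `cδ < n`
      have h6 : ((p ^ (c * δ + 1) : ℕ) : ZMod (p ^ n)) ∣ ((p ^ (c * δ) : ℕ) : ZMod (p ^ n)) := by
        push_cast
        exact h2
      obtain ⟨w, hw⟩ := h6
      have : NeZero (p ^ n) := ⟨pow_ne_zero _ hp.ne_zero⟩
      obtain ⟨w', rfl⟩ := ZMod.natCast_zmod_surjective w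
      rw [← Nat.cast_mul, ZMod.natCast_eq_natCast_iff] at hw
      have h7 : p ^ (c * δ + 1) ∣ p ^ n := pow_dvd_pow _ hn
      have h8 : p ^ (c * δ + 1) ∣ p ^ (c * δ) :=
        (Nat.ModEq.dvd_iff (hw.symm.of_dvd h7) dvd_rfl).1 (Dvd.intro _ rfl)
      exact absurd (Nat.pow_dvd_pow_iff_le_right hp.one_lt |>.1 h8) (by omega)) hbig
  exact ⟨v, fun s hs => hvI s hs, hvβ⟩

/-- the numerical condition `hbig` of `stepF` / `finalF` (`H E = K₀ (E+1)^r`, `E = e ((r+1) a + 1)`, BIG `= p^(m^(r+1))`) holds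
as soon as `m` is large. -/
theorem stepF_arith {r δ f e a m Bd K₀ : ℕ} (ha : a + 1 = (r + 1) * m + Bd) (hB : Bd ≤ m)
    (hm : f * K₀ * δ * (e * (r + 2) ^ 2 + 1) ^ r < m) :
    f * (K₀ * (e * ((r + 1) * a + 1) + 1) ^ r) * δ < m ^ (r + 1) := by
  have hm0 : 0 < m := by omega
  have h1 : a + 1 ≤ (r + 2) * m := by
    rw [ha]
    nlinarith
  have h2 : (r + 1) * a + 1 ≤ (r + 2) ^ 2 * m := by
    have : (r + 1) * a + 1 ≤ (r + 2) * (a + 1) := by nlinarith
    calc _ ≤ _ := this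
      _ ≤ (r + 2) * ((r + 2) * m) := Nat.mul_le_mul_left _ h1
      _ = _ := by ring
  have h2' : e * ((r + 1) * a + 1) + 1 ≤ (e * (r + 2) ^ 2 + 1) * m := by
    calc e * ((r + 1) * a + 1) + 1 ≤ e * ((r + 2) ^ 2 * m) + m :=
          Nat.add_le_add (Nat.mul_le_mul_left _ h2) hm0
      _ = _ := by ring
  have h3 : (e * ((r + 1) * a + 1) + 1) ^ r ≤ (e * (r + 2) ^ 2 + 1) ^ r * m ^ r := by
    rw [← mul_pow]
    exact Nat.pow_le_pow_left h2' _
  calc f * (K₀ * (e * ((r + 1) * a + 1) + 1) ^ r) * δ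
      ≤ f * (K₀ * ((e * (r + 2) ^ 2 + 1) ^ r * m ^ r)) * δ :=
        Nat.mul_le_mul_right _ (Nat.mul_le_mul_left _ (Nat.mul_le_mul_left _ h3))
    _ = (f * K₀ * δ * (e * (r + 2) ^ 2 + 1) ^ r) * m ^ r := by ring
    _ < m * m ^ r := Nat.mul_lt_mul_of_pos_right hm (pow_pos hm0 r)
    _ = _ := by rw [pow_succ']

end Fermat.Agent.ML.Hard
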