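/-
ML / HARD / Inst : the model ring `BB p Hr σ D` plugged into `stepF` / `finalF`.

* `liftBB`    : universal property of `BB`;  `liftBB_mk`, `liftBB_gen`, `liftBB_fv`, `map_liftBB_mm`.
* `auxPt`     : the auxiliary integer point: raised hard block `↦ (p,0,0,0,0,0)`, free variable `s ↦ pt s`.
* `exists_model` : local variables `val : PV Hr σ → A` in `mA`, scroll relations modulo `J`, (GEN) `mA ≤ J ⊔ (val) ⊔ (p)`, `mA^E ≤ J`
   ⟹ `φ := liftBB (mk J ∘ val)` is surjective and `map φ mm = map (mk J) mA`.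
* `stepF_BB`, `finalF_BB` : `stepF`, `finalF` with all the model data filled in; `c`, `β'` are given modulo `J` by POLYNOMIALS `Pc`, `Pβ` in the
   local variables, evaluated at the auxiliary point.
-/
import Fermat.Agent.ML.Hard.StepF
import Fermat.Agent.ML.Hard.SM.Inst

set_option autoImplicit false

open MvPolynomial

namespace Fermat.Agent.ML.Hard

open Fermat.Agent.ML.Raise

variable (p : ℕ) (Hr σ : Type) (D : Hr → ℤ)

section Lift

variable {T : Type*} [CommRing T] (val : PV Hr σ → T)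

theorem aeval_rel (h : ∀ q, Scroll (fun j => val (Sum.inl (q, j))) ((((p : ℤ) * D q : ℤ)) : T))
    (f : MvPolynomial (PV Hr σ) ℤ) (hf : f ∈ Ideal.span (relSet p Hr σ D)) :
    (aeval val : MvPolynomial (PV Hr σ) ℤ →ₐ[ℤ] T).toRingHom f = 0 := by
  have hle : Ideal.span (relSet p Hr σ D) ≤
      RingHom.ker (aeval val : MvPolynomial (PV Hr σ) ℤ →ₐ[ℤ] T).toRingHom := by
    rw [Ideal.span_le]
    rintro f ⟨q, hf⟩
    have hg : ∀ j, aeval val (genP Hr σ q j) = val (Sum.inl (q, j)) := by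
      intro j
      simp [genP]
    have hc : ∀ c : ℤ, aeval val (C c : MvPolynomial (PV Hr σ) ℤ) = (c : T) := by
      intro c
      simp
    have S := h q
    obtain ⟨dd, hdd⟩ : ∃ dd : ℤ, dd = (p : ℤ) * D q := ⟨_, rfl⟩
    rw [← hdd] at hf S
    show aeval val f = 0
    rcases hf with h | h | h | h | h | h <;> rw [h] <;>
      simp only [map_sub, map_mul, map_add, hg, hc, sub_eq_zero]
    · exact S.r12
    · exact S.r13
    · exact S.r14
    · exact S.r23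
    · exact S.r24
    · exact S.r34
  exact hle hf

/-- **universal property of the model ring.** -/
noncomputable def liftBB
    (h : ∀ q, Scroll (fun j => val (Sum.inl (q, j))) ((((p : ℤ) * D q : ℤ)) : T)) :
    BB p Hr σ D →+* T :=
  Ideal.Quotient.lift _ (aeval val : MvPolynomial (PV Hr σ) ℤ →ₐ[ℤ] T).toRingHom
    (aeval_rel p Hr σ D val h)

variable (h : ∀ q, Scroll (fun j => val (Sum.inl (q, j))) ((((p : ℤ) * D q : ℤ)) : T))

theorem liftBB_mk (P : MvPolynomial (PV Hr σ) ℤ) :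
    liftBB p Hr σ D val h (Ideal.Quotient.mk _ P) = aeval val P := rfl

theorem liftBB_gen (q : Hr) (j : Fin 6) :
    liftBB p Hr σ D val h (gen p Hr σ D q j) = val (Sum.inl (q, j)) := by
  rw [gen, liftBB_mk, genP, aeval_X]

theorem liftBB_fv (s : σ) : liftBB p Hr σ D val h (fv p Hr σ D s) = val (Sum.inr s) := by
  rw [fv, liftBB_mk, aeval_X]

theorem map_liftBB_mm : Ideal.map (liftBB p Hr σ D val h) (mm p Hr σ D) =
    Ideal.span (insert (p : T) (Set.range val)) := by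
  rw [mm, Ideal.map_span]
  congr 1
  ext x
  constructor
  · rintro ⟨y, ((hy | ⟨⟨q, j⟩, rfl⟩) | ⟨s, rfl⟩), rfl⟩
    · rw [Set.mem_singleton_iff] at hy
      rw [hy, map_natCast]
      exact Set.mem_insert _ _
    · rw [liftBB_gen]
      exact Set.mem_insert_of_mem _ ⟨_, rfl⟩
    · rw [liftBB_fv]
      exact Set.mem_insert_of_mem _ ⟨_, rfl⟩
  · rintro (rfl | ⟨(⟨q, j⟩ | s), rfl⟩)
    · exact ⟨(p : BB p Hr σ D), Or.inl (Or.inl rfl), map_natCast _ _⟩
    · exact ⟨gen p Hr σ D q j, Or.inl (Or.inr ⟨(q, j), rfl⟩), liftBB_gen p Hr σ D val h q j⟩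
    · exact ⟨fv p Hr σ D s, Or.inr ⟨s, rfl⟩, liftBB_fv p Hr σ D val h s⟩

end Lift

/-! ### the auxiliary integer point -/

/-- the values of the auxiliary point. -/
def auxVal (pt : σ → ℤ) : PV Hr σ → ℤ :=
  Sum.elim (fun z => if z.2 = 0 then (p : ℤ) else 0) pt

theorem scroll_auxVal (pt : σ → ℤ) (q : Hr) :
    Scroll (fun j => auxVal p Hr σ pt (Sum.inl (q, j))) ((((p : ℤ) * D q : ℤ)) : ℤ) := by
  constructor <;> simp [auxVal]

/-- **the auxiliary integer point.** -/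
noncomputable def auxPt (pt : σ → ℤ) : BB p Hr σ D →+* ℤ :=
  liftBB p Hr σ D (auxVal p Hr σ pt) (scroll_auxVal p Hr σ D pt)

theorem auxPt_mk (pt : σ → ℤ) (P : MvPolynomial (PV Hr σ) ℤ) :
    auxPt p Hr σ D pt (Ideal.Quotient.mk _ P) = aeval (auxVal p Hr σ pt) P := rfl

theorem dvd_auxPt (pt : σ → ℤ) (hpt : ∀ s, (p : ℤ) ∣ pt s) (b : BB p Hr σ D)
    (hb : b ∈ mm p Hr σ D) : (p : ℤ) ∣ auxPt p Hr σ D pt b := by
  have h1 := Ideal.mem_map_of_mem (auxPt p Hr σ D pt) hb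
  rw [auxPt, map_liftBB_mm] at h1
  have h2 : Ideal.span (insert ((p : ℕ) : ℤ) (Set.range (auxVal p Hr σ pt))) ≤
      Ideal.span {(p : ℤ)} := by
    rw [Ideal.span_le]
    rintro x (rfl | ⟨(⟨q, j⟩ | s), rfl⟩)
    · exact Ideal.mem_span_singleton_self _
    · rw [SetLike.mem_coe, Ideal.mem_span_singleton]
      by_cases hj : j = 0 <;> simp [auxVal, hj]
    · rw [SetLike.mem_coe, Ideal.mem_span_singleton]
      exact hpt s
  exact Ideal.mem_span_singleton.1 (h2 h1)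

/-! ### the model of `A ⧸ J` -/

section Model

variable {A : Type*} [CommRing A] (J mA : Ideal A) (val : PV Hr σ → A)

/-- **[MODEL]** -/
theorem exists_model
    (hscr : ∀ q, Scroll (fun j => Ideal.Quotient.mk J (val (Sum.inl (q, j))))
      ((((p : ℤ) * D q : ℤ)) : A ⧸ J))
    (hpm : (p : A) ∈ mA) (hres : ∀ s : A, ∃ c : ℤ, s - (c : A) ∈ mA) (hval : ∀ x, val x ∈ mA)
    (hgen : mA ≤ J ⊔ Ideal.span (Set.range val) ⊔ Ideal.span {(p : A)}) {E : ℕ} (hnil : mA ^ E ≤ J) :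
    Function.Surjective (liftBB p Hr σ D (fun x => Ideal.Quotient.mk J (val x)) hscr) ∧
      Ideal.map (liftBB p Hr σ D (fun x => Ideal.Quotient.mk J (val x)) hscr) (mm p Hr σ D) =
        Ideal.map (Ideal.Quotient.mk J) mA := by
  have hmap : Ideal.map (liftBB p Hr σ D (fun x => Ideal.Quotient.mk J (val x)) hscr) (mm p Hr σ D) =
        Ideal.map (Ideal.Quotient.mk J) mA := by
    rw [map_liftBB_mm]
    apply le_antisymm
    · rw [Ideal.span_le]
      rintro x (rfl | ⟨y, rfl⟩)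
      · rw [← map_natCast (Ideal.Quotient.mk J)]
        exact Ideal.mem_map_of_mem _ hpm
      · exact Ideal.mem_map_of_mem _ (hval y)
    · refine (Ideal.map_mono hgen).trans ?_
      rw [Ideal.map_sup, Ideal.map_sup, Ideal.map_quotient_self, bot_sup_eq, Ideal.map_span,
        Ideal.map_span, ← Ideal.span_union]
      refine Ideal.span_mono ?_
      rintro x (⟨_, ⟨y, rfl⟩, rfl⟩ | ⟨_, hy, rfl⟩)
      · exact Set.mem_insert_of_mem _ ⟨y, rfl⟩
      · rw [Set.mem_singleton_iff] at hy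
        rw [hy, map_natCast]
        exact Set.mem_insert _ _
  exact ⟨surj_of_gen _ hres hmap.le hmap.ge hnil, hmap⟩

theorem liftBB_mk_quot
    (hscr : ∀ q, Scroll (fun j => Ideal.Quotient.mk J (val (Sum.inl (q, j))))
      ((((p : ℤ) * D q : ℤ)) : A ⧸ J)) (P : MvPolynomial (PV Hr σ) ℤ) :
    liftBB p Hr σ D (fun x => Ideal.Quotient.mk J (val x)) hscr (Ideal.Quotient.mk _ P) =
      Ideal.Quotient.mk J (aeval val P) := by
  rw [liftBB_mk]
  induction P using MvPolynomial.induction_on with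
  | C a => simp
  | add P Q hP hQ => rw [map_add, map_add, map_add, hP, hQ]
  | mul_X P x hP => rw [map_mul, map_mul, map_mul, hP, aeval_X, aeval_X]

theorem HB_mono (s r : ℕ) : Monotone (SM.HB s r) := by
  intro a b h
  exact Nat.mul_le_mul_left _ (Nat.pow_le_pow_left (by omega) _)

variable {X : Type*} [AddCommGroup X] [Module A X]

/-- **[STEP-F]** for the model ring `BB`.  `val` = the local variables (six per raised hard prime; `σ` = all the others: three per unraised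
hard prime, `b_i` / `c_i` at the other raising primes, the `x_k` of (GEN)); `3 #Hr + #σ = r`.  `c`, `β'` are polynomials `Pc`, `Pβ` in the local
variables modulo `J`; `pt` = the auxiliary point on `σ` (`b_i ↦ p`, everything else `↦ 0`). -/
theorem stepF_BB [Fintype Hr] [Fintype σ] [Finite X]
    {X' : Type*} [AddCommGroup X'] [Module A X'] [Finite X']
    {a r D' δ E₀ E E₁ f₁ Bd m : ℕ} (hp : p.Prime) (z : Fin r → A)
    (hpm : (p : A) ∈ mA) (hres : ∀ s : A, ∃ c : ℤ, s - (c : A) ∈ mA)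
    (hz : ∀ i, z i ∈ mA)
    (hE₀ : ∀ s ∈ mA ^ E₀, ∀ x : X, s • x = 0)
    (hsoc : Nat.card {x : X // ∀ s ∈ mA, s • x = 0} ≤ p ^ δ)
    (G : Submodule A X) (hE : ∀ s ∈ mA ^ E, ∀ x ∈ G, s • x = 0) (hJ : ∀ s ∈ J, ∀ x ∈ G, s • x = 0)
    (hscr : ∀ q, Scroll (fun j => Ideal.Quotient.mk J (val (Sum.inl (q, j))))
      ((((p : ℤ) * D q : ℤ)) : A ⧸ J))
    (hval : ∀ x, val x ∈ mA)
    (hgen : mA ≤ J ⊔ Ideal.span (Set.range val) ⊔ Ideal.span {(p : A)}) (hnil : mA ^ E₁ ≤ J)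
    (pt : σ → ℤ) (hpt : ∀ s, (p : ℤ) ∣ pt s)
    (c β' : A) (Pc Pβ : MvPolynomial (PV Hr σ) ℤ) (hc : c - aeval val Pc ∈ J)
    (hβ : β' - aeval val Pβ ∈ J) (hxc : aeval (auxVal p Hr σ pt) Pc = 0)
    (hxβ : ¬ (p : ℤ) ^ (f₁ + 1) ∣ aeval (auxVal p Hr σ pt) Pβ) (hBd : δ * f₁ < Bd)
    (hbig : p ^ (δ * f₁ * SM.HB (Fintype.card Hr) (Fintype.card σ) E * δ) < Nat.card G)
    (hemb : ∀ x : X, c • x = 0 → ∃ x' : X', ∀ s : A, s • x' = 0 ↔ s • x = 0)
    {e' : Fin D' → X'} (H' : IsBoxBasis p a z e') (hm : (r + 1) * m + Bd ≤ a + 1) :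
    p ^ (m ^ (r + 1)) ≤ Nat.card (LinearMap.range (LinearMap.lsmul A X' β')) := by
  obtain ⟨hsurj, hmap⟩ := exists_model p Hr σ D J mA val hscr hpm hres hval hgen hnil
  refine stepF hp z mA hpm hres hz hE₀ hsoc G hE (SM.ordModel_BB72 p Hr σ D hp) (HB_mono _ _) J hJ _
    hsurj hmap (auxPt p Hr σ D pt) (dvd_auxPt p Hr σ D pt hpt) c β'
    (Ideal.Quotient.mk _ Pc) (Ideal.Quotient.mk _ Pβ) ?_ ?_ hxc hxβ hBd hbig hemb H' hm
  · rw [liftBB_mk_quot]
    exact (Ideal.Quotient.eq.2 hc).symm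
  · rw [liftBB_mk_quot]
    exact (Ideal.Quotient.eq.2 hβ).symm

/-- **[FINAL-F]** for the model ring `BB`. -/
theorem finalF_BB [Fintype Hr] [Fintype σ] [Finite X] {n δ E₀ E E₁ c : ℕ} (hp : p.Prime)
    (hpm : (p : A) ∈ mA) (hres : ∀ s : A, ∃ c : ℤ, s - (c : A) ∈ mA)
    (hE₀ : ∀ s ∈ mA ^ E₀, ∀ x : X, s • x = 0)
    (hsoc : Nat.card {x : X // ∀ s ∈ mA, s • x = 0} ≤ p ^ δ)
    (G : Submodule A X) (hE : ∀ s ∈ mA ^ E, ∀ x ∈ G, s • x = 0) (hJ : ∀ s ∈ J, ∀ x ∈ G, s • x = 0)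
    (hscr : ∀ q, Scroll (fun j => Ideal.Quotient.mk J (val (Sum.inl (q, j))))
      ((((p : ℤ) * D q : ℤ)) : A ⧸ J))
    (hval : ∀ x, val x ∈ mA)
    (hgen : mA ≤ J ⊔ Ideal.span (Set.range val) ⊔ Ideal.span {(p : A)}) (hnil : mA ^ E₁ ≤ J)
    (π : A →+* ZMod (p ^ n)) (hJπ : ∀ s ∈ J, π s = 0) (hπm : ∀ s ∈ mA, (p : ZMod (p ^ n)) ∣ π s)
    (hn : c * δ < n)
    (hbig : p ^ (c * δ * SM.HB (Fintype.card Hr) (Fintype.card σ) E * δ) < Nat.card G) :
    ∃ v : X, (∀ s : A, π s = 0 → s • v = 0) ∧ (p : A) ^ c • v ≠ 0 := by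
  obtain ⟨hsurj, hmap⟩ := exists_model p Hr σ D J mA val hscr hpm hres hval hgen hnil
  exact finalF hp mA hpm hres hE₀ hsoc G hE (SM.ordModel_BB72 p Hr σ D hp) (HB_mono _ _) J hJ _
    hsurj hmap π hJπ hπm hn hbig

end Model

end Fermat.Agent.ML.Hard
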