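/-
ML / HARD / MidSpec : the CONTRACT of the middle block of a raising step in the F-form (`Hard.raise_step_abs_F`), for an ARBITRARY prime
`q ∈ Pfin \ P`, `q ≠ 2`  (`q = p` allowed).      `ML/Hard/Asm.lean` : `stepF_outer : MidFStmt X t P q → AtpFStmt X t P q → StepConcl .. P q`.

Objects (helper52's `ML/Lift/Inst/Num.lean`) : `S = ↑(cutS T qv)`, `θ = W.apOfModel`, `N = lvl Lc (extP qv) t`, `N' = lvl Lc' (extP qv) t`,
`h = lvl_mul_q hL qv : N' = N * q`, `V = cellV p S θ N' (K+1)`, `U = cellU p S θ N qv a`, `U' = cellK p S θ qv a h`,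
`uA = upE h 0`, `uE = embE h ε`.

* `MidData`  : the MIDDLE BLOCK of `raise_step_abs_F` (verbatim, `Ann := Gt.annihilator`, `Gt = uA G`), + (EMB) + the local fields of the new cell;
* `MidFStmt X t P q` : the contract of the middle block;   `AtpFStmt X t P q` : the field `atp` of the new cell;
* `HardMidStmt` : `MidFStmt` under the hypotheses of `StepHardStmt`.
-/
import Fermat.Agent.ML.Hard.Inst
import Fermat.Agent.ML.Lift.Inst.Num
import Fermat.Agent.ML.Main.LiftRho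
import Fermat.Agent.ML.Main.StepSplit

set_option autoImplicit false
set_option linter.unusedSectionVars false

noncomputable section

open AlgebraicCurve ModularCurve MvPolynomial

namespace Fermat.Agent.ML.Hard

open Fermat.Agent.RIB Fermat.Agent.RIB.Rho Fermat.Agent.GAL Fermat.Agent.GAL.PC Fermat.Agent.ML
  Fermat.Agent.ML.TWFree Fermat.Agent.ML.ESide Fermat.Agent.ML.Lift

local notation "Qbar" => AlgebraicClosure ℚ
local notation "GQ" => (AlgebraicClosure ℚ ≃ₐ[ℚ] AlgebraicClosure ℚ)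
local notation "M₂" => Matrix (Fin 2) (Fin 2)

/-- **the middle block** of `raise_step_abs_F`, (EMB), and the local fields of the new cell. -/
structure MidData (p : ℕ) [Fact p.Prime] (rbar0 : GQ →* M₂ (ZMod p)) (eps : ℕ → ℤ)
    (P : Finset ℕ) (q f t : ℕ) [NeZero q] {N N' : ℕ} [NeZero N] [NeZero N'] (h : N' = N * q)
    (U : AddSubgroup (JZero N)) (V U' : AddSubgroup (JZero N'))
    {R : Type} [CommRing R] [Module R ↥V] (π0 : R →+* ZMod p) (Gt : Submodule R ↥V)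
    (ε : ℤ) (Hr σ : Type) [Fintype Hr] [Fintype σ] (D : Hr → ℤ) (val : PV Hr σ → R) (pt : σ → ℤ)
    (c β' : R) (Pc Pβ : MvPolynomial (PV Hr σ) ℤ) : Prop where
  /-- the number of variables -/
  card : 3 * Fintype.card Hr + Fintype.card σ ≤ t
  /-- the scroll relations at the raised hard primes, modulo `Ann (uA G)` -/
  scr : ∀ r, Scroll (fun j => Ideal.Quotient.mk Gt.annihilator (val (Sum.inl (r, j))))
    ((((p : ℤ) * D r : ℤ)) : R ⧸ Gt.annihilator)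
  hval : ∀ x, π0 (val x) = 0
  /-- (GEN) -/
  gen : RingHom.ker π0 ≤ Gt.annihilator ⊔ Ideal.span (Set.range val) ⊔ Ideal.span {(p : R)}
  hpt : ∀ s, (p : ℤ) ∣ pt s
  hc : c - aeval val Pc ∈ Gt.annihilator
  hβ : β' - aeval val Pβ ∈ Gt.annihilator
  hxc : aeval (auxVal p Hr σ pt) Pc = 0
  hxβ : ¬ (p : ℤ) ^ (f + 1) ∣ aeval (auxVal p Hr σ pt) Pβ
  /-- (EMB) -/
  emb : ∀ v ∈ U, ∀ hv : upE h 0 v ∈ V, c • (⟨upE h 0 v, hv⟩ : ↥V) = 0 →
    ∀ k, dnE h k (upE h 0 v - ε • upE h 1 v) = 0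
  /-- the local fields of the new cell -/
  out : ∀ G' : AddSubgroup (JZero N'), (∀ g : GQ, ∀ x ∈ G', g • x ∈ G') → G' ≤ U' →
    (∀ x ∈ G', ∃ x₁ : ↥V, (x₁ : JZero N') ∈ U' ∧ ((β' • x₁ : ↥V) : JZero N') = x) →
    (∀ q' ∈ insert q P, q' ≠ p →
      LocSt q' (eps q') (G' : Set (JZero N')) ∧ LocUnip q' (G' : Set (JZero N'))) ∧
    (2 ∉ insert q P → ¬ Ram rbar0 2 → LocUr 2 (G' : Set (JZero N'))) ∧
    (Ram rbar0 2 → LocUnip 2 (G' : Set (JZero N')))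

/-- **the contract of the middle block** of the step `P ⟶ insert q P`. -/
def MidFStmt {W : WeierstrassCurve ℤ} {p : ℕ} [Fact p.Prime] {T : Finset ℕ}
    {b : Module.Basis (Fin 2) (ZMod p) (TorsW W p)} {L₀ : ℕ} [NeZero L₀] {eps : ℕ → ℤ}
    {eP : GQ → ℤ} (X : LCtx W p T b L₀ eps eP) (t : ℕ) (P : Finset ℕ) (q : ℕ) : Prop :=
  ∃ f : ℕ, ∀ (a m n K : ℕ) (qv : Fin t → Nat.Primes),
    Frm p X.C.hp2 T W.apOfModel (rbarB b) t 0 0 a m n K qv → 1 ≤ a →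
    ∀ (Lc Lc' : ℕ) [NeZero Lc] [NeZero Lc'] [NeZero q], Lc = cellLevel L₀ P →
    ∀ hL : Lc' = Lc * q,
    ∀ G : AddSubgroup (JZero (lvl Lc (extP qv) t)),
      IsCell p T W.apOfModel (rbarB b) eps eP Lc qv a P G → G ≠ ⊥ →
    ∀ B : Module.Basis (Fin 2) (ZMod (p ^ (K + 1))) (TorsW W (p ^ (K + 1))),
      TopCtx W p b K B (lvl Lc' (extP qv) t)
        (cellV p (↑(cutS T qv) : Set ℕ) W.apOfModel (lvl Lc' (extP qv) t) (K + 1)) →
      Fermat.Agent.ML.Rho.EK (p ^ (K + 1)) (cutS T qv) W.apOfModel (rEB B) →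
    ∀ (R : Type) [CommRing R] [IsLocalRing R] [Finite R] [Algebra (ZMod (p ^ (K + 1))) R]
      [Module R ↥(cellV p (↑(cutS T qv) : Set ℕ) W.apOfModel (lvl Lc' (extP qv) t) (K + 1))]
      (πE : R →ₐ[ZMod (p ^ (K + 1))] ZMod (p ^ (K + 1))) (ρ : GQ →* M₂ R)
      (Φ : M₂ R →ₐ[R] Module.End R
        ↥(cellV p (↑(cutS T qv) : Set ℕ) W.apOfModel (lvl Lc' (extP qv) t) (K + 1))),
      Fermat.Agent.ML.Rho.IsRhoK (lvl Lc' (extP qv) t) (p ^ (K + 1))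
        (cellV p (↑(cutS T qv) : Set ℕ) W.apOfModel (lvl Lc' (extP qv) t) (K + 1))
        (rEB B) πE ρ Φ →
    ∀ Gt : Submodule R
        ↥(cellV p (↑(cutS T qv) : Set ℕ) W.apOfModel (lvl Lc' (extP qv) t) (K + 1)),
      (∀ x, x ∈ Gt ↔ ∃ v ∈ G, upE (lvl_mul_q hL qv) 0 v = (x : JZero (lvl Lc' (extP qv) t))) →
      ∃ (ε : ℤ) (Hr σ : Type) (_ : Fintype Hr) (_ : Fintype σ) (D : Hr → ℤ) (val : PV Hr σ → R)
        (pt : σ → ℤ) (c β' : R) (Pc Pβ : MvPolynomial (PV Hr σ) ℤ),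
        MidData p (rbarB b) eps P q f t (lvl_mul_q hL qv)
          (cellU p (↑(cutS T qv) : Set ℕ) W.apOfModel (lvl Lc (extP qv) t) qv a)
          (cellV p (↑(cutS T qv) : Set ℕ) W.apOfModel (lvl Lc' (extP qv) t) (K + 1))
          (cellK p (↑(cutS T qv) : Set ℕ) W.apOfModel qv a (lvl_mul_q hL qv))
          (pi0 πE) Gt ε Hr σ D val pt c β' Pc Pβ

/-- **the contract of the field `atp`** of the new cell. -/
def AtpFStmt {W : WeierstrassCurve ℤ} {p : ℕ} [Fact p.Prime] {T : Finset ℕ}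
    {b : Module.Basis (Fin 2) (ZMod p) (TorsW W p)} {L₀ : ℕ} [NeZero L₀] {eps : ℕ → ℤ}
    {eP : GQ → ℤ} (X : LCtx W p T b L₀ eps eP) (t : ℕ) (P : Finset ℕ) (q : ℕ) : Prop :=
  ∀ (a m n K : ℕ) (qv : Fin t → Nat.Primes),
    Frm p X.C.hp2 T W.apOfModel (rbarB b) t 0 0 a m n K qv →
    ∀ (Lc Lc' : ℕ) [NeZero Lc] [NeZero Lc'] [NeZero q], Lc = cellLevel L₀ P →
    ∀ hL : Lc' = Lc * q,
    ∀ G' : AddSubgroup (JZero (lvl Lc' (extP qv) t)), (∀ g : GQ, ∀ x ∈ G', g • x ∈ G') →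
      G' ≤ cellK p (↑(cutS T qv) : Set ℕ) W.apOfModel qv a (lvl_mul_q hL qv) → p ∣ Lc' →
      LocPSt p eP a (G' : Set (JZero (lvl Lc' (extP qv) t)))

/-- **the contract of the middle block at a hard prime** (hypotheses of `StepHardStmt`). -/
def HardMidStmt : Prop :=
  ∀ (W : WeierstrassCurve ℤ) (p : ℕ) [Fact p.Prime] (T : Finset ℕ)
    (b : Module.Basis (Fin 2) (ZMod p) (TorsW W p)) (L₀ : ℕ) [NeZero L₀] (eps : ℕ → ℤ)
    (eP : GQ → ℤ) (X : LCtx W p T b L₀ eps eP) (t : ℕ) (P : Finset ℕ) (q : ℕ),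
    P ⊆ Pfin W (rbarB b) L₀ → q ∈ Pfin W (rbarB b) L₀ → q ∉ P → q ≠ 2 → q ≠ p →
    FrobScalar (rbarB b) q → p ∉ P → (2 ∈ Pfin W (rbarB b) L₀ → 2 ∈ P) →
    (∀ q' ∈ Pfin W (rbarB b) L₀, q' ≠ 2 → q' ≠ p → ¬ FrobScalar (rbarB b) q' → q' ∈ P) →
    MidFStmt X t P q

end Fermat.Agent.ML.Hard
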