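/-
ML / HARD / Num : the NUMERICS of the hard stage in the frame of `ML/Main/Cell.lean`.

`Frm` with `F₀ := d f₁ + 1`, `C₀ := d f₁ (4^s (e (t+2) + 1)^t) d`  ⟹  `ha`, `hBd`, `hm`, `hbig` of `Hard.raise_step_abs_F`;
`Frm` with `F₀ := c d`,      `C₀ := c d (4^s (e (t+2) + 1)^t) d`   ⟹  `hn`, `hbig` of `Hard.final_abs_F`.
(`s = #Hr`, `r = #σ`, `3 s + r ≤ t`.)
-/
import Fermat.Agent.ML.Hard.SM.Ord
import Fermat.Agent.ML.Main.Cell

set_option autoImplicit false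

namespace Fermat.Agent.ML.Hard

/-- the constant of the Hilbert bound : `HB s r (e ((t+1) a + 1)) ≤ numK s e t * (a+1)^t`. -/
def numK (s e t : ℕ) : ℕ := 4 ^ s * (e * (t + 2) + 1) ^ t

theorem numK_mono {s s' e e' : ℕ} (t : ℕ) (hs : s ≤ s') (he : e ≤ e') : numK s e t ≤ numK s' e' t := by
  unfold numK
  exact Nat.mul_le_mul (Nat.pow_le_pow_right (by norm_num) hs)
    (Nat.pow_le_pow_left (by gcongr) t)

/-- `HB s r E ≤ K (a+1)^t` for `E = e ((t+1) a + 1)`, `3 s + r ≤ t`. -/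
theorem HB_le_numK {s r t : ℕ} (hsr : 3 * s + r ≤ t) (e a : ℕ) :
    SM.HB s r (e * ((t + 1) * a + 1)) ≤ numK s e t * (a + 1) ^ t := by
  have h1 : e * ((t + 1) * a + 1) + 1 ≤ (e * (t + 2) + 1) * (a + 1) := by nlinarith [Nat.zero_le (e * a), Nat.zero_le (e * t), Nat.zero_le a, Nat.zero_le e]
  have h2 : (e * ((t + 1) * a + 1) + 1) ^ (3 * s + r) ≤ (e * ((t + 1) * a + 1) + 1) ^ t :=
    Nat.pow_le_pow_right (Nat.succ_pos _) hsr
  calc SM.HB s r (e * ((t + 1) * a + 1))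
      = 4 ^ s * (e * ((t + 1) * a + 1) + 1) ^ (3 * s + r) := rfl
    _ ≤ 4 ^ s * ((e * (t + 2) + 1) * (a + 1)) ^ t :=
        Nat.mul_le_mul_left _ (h2.trans (Nat.pow_le_pow_left h1 t))
    _ = numK s e t * (a + 1) ^ t := by rw [numK, mul_pow, mul_assoc]

/-- the exponent of `hbig` is `< m^(t+1)`. -/
theorem expo_lt {s r t : ℕ} (hsr : 3 * s + r ≤ t) {x d e a m C₀ : ℕ}
    (hC₀ : x * numK s e t * d ≤ C₀) (hC : C₀ * (a + 1) ^ t < m ^ (t + 1)) :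
    x * SM.HB s r (e * ((t + 1) * a + 1)) * d < m ^ (t + 1) := by
  refine lt_of_le_of_lt ?_ hC
  calc x * SM.HB s r (e * ((t + 1) * a + 1)) * d
      ≤ x * (numK s e t * (a + 1) ^ t) * d :=
        Nat.mul_le_mul_right _ (Nat.mul_le_mul_left _ (HB_le_numK hsr e a))
    _ = (x * numK s e t * d) * (a + 1) ^ t := by ring
    _ ≤ C₀ * (a + 1) ^ t := Nat.mul_le_mul_right _ hC₀

/-- **`hbig`**, pure numbers. -/
theorem hbig_of {p : ℕ} (hp : 1 < p) {s r t : ℕ} (hsr : 3 * s + r ≤ t) {x d e a m C₀ N : ℕ}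
    (hC₀ : x * numK s e t * d ≤ C₀) (hC : C₀ * (a + 1) ^ t < m ^ (t + 1))
    (hN : p ^ (m ^ (t + 1)) ≤ N) :
    p ^ (x * SM.HB s r (e * ((t + 1) * a + 1)) * d) < N :=
  lt_of_lt_of_le (Nat.pow_lt_pow_right hp (expo_lt hsr hC₀ hC)) hN

section Frame

open Fermat.Agent.RIB Fermat.Agent.RIB.Rho

variable {p : ℕ} [Fact p.Prime] {hp2 : p ≠ 2} {T : Finset ℕ} {θ : ℕ → ℤ}
  {rbar0 : (AlgebraicClosure ℚ ≃ₐ[ℚ] AlgebraicClosure ℚ) →* Matrix (Fin 2) (Fin 2) (ZMod p)}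
  {t F C₀ a m n K : ℕ} {qv : Fin t → Nat.Primes}

/-- **numerics of `raise_step_abs_F`** : with `Bd := d f₁ + 1`. -/
theorem num_step (h : Frm p hp2 T θ rbar0 t F C₀ a m n K qv) {s r : ℕ} (hsr : 3 * s + r ≤ t)
    {d e f₁ : ℕ} (hF : d * f₁ + 1 ≤ F) (hC₀ : d * f₁ * numK s e t * d ≤ C₀) {N : ℕ}
    (hN : p ^ (m ^ (t + 1)) ≤ N) :
    1 ≤ a ∧ d * f₁ < d * f₁ + 1 ∧ (t + 1) * m + (d * f₁ + 1) ≤ a + 1 ∧
      p ^ (d * f₁ * SM.HB s r (e * ((t + 1) * a + 1)) * d) < N := by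
  have ha := h.ha
  exact ⟨by omega, Nat.lt_succ_self _, by omega,
    hbig_of (Fact.out : p.Prime).one_lt hsr hC₀ h.hC hN⟩

/-- **numerics of `final_abs_F`** : the point of `W` modulo `p^(K+1)`. -/
theorem num_final (h : Frm p hp2 T θ rbar0 t F C₀ a m n K qv) {s r : ℕ} (hsr : 3 * s + r ≤ t)
    {d e c : ℕ} (hF : c * d ≤ F) (hC₀ : c * d * numK s e t * d ≤ C₀) {N : ℕ}
    (hN : p ^ (m ^ (t + 1)) ≤ N) :
    c * d < K + 1 ∧ c * d < a + 1 ∧ c * d < n + 1 ∧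
      p ^ (c * d * SM.HB s r (e * ((t + 1) * a + 1)) * d) < N := by
  have ha := h.ha
  have hK := h.hK
  have hn := h.hn
  exact ⟨by omega, by omega, by omega,
    hbig_of (Fact.out : p.Prime).one_lt hsr hC₀ h.hC hN⟩

/-- an exponent `e` with `p^d < 2^e`. -/
theorem exists_e (p d : ℕ) : p ^ d < 2 ^ (p ^ d) := Nat.lt_two_pow_self

end Frame

end Fermat.Agent.ML.Hard
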