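/-
ML / HARD / StepAbsF : the raising step and the END in helper14's ring-free STATE form (`ML/Lift/StepAbs.lean`), hard primes allowed.

Same STATE in / STATE out as `Lift.raise_step_abs`, `Lift.final_abs`; the auxiliary point `(u, δ, N)` and the slicing are replaced by the model
ring `BB p Hr σ D` : local variables `val`, scroll relations modulo `Ann (uA G)`, (GEN) in the full ideal form, polynomials `Pc`, `Pβ`.
-/
import Fermat.Agent.ML.Hard.StepFS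
import Fermat.Agent.ML.Lift.StepAbs

set_option autoImplicit false
set_option linter.unusedSectionVars false

open MvPolynomial

namespace Fermat.Agent.ML.Hard

open Submodule Fermat.Agent.ML Fermat.Agent.ML.Raise Fermat.Agent.ML.Lift

variable {Γ : Type*} [Group Γ] {J : Type*} [AddCommGroup J] [DistribMulAction Γ J]
  {V : AddSubgroup J} {R : Type*} [CommRing R] [Module R V] {tr : Γ → R} {χ : Γ → ℤ}
  {M : Type*} [AddCommGroup M] [DistribMulAction Γ M]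

variable [Finite V] {p a t : ℕ} [Fact p.Prime] (Hr σ : Type) [Fintype Hr] [Fintype σ] (D : Hr → ℤ)

/-- **[RAISE-STEP-F]**, abstract. -/
theorem raise_step_abs_F (H : IsTraceRing V R tr χ) (ha : 1 ≤ a)
    (hcomm : ∀ (g : Γ) (s : R) (x : V),
      ((s • (⟨g • (x : J), H.stable g x x.2⟩ : V) : V) : J) = g • ((s • x : V) : J))
    (τ : Fin t → Γ) (hχτ : ∀ i, ∀ x ∈ V, χ (τ i) • x = x)
    -- the maximal ideal
    (mR : Ideal R) (hpm : (p : R) ∈ mR) (hres : ∀ s : R, ∃ c : ℤ, s - (c : R) ∈ mR)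
    (hz : ∀ i, tr (τ i) - 2 ∈ mR) {E₀ : ℕ} (hE₀ : ∀ s ∈ mR ^ E₀, ∀ x : V, s • x = 0)
    -- the lower level
    (U G : AddSubgroup M) (hU : ∀ (g : Γ), ∀ v ∈ U, g • v ∈ U) (hG : ∀ (g : Γ), ∀ v ∈ G, g • v ∈ G)
    (hUa : ∀ v ∈ U, p ^ a • v = 0) (hGU : G ≤ boxG p a τ U)
    (uA uE : M →+ J) (hA : ∀ (g : Γ) v, uA (g • v) = g • uA v)
    (hE : ∀ (g : Γ) v, uE (g • v) = g • uE v)
    (hAV : ∀ v ∈ U, uA v ∈ V) (hEV : ∀ v ∈ U, uE v ∈ V)
    (hAi : ∀ v ∈ U, uA v = 0 → v = 0) (hEi : ∀ v ∈ U, uE v = 0 → v = 0)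
    {d e : ℕ} (hcogen : Nat.card ↥(boxG p 1 τ U) ≤ p ^ d) (he : p ^ d < 2 ^ e)
    -- the upper level
    (U' : AddSubgroup J) (hU' : ∀ (g : Γ), ∀ x ∈ U', g • x ∈ U') (hU'V : U' ≤ V)
    (hU'a : ∀ x ∈ U', p ^ a • x = 0)
    {D' : ℕ} (hcogen' : Nat.card ↥(boxG p 1 τ U') ≤ p ^ D')
    (hsize' : p ^ (D' * a ^ (t + 1)) ≤ Nat.card ↥(boxG p a τ U'))
    -- the model ring
    (val : PV Hr σ → R)
    (hscr : ∀ q, Scroll (fun j => Ideal.Quotient.mk
        (H.mapSub G hG uA hA fun v hv => hAV v (hGU hv).1).annihilator (val (Sum.inl (q, j))))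
      ((((p : ℤ) * D q : ℤ)) : R ⧸ (H.mapSub G hG uA hA fun v hv => hAV v (hGU hv).1).annihilator))
    (hval : ∀ x, val x ∈ mR)
    (hgen : mR ≤ (H.mapSub G hG uA hA fun v hv => hAV v (hGU hv).1).annihilator ⊔
        Ideal.span (Set.range val) ⊔ Ideal.span {(p : R)})
    (pt : σ → ℤ) (hpt : ∀ s, (p : ℤ) ∣ pt s)
    (c β' : R) (Pc Pβ : MvPolynomial (PV Hr σ) ℤ)
    (hc : c - aeval val Pc ∈ (H.mapSub G hG uA hA fun v hv => hAV v (hGU hv).1).annihilator)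
    (hβ : β' - aeval val Pβ ∈ (H.mapSub G hG uA hA fun v hv => hAV v (hGU hv).1).annihilator)
    (hxc : aeval (auxVal p Hr σ pt) Pc = 0) {f₁ Bd m : ℕ}
    (hxβ : ¬ (p : ℤ) ^ (f₁ + 1) ∣ aeval (auxVal p Hr σ pt) Pβ) (hBd : d * f₁ < Bd)
    (hbig : p ^ (d * f₁ * SM.HB (Fintype.card Hr) (Fintype.card σ) (e * ((t + 1) * a + 1)) * d) <
      Nat.card G)
    (hemb : ∀ v (hv : v ∈ U), c • (⟨uA v, hAV v hv⟩ : V) = 0 → uE v ∈ U')
    (hm : (t + 1) * m + Bd ≤ a + 1) :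
    ∃ G' : AddSubgroup J, (∀ (g : Γ), ∀ x ∈ G', g • x ∈ G') ∧ G' ≤ boxG p a τ U' ∧
      p ^ (m ^ (t + 1)) ≤ Nat.card G' ∧
      ∀ x ∈ G', ∃ x₁ : V, (x₁ : J) ∈ boxG p a τ U' ∧ ((β' • x₁ : V) : J) = x := by
  classical
  have hid : ∀ (g : Γ) (v : J), AddMonoidHom.id J (g • v) = g • AddMonoidHom.id J v :=
    fun _ _ => rfl
  have hidV : ∀ v ∈ U', AddMonoidHom.id J v ∈ V := fun v hv => hU'V hv
  have hidi : ∀ v ∈ U', AddMonoidHom.id J v = 0 → v = 0 := fun _ _ h => h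
  set z : Fin t → R := fun i => tr (τ i) - 2 with hzdef
  set Y : Submodule R V := H.bx U hU uA hA hAV τ a with hY
  set Y' : Submodule R V := H.bx U' hU' (AddMonoidHom.id J) hid hidV τ a with hY'
  set Gt : Submodule R V := H.mapSub G hG uA hA fun v hv => hAV v (hGU hv).1 with hGt
  have hGtY : Gt ≤ Y := by
    rintro x ⟨v, hv, hx⟩
    have e : (⟨uA v, hAV v (hGU hv).1⟩ : V) = x := Subtype.ext hx
    refine ⟨⟨v, (hGU hv).1, hx⟩, ?_⟩
    simp only [SetLike.mem_coe, Submodule.mem_iInf, mem_torsionBy_iff]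
    intro i
    rw [← e, H.z_pow_smul_eq_zero_iff U hU uA hA hAV τ hχτ hAi i a (hGU hv).1]
    exact (hGU hv).2.2 i
  have hcG : Nat.card Gt = Nat.card G :=
    H.card_eq_of_iff G hG uA hA (fun v hv => hAV v (hGU hv).1)
      (fun v hv => hAi v (hGU hv).1) Gt G le_rfl le_rfl fun v hv =>
        ⟨fun h => ⟨v, h, rfl⟩, fun _ => hv⟩
  have hmemY' : ∀ x : V, x ∈ Y' ↔ (x : J) ∈ boxG p a τ U' := by
    intro x
    rw [hY', IsTraceRing.bx, Submodule.mem_inf, Submodule.mem_iInf, mem_boxG]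
    simp only [mem_torsionBy_iff]
    constructor
    · rintro ⟨⟨v, hv, hx⟩, h2⟩
      have hx' : v = (x : J) := hx
      subst hx'
      refine ⟨hv, hU'a _ hv, fun i => ?_⟩
      rw [← H.z_pow_smul (hχτ i), h2 i]
      rfl
    · rintro ⟨h1, -, h3⟩
      refine ⟨⟨x, h1, rfl⟩, fun i => ?_⟩
      rw [← ZeroMemClass.coe_eq_zero, H.z_pow_smul (hχτ i)]
      exact h3 i
  have hpaY : ∀ (U₀ : AddSubgroup J) , (∀ x ∈ U₀, p ^ a • x = 0) → ∀ x : V, (x : J) ∈ U₀ →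
      (p : R) ^ a • x = 0 := by
    intro U₀ h x hx
    rw [← ZeroMemClass.coe_eq_zero, ← Nat.cast_pow, IsTraceRing.natCast_smul]
    exact h _ hx
  have key := stepFS p Hr σ D (A := R) (V := V) (V' := V) (a := a) (r := t) (D' := D') (d := d)
    (e := e) (E₀ := E₀) (f₁ := f₁) (Bd := Bd) (m := m) ha z mR hpm hres hz Y Gt hGtY ?_ ?_
    (by rw [hY, H.card_soc_bx U hU uA hA hAV τ hχτ hAi p a ha]; exact hcogen) he
    (fun s hs x _ => hE₀ s hs x) val hscr hval hgen pt hpt c β' Pc Pβ hc hβ hxc hxβ hBd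
    (by rw [hcG]; exact hbig) Y' ?_ ?_ ?_
    (by rw [hY', H.card_soc_bx U' hU' _ hid hidV τ hχτ hidi p a ha]; exact hcogen')
    (by rw [hY', H.card_bx U' hU' _ hid hidV τ hχτ hidi p a hU'a]; exact hsize') hm
  · refine ⟨imgG β' Y', ?_, ?_, by rw [card_imgG]; exact key, ?_⟩
    · intro g x hx
      obtain ⟨x₁, h1, rfl⟩ := mem_imgG.1 hx
      refine mem_imgG.2 ⟨⟨g • (x₁ : J), H.stable g x₁ x₁.2⟩, ?_, hcomm g β' x₁⟩
      rw [hmemY'] at h1 ⊢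
      refine ⟨hU' g _ h1.1, hU'a _ (hU' g _ h1.1), fun i => ?_⟩
      have h2 := hcomm g ((tr (τ i) - 2) ^ a) x₁
      rw [H.z_pow_smul (hχτ i), H.z_pow_smul (hχτ i), h1.2.2 i, smul_zero] at h2
      exact h2
    · intro x hx
      obtain ⟨x₁, h1, rfl⟩ := mem_imgG.1 hx
      exact (hmemY' _).1 (Y'.smul_mem β' h1)
    · intro x hx
      obtain ⟨x₁, h1, rfl⟩ := mem_imgG.1 hx
      exact ⟨x₁, (hmemY' _).1 h1, rfl⟩
  · -- hpa
    rintro x ⟨⟨v, hv, hx⟩, -⟩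
    have e : (⟨uA v, hAV v hv⟩ : V) = x := Subtype.ext hx
    rw [← e, IsTraceRing.natCast_pow_smul_eq_zero_iff U uA hAV hAi p a hv]
    exact hUa v hv
  · -- hza
    rintro i x ⟨-, h2⟩
    simp only [SetLike.mem_coe, Submodule.mem_iInf, mem_torsionBy_iff] at h2
    exact h2 i
  · -- hemb
    rintro x ⟨⟨v, hv, hx⟩, h2⟩ hcx
    simp only [SetLike.mem_coe, Submodule.mem_iInf, mem_torsionBy_iff] at h2
    have e : (⟨uA v, hAV v hv⟩ : V) = x := Subtype.ext hx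
    have h1 : uE v ∈ U' := hemb v hv (by rw [e]; exact hcx)
    refine ⟨⟨uE v, hEV v hv⟩, ?_, fun s => ?_⟩
    · rw [hmemY']
      refine ⟨h1, hU'a _ h1, fun i => ?_⟩
      show (zOp (τ i))^[a] (uE v) = 0
      have h3 := h2 i
      rw [← e, H.z_pow_smul_eq_zero_iff U hU uA hA hAV τ hχτ hAi i a hv] at h3
      rw [← map_zOp_iterate uE hE, h3, map_zero]
    · rw [← e]
      exact H.ann_iff U hU uE uA hE hA hEV hAV hEi hAi s hv
  · -- hpa'
    intro x hx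
    exact hpaY U' hU'a x ((hmemY' x).1 hx).1
  · -- hza'
    rintro i x ⟨-, h2⟩
    simp only [SetLike.mem_coe, Submodule.mem_iInf, mem_torsionBy_iff] at h2
    exact h2 i

/-- **[FINAL-F]**, abstract : a class of `G` killed by `ker π` (`π` = the point of `W`) and not by `p^c`. -/
theorem final_abs_F (H : IsTraceRing V R tr χ)
    (τ : Fin t → Γ) (hχτ : ∀ i, ∀ x ∈ V, χ (τ i) • x = x)
    (mR : Ideal R) (hpm : (p : R) ∈ mR) (hres : ∀ s : R, ∃ c : ℤ, s - (c : R) ∈ mR)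
    (hz : ∀ i, tr (τ i) - 2 ∈ mR) {E₀ : ℕ} (hE₀ : ∀ s ∈ mR ^ E₀, ∀ x : V, s • x = 0)
    (U G : AddSubgroup M) (hU : ∀ (g : Γ), ∀ v ∈ U, g • v ∈ U) (hG : ∀ (g : Γ), ∀ v ∈ G, g • v ∈ G)
    (hGU : G ≤ boxG p a τ U)
    (uA : M →+ J) (hA : ∀ (g : Γ) v, uA (g • v) = g • uA v)
    (hAV : ∀ v ∈ U, uA v ∈ V) (hAi : ∀ v ∈ U, uA v = 0 → v = 0)
    {d e : ℕ} (hcogen : Nat.card ↥(boxG p 1 τ U) ≤ p ^ d) (he : p ^ d < 2 ^ e)
    {n : ℕ} (π : R →+* ZMod (p ^ n)) (hπm : ∀ s ∈ mR, (p : ZMod (p ^ n)) ∣ π s)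
    (val : PV Hr σ → R)
    (hscr : ∀ q, Scroll (fun j => Ideal.Quotient.mk
        ((H.mapSub G hG uA hA fun v hv => hAV v (hGU hv).1).annihilator ⊓ RingHom.ker π)
        (val (Sum.inl (q, j))))
      ((((p : ℤ) * D q : ℤ)) :
        R ⧸ ((H.mapSub G hG uA hA fun v hv => hAV v (hGU hv).1).annihilator ⊓ RingHom.ker π)))
    (hval : ∀ x, val x ∈ mR)
    (hgen : mR ≤ ((H.mapSub G hG uA hA fun v hv => hAV v (hGU hv).1).annihilator ⊓ RingHom.ker π) ⊔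
        Ideal.span (Set.range val) ⊔ Ideal.span {(p : R)})
    {c : ℕ} (hn : c * d < n)
    (hbig : p ^ (c * d * SM.HB (Fintype.card Hr) (Fintype.card σ) (e * ((t + 1) * a + 1)) * d) <
      Nat.card G) :
    ∃ v, ∃ hv : v ∈ G, (∀ s : R, π s = 0 → s • (⟨uA v, hAV v (hGU hv).1⟩ : V) = 0) ∧
      p ^ c • v ≠ 0 := by
  classical
  set z : Fin t → R := fun i => tr (τ i) - 2 with hzdef
  set Gt : Submodule R V := H.mapSub G hG uA hA fun v hv => hAV v (hGU hv).1 with hGt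
  have hcG : Nat.card Gt = Nat.card G :=
    H.card_eq_of_iff G hG uA hA (fun v hv => hAV v (hGU hv).1)
      (fun v hv => hAi v (hGU hv).1) Gt G le_rfl le_rfl fun v hv =>
        ⟨fun h => ⟨v, h, rfl⟩, fun _ => hv⟩
  have hfin : Finite ↥(boxG p 1 τ U) :=
    Finite.of_injective (fun x : ↥(boxG p 1 τ U) => (⟨uA x.1, hAV x.1 x.2.1⟩ : V)) (fun x y h => by
      have h1 : uA x.1 = uA y.1 := congrArg Subtype.val h
      have h2 : x.1 - y.1 = 0 := hAi _ (U.sub_mem x.2.1 y.2.1) (by rw [map_sub, h1, sub_self])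
      exact Subtype.ext (sub_eq_zero.1 h2))
  have hsoc : Nat.card ↥(Gt ⊓ (torsionBy R V (p : R) ⊓ ⨅ i, torsionBy R V (z i))) ≤ p ^ d := by
    refine le_trans ?_ hcogen
    refine le_of_eq_of_le (H.card_eq_of_iff G hG uA hA (fun v hv => hAV v (hGU hv).1)
      (fun v hv => hAi v (hGU hv).1) _ (G ⊓ boxG p 1 τ U) inf_le_left inf_le_left
      fun v hv => ?_) (Nat.card_le_card_of_injective
        (fun x : ↥(G ⊓ boxG p 1 τ U) => (⟨x.1, x.2.2⟩ : ↥(boxG p 1 τ U)))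
        (fun x y h => Subtype.ext (congrArg (fun w : ↥(boxG p 1 τ U) => w.1) h)))
    have e1 := fun i => H.z_pow_smul_eq_zero_iff U hU uA hA hAV τ hχτ hAi i 1 (hGU hv).1
    have e2 := IsTraceRing.natCast_pow_smul_eq_zero_iff (R := R) U uA hAV hAi p 1 (hGU hv).1
    simp only [pow_one] at e1 e2
    rw [AddSubgroup.mem_inf, mem_boxG]
    simp only [Submodule.mem_inf, Submodule.mem_iInf, mem_torsionBy_iff, hzdef, e1, e2, pow_one]
    constructor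
    · rintro ⟨-, -, h2, h3⟩
      exact ⟨⟨v, hv, rfl⟩, h2, h3⟩
    · rintro ⟨-, h2, h3⟩
      exact ⟨hv, (hGU hv).1, h2, h3⟩
  obtain ⟨x, ⟨v, hv, hx⟩, hx1, hx2⟩ := finalFS p Hr σ D (A := R) (V := V) (a := a) (r := t) (d := d)
    (e := e) (E₀ := E₀) (n := n) (c := c) z mR hpm hres hz Gt
    (by
      rintro x ⟨v, hv, hx⟩
      have e : (⟨uA v, hAV v (hGU hv).1⟩ : V) = x := Subtype.ext hx
      rw [← e, IsTraceRing.natCast_pow_smul_eq_zero_iff U uA hAV hAi p a (hGU hv).1]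
      exact (hGU hv).2.1)
    (by
      rintro i x ⟨v, hv, hx⟩
      have e : (⟨uA v, hAV v (hGU hv).1⟩ : V) = x := Subtype.ext hx
      rw [← e, H.z_pow_smul_eq_zero_iff U hU uA hA hAV τ hχτ hAi i a (hGU hv).1]
      exact (hGU hv).2.2 i)
    hsoc he (fun s hs x _ => hE₀ s hs x) π hπm val hscr hval hgen hn (by rw [hcG]; exact hbig)
  have e : (⟨uA v, hAV v (hGU hv).1⟩ : V) = x := Subtype.ext hx
  refine ⟨v, hv, fun s hs => by rw [e]; exact hx1 s hs, fun h0 => hx2 ?_⟩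
  rw [← e, IsTraceRing.natCast_pow_smul_eq_zero_iff U uA hAV hAi p c (hGU hv).1]
  exact h0

end Fermat.Agent.ML.Hard
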