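/-
ML / HARD / Asm : the OUTER ASSEMBLY of a raising step in the F-form (`Hard.raise_step_abs_F`), for an ARBITRARY prime
`q ∈ Pfin \ P`, `q ≠ 2`  (`q = p` allowed).   Contracts : `ML/Hard/MidSpec.lean`.

* `stepF_core`  : `raise_step_abs_F` on `(cellU N, cellK h)`, `V = cellV Nq (K+1)`, `uA = upE h 0`, `uE = embE h ε`, middle block = `MidData`;
* `stepF_outer : MidFStmt X t P q → AtpFStmt X t P q → StepConcl .. P q`;
* `atpF_of_not_mem` : `AtpFStmt` for `p ∉ insert q P`  (from `LowerStmt`);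
* `stepHard_of : LowerStmt → HardMidStmt → StepHardStmt`.
-/
import Fermat.Agent.ML.Hard.MidSpec
import Fermat.Agent.ML.Hard.StepAbsF
import Fermat.Agent.ML.Hard.Num
import Fermat.Agent.ML.Lift.Inst.Out
import Fermat.Agent.ML.Lift.OfRhoK
import Fermat.Agent.ML.Rho.CellTop
import Fermat.Agent.ML.At2.N2.NumLvl
import Fermat.Agent.ML.AtP.StepP.Num

set_option autoImplicit false
set_option linter.unusedSectionVars false

noncomputable section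

open AlgebraicCurve ModularCurve MvPolynomial

namespace Fermat.Agent.ML.Hard

open Fermat.Agent.RIB Fermat.Agent.RIB.Rho Fermat.Agent.GAL Fermat.Agent.GAL.PC Fermat.Agent.ML
  Fermat.Agent.ML.TWFree Fermat.Agent.ML.ESide Fermat.Agent.ML.Lift

local notation "Qbar" => AlgebraicClosure ℚ
local notation "GQ" => (AlgebraicClosure ℚ ≃ₐ[ℚ] AlgebraicClosure ℚ)
local notation "M₂" => Matrix (Fin 2) (Fin 2)

section Core

variable {p : ℕ} [Fact p.Prime] {S : Finset ℕ} {θ : ℕ → ℤ} {t : ℕ} {qv : Fin t → Nat.Primes}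
  {N Nq q : ℕ} [NeZero N] [NeZero Nq] [NeZero q]

/-- **the raising step in F-form on the fixed objects.** -/
theorem stepF_core (h : Nq = N * q) (hq : q.Prime) (hqN : ¬ q ∣ N)
    (hS : ∀ r : ℕ, r.Prime → r ∣ Nq * p → r ∈ S) (hAP : NonEisAP p (↑S : Set ℕ) θ) (hqS : q ∈ S)
    (hqv : ∀ i, ((qv i : Nat.Primes) : ℕ) ≠ q) (hqvp : ∀ i, ((qv i : Nat.Primes) : ℕ) ≠ p)
    {a K : ℕ} (ha : 1 ≤ a) (haK : a ≤ K + 1)
    {A : Fin t → ValuationSubring Qbar} {τ : Fin t → GQ}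
    (hA : ∀ i, (A i).LiesOverPrime ((qv i : Nat.Primes) : ℕ))
    (hτ : ∀ i, τ i ∈ (A i).inertiaSubgroupIn ℚ)
    (G : AddSubgroup (JZero N)) (hGgal : ∀ g : GQ, ∀ v ∈ G, g • v ∈ G)
    (hGU : G ≤ boxG p a τ (cellU p (↑S : Set ℕ) θ N qv a))
    {d e D' : ℕ} (hcogen : Nat.card ↥(boxG p 1 τ (cellU p (↑S : Set ℕ) θ N qv a)) ≤ p ^ d)
    (he : p ^ d < 2 ^ e)
    (hcogen' : Nat.card ↥(boxG p 1 τ (cellK p (↑S : Set ℕ) θ qv a h)) ≤ p ^ D')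
    (hsize' : p ^ (D' * a ^ (t + 1)) ≤ Nat.card ↥(boxG p a τ (cellK p (↑S : Set ℕ) θ qv a h)))
    {rE : GQ →* M₂ (ZMod (p ^ (K + 1)))} {R : Type} [CommRing R] [Finite R]
    [Algebra (ZMod (p ^ (K + 1))) R] [Module R ↥(cellV p (↑S : Set ℕ) θ Nq (K + 1))]
    {πE : R →ₐ[ZMod (p ^ (K + 1))] ZMod (p ^ (K + 1))} {ρ : GQ →* M₂ R}
    {Φ : M₂ R →ₐ[R] Module.End R ↥(cellV p (↑S : Set ℕ) θ Nq (K + 1))}
    (HR : Fermat.Agent.ML.Rho.IsRhoK Nq (p ^ (K + 1)) (cellV p (↑S : Set ℕ) θ Nq (K + 1)) rE πE ρ Φ)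
    (π0 : R →+* ZMod p) (hnil : ∀ s : R, π0 s = 0 → IsNilpotent s)
    (hz : ∀ i, π0 ((ρ (τ i)).trace - 2) = 0)
    (Gt : Submodule R ↥(cellV p (↑S : Set ℕ) θ Nq (K + 1)))
    (hGt : ∀ x, x ∈ Gt ↔ ∃ v ∈ G, upE h 0 v = (x : JZero Nq))
    {rbar0 : GQ →* M₂ (ZMod p)} {eps : ℕ → ℤ} {P : Finset ℕ} {f : ℕ} {ε : ℤ} {Hr σ : Type}
    [Fintype Hr] [Fintype σ] {D : Hr → ℤ} {val : PV Hr σ → R} {pt : σ → ℤ} {c β' : R}
    {Pc Pβ : MvPolynomial (PV Hr σ) ℤ}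
    (M : MidData p rbar0 eps P q f t h (cellU p (↑S : Set ℕ) θ N qv a)
      (cellV p (↑S : Set ℕ) θ Nq (K + 1)) (cellK p (↑S : Set ℕ) θ qv a h) π0 Gt ε Hr σ D val pt
      c β' Pc Pβ) {m : ℕ}
    (hbig : p ^ (d * f * SM.HB (Fintype.card Hr) (Fintype.card σ) (e * ((t + 1) * a + 1)) * d) <
      Nat.card G)
    (hm : (t + 1) * m + (d * f + 1) ≤ a + 1) :
    ∃ G' : AddSubgroup (JZero Nq), (∀ g : GQ, ∀ x ∈ G', g • x ∈ G') ∧
      G' ≤ boxG p a τ (cellK p (↑S : Set ℕ) θ qv a h) ∧ p ^ (m ^ (t + 1)) ≤ Nat.card G' ∧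
      ∀ x ∈ G', ∃ x₁ : ↥(cellV p (↑S : Set ℕ) θ Nq (K + 1)),
        (x₁ : JZero Nq) ∈ boxG p a τ (cellK p (↑S : Set ℕ) θ qv a h) ∧
        ((β' • x₁ : ↥(cellV p (↑S : Set ℕ) θ Nq (K + 1))) : JZero Nq) = x := by
  have hp : p.Prime := Fact.out
  have hS' : ∀ r : ℕ, r.Prime → r ∉ (↑S : Set ℕ) → ¬ r ∣ Nq * p := fun r hr hrS hd =>
    hrS (hS r hr hd)
  have hm1 : 1 < p ^ (K + 1) := Nat.one_lt_pow K.succ_ne_zero hp.one_lt
  have : Finite ↥(cellV p (↑S : Set ℕ) θ Nq (K + 1)) := finite_cellV hp (K + 1)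
  have hAV : ∀ v ∈ cellU p (↑S : Set ℕ) θ N qv a, upE h 0 v ∈ cellV p (↑S : Set ℕ) θ Nq (K + 1) :=
    fun v hv => cellU_le_cellV qv haK (upE_mem_cellU hq hqv h hS' 0 hv)
  have hEV : ∀ v ∈ cellU p (↑S : Set ℕ) θ N qv a,
      embE h ε v ∈ cellV p (↑S : Set ℕ) θ Nq (K + 1) :=
    fun v hv => cellU_le_cellV qv haK (embE_mem_cellU hq hqv h hS' ε hv)
  have hAi : ∀ v ∈ cellU p (↑S : Set ℕ) θ N qv a, upE h 0 v = 0 → v = 0 :=
    fun v hv h0 => upE_eq_zero_cellU hp hq hqN hAP hqS h 0 hv h0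
  have hEi : ∀ v ∈ cellU p (↑S : Set ℕ) θ N qv a, embE h ε v = 0 → v = 0 :=
    fun v hv h0 => embE_eq_zero_cellU hp hq hqN hAP hqS h ε hv h0
  have hGt' : Gt = (Lift.IsRhoK.traceRing HR).mapSub G hGgal (upE h 0)
      (fun g v => upE_smul h 0 g v) (fun v hv => hAV v (hGU hv).1) := by
    ext x
    rw [hGt]
    rfl
  subst hGt'
  obtain ⟨E₀, hE₀⟩ := exists_pow_eq_bot (RingHom.ker π0) (fun x hx => hnil x hx)
  exact raise_step_abs_F (Γ := GQ) (J := JZero Nq) (M := JZero N) Hr σ D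
    (Lift.IsRhoK.traceRing HR) ha (Lift.IsRhoK.hcomm HR) τ
    (fun i => Lift.IsRhoK.hchi HR hm1
      (Fermat.Agent.ML.Rho.chiM_inertia hp (qv i).2 (hqvp i) (hA i) (hτ i)))
    (RingHom.ker π0)
    (by rw [RingHom.mem_ker, map_natCast, ZMod.natCast_self])
    (hres_of_pi0 π0) (fun i => RingHom.mem_ker.2 (hz i)) (E₀ := E₀)
    (fun s hs x => by
      rw [hE₀] at hs
      rw [(Submodule.mem_bot R).1 hs]
      exact zero_smul R x)
    (cellU p (↑S : Set ℕ) θ N qv a) G (fun g v hv => smul_mem_cellU g hv) hGgal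
    (fun v hv => hv.1.2) hGU
    (upE h 0) (embE h ε) (fun g v => upE_smul h 0 g v) (fun g v => embE_smul h ε g v)
    hAV hEV hAi hEi hcogen he (cellK p (↑S : Set ℕ) θ qv a h)
    (fun g x hx => smul_mem_cellK h g hx)
    (fun x hx => cellU_le_cellV qv haK (cellK_le_cellU h hx)) (fun x hx => hx.1.1.2)
    hcogen' hsize' val M.scr (fun x => RingHom.mem_ker.2 (M.hval x)) M.gen pt M.hpt c β' Pc Pβ
    M.hc M.hβ M.hxc M.hxβ (Nat.lt_succ_self _) hbig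
    (fun v hv hc => ⟨embE_mem_cellU hq hqv h hS' ε hv, M.emb v hv (hAV v hv) hc⟩) hm

end Core

section Outer

variable {W : WeierstrassCurve ℤ} {p : ℕ} [Fact p.Prime] {T : Finset ℕ}
  {b : Module.Basis (Fin 2) (ZMod p) (TorsW W p)} {L₀ : ℕ} [NeZero L₀] {eps : ℕ → ℤ} {eP : GQ → ℤ}

/-- **the outer assembly** : a raising step at `q ≠ 2` from its middle block. -/
theorem stepF_outer (X : LCtx W p T b L₀ eps eP) (t : ℕ) {P : Finset ℕ} {q : ℕ}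
    (hP : P ⊆ Pfin W (rbarB b) L₀) (hq : q ∈ Pfin W (rbarB b) L₀) (hqP : q ∉ P) (hq2 : q ≠ 2)
    (hMid : MidFStmt X t P q) (hAtp : AtpFStmt X t P q) :
    StepConcl W p X.C.hp2 T b L₀ eps eP t P q := by
  have hp : p.Prime := Fact.out
  have hqpr : q.Prime := X.prime_of_mem_Pfin hq
  have : NeZero q := ⟨hqpr.ne_zero⟩
  have : NeZero (cellLevel L₀ P) := ⟨X.cellLevel_ne_zero hP⟩
  obtain ⟨e₀, he₀⟩ := At2.exists_card_eq_pow
    (X := ↥(WS (cellLevel L₀ P) p (↑T : Set ℕ) W.apOfModel)) p (fun x => Subtype.ext x.2.2)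
  obtain ⟨f, hf⟩ := hMid
  obtain ⟨d, hd⟩ : ∃ d : ℕ, d = 2 ^ t * e₀ := ⟨_, rfl⟩
  obtain ⟨e, he⟩ : ∃ e : ℕ, p ^ d < 2 ^ e := ⟨p ^ d, Nat.lt_two_pow_self⟩
  refine ⟨d * f + 1, d * f * numK t e t * d, fun a m n K qv hF hbig Lc' _ hLc' => ?_⟩
  have hF0 : Frm p X.C.hp2 T W.apOfModel (rbarB b) t 0 0 a m n K qv :=
    hF.mono (Nat.zero_le _) (Nat.zero_le _)
  have ha1 : 1 ≤ a := by have := hF.ha; omega
  obtain ⟨Lc, hLc⟩ : ∃ Lc, Lc = cellLevel L₀ P := ⟨_, rfl⟩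
  have : NeZero Lc := ⟨hLc ▸ X.cellLevel_ne_zero hP⟩
  have hL : Lc' = Lc * q := by rw [hLc', hLc, cellLevel_insert L₀ hq2 hqP]
  have hP' : insert q P ⊆ Pfin W (rbarB b) L₀ := Finset.insert_subset hq hP
  obtain ⟨G, hG, hGc⟩ := hbig Lc hLc
  -- the Taylor-Wiles data at the two levels
  have hTW : MTW p T W.apOfModel Lc t n qv := X.mtw_cell_frm hF hP hLc
  have hTW' : MTW p T W.apOfModel Lc' t n qv := X.mtw_cell_frm hF hP' hLc'
  have hqT : q ∈ T := X.mem_T_of_mem_Pfin hq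
  have hqN : ¬ q ∣ lvl Lc (extP qv) t := X.not_dvd_lvl_cell hF hP hq hq2 hqP hLc
  have hqL : ¬ q ∣ Lc := hLc ▸ X.not_dvd_cellLevel hP hq hq2 hqP
  have hS : ∀ r : ℕ, r.Prime → r ∣ lvl Lc' (extP qv) t * p → r ∈ cutS T qv :=
    fun r hr hd => Fermat.Agent.ML.Rho.mem_cutS_of_dvd_lvl hTW'.lev t hr hd
  have hS' : ∀ r : ℕ, r.Prime → r ∉ (↑(cutS T qv) : Set ℕ) → ¬ r ∣ lvl Lc' (extP qv) t * p :=
    fun r hr hrS hd => hrS (hS r hr hd)
  have hqv : ∀ i, ((qv i : Nat.Primes) : ℕ) ≠ q := fun i h => hTW.notT i (h ▸ hqT)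
  have hqvp : ∀ i, ((qv i : Nat.Primes) : ℕ) ≠ p := fun i h => hTW.notT i (h ▸ X.C.p_mem)
  have haK : a ≤ K + 1 := hF.hK.trans (Nat.le_succ K)
  have hn := hF.hn
  have h2a : 2 * a ≤ n + 1 := by omega
  have han : a ≤ n := by omega
  -- (NUM)
  obtain ⟨A, τ, hA, hτ, hcyc, hcycl, hC'⟩ := exists_isCube_cyc X.C hTW'
  have hC : IsCube p (↑(cutS T qv) : Set ℕ) W.apOfModel Lc qv τ :=
    isCube_of_tau_q X.C hTW' hTW.rigid hqpr hL hqL A τ hA hτ fun i Q => (hcyc i Q).fixed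
  obtain ⟨D', hD'⟩ := At2.numK_lvl X.C hTW'.toMTW0 hqpr hL hqL hA hτ hC' hC
  have he₀' : Nat.card ↥(WS Lc p (↑T : Set ℕ) W.apOfModel) = p ^ e₀ := by
    subst hLc
    exact he₀
  have h1 := At2.num_lvl X.C hTW.toMTW0 hA hτ hC he₀' rfl ha1 h2a
    (cellU p (↑(cutS T qv) : Set ℕ) W.apOfModel (lvl Lc (extP qv) t) qv a) (fun _ => mem_cellU)
  have h2 := hD' _ _ rfl rfl (lvl_mul_q hL qv) a ha1 h2a
    (cellK p (↑(cutS T qv) : Set ℕ) W.apOfModel qv a (lvl_mul_q hL qv)) (fun x => by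
      rw [mem_cellK, mem_cellU]
      tauto)
  rw [← hd] at h1
  -- the ring
  obtain ⟨B, hTop, hEK, R, _, _, _, _, _, πE, ρ, Φ, HR⟩ := X.exists_topRho hTW'.lev qv K
    (cellV p (↑(cutS T qv) : Set ℕ) W.apOfModel (lvl Lc' (extP qv) t) (K + 1))
    (fun g x hx => smul_mem_cellV g hx) (fun x hx => hx.2) (fun x hx => hx.1)
  -- `G ≠ ⊥`
  have hm0 : 0 < m ^ (t + 1) := lt_of_le_of_lt (Nat.zero_le _) hF.hC
  have hG0 : G ≠ ⊥ := by
    rintro rfl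
    have h1 : Nat.card ↥(⊥ : AddSubgroup (JZero (lvl Lc (extP qv) t))) = 1 :=
      Nat.card_eq_one_iff_unique.2 ⟨inferInstance, inferInstance⟩
    rw [h1] at hGc
    exact absurd hGc (not_le.2 (Nat.one_lt_pow hm0.ne' hp.one_lt))
  have hGU : G ≤ boxG p a τ
      (cellU p (↑(cutS T qv) : Set ℕ) W.apOfModel (lvl Lc (extP qv) t) qv a) := fun x hx =>
    mem_boxG_of_inBox hA hτ (mem_cellU.2 ⟨hG.le hx, (hG.box x hx).1, hG.new x hx⟩) (hG.box x hx)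
  -- (MID)
  obtain ⟨Gt, hGt⟩ : ∃ Gt : Submodule R
      ↥(cellV p (↑(cutS T qv) : Set ℕ) W.apOfModel (lvl Lc' (extP qv) t) (K + 1)),
      ∀ x, x ∈ Gt ↔ ∃ v ∈ G, upE (lvl_mul_q hL qv) 0 v = (x : JZero (lvl Lc' (extP qv) t)) :=
    ⟨(Lift.IsRhoK.traceRing HR).mapSub G hG.gal (upE (lvl_mul_q hL qv) 0)
      (fun g v => upE_smul _ 0 g v)
      (fun v hv => cellU_le_cellV qv haK (upE_mem_cellU hqpr hqv _ hS' 0 (hGU hv).1)),
      fun _ => Iff.rfl⟩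
  obtain ⟨ε, Hr, σ, _, _, D, val, pt, c, β', Pc, Pβ, M⟩ :=
    hf a m n K qv hF0 ha1 Lc Lc' hLc hL G hG hG0 B hTop hEK R πE ρ Φ HR Gt hGt
  -- numerics
  have hs : Fintype.card Hr ≤ t := by have := M.card; omega
  obtain ⟨-, -, hm, hbig'⟩ := num_step hF M.card (d := d) (e := e) (f₁ := f) le_rfl
    (Nat.mul_le_mul_right _ (Nat.mul_le_mul_left _ (numK_mono t hs le_rfl))) hGc
  -- the step
  obtain ⟨G', hG'gal, hG'le, hG'c, hG'r⟩ := stepF_core (m := m) (lvl_mul_q hL qv) hqpr hqN hS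
    (X.C.nonEis (cutS T qv)) (subset_cutS T qv hqT) hqv hqvp ha1 haK hA hτ G hG.gal hGU h1.1 he
    h2.1 h2.2 HR (pi0 πE) (fun s hs => TopCtx.isNilpotent_of_pi0 HR hs)
    (fun i => by
      have h1 : (ρ (τ i)).map (pi0 πE) = 1 := by
        rw [hTop.lift HR, X.C.unramT _ (qv i).2 (hTW.notT i) (A i) (hA i) (τ i) (hτ i)]
      have h2 : pi0 πE (ρ (τ i)).trace = ((ρ (τ i)).map (pi0 πE)).trace := by
        rw [Matrix.trace_fin_two, Matrix.trace_fin_two, map_add]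
        rfl
      rw [map_sub, h2, h1, Matrix.trace_one, Fintype.card_fin, map_ofNat]
      norm_num)
    Gt hGt M hbig' hm
  obtain ⟨hst, h2u, h2r⟩ := M.out G' hG'gal (fun x hx => (hG'le hx).1) fun x hx => by
    obtain ⟨x₁, h1, h2⟩ := hG'r x hx
    exact ⟨x₁, h1.1, h2⟩
  exact ⟨G', X.isCell_out_box hTW.notT hP' hLc' hA hcycl
    (fun i => le_nuP_succ_of_le hTW' han i)
    (U' := cellK p (↑(cutS T qv) : Set ℕ) W.apOfModel qv a (lvl_mul_q hL qv))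
    (fun x hx => hx.1.1.1) (fun x hx i => hx.1.2 i) hG'le hG'gal hst h2u h2r
    (fun hpL => hAtp a m n K qv hF0 Lc Lc' hLc hL G' hG'gal (fun x hx => (hG'le hx).1) hpL),
    hG'c⟩

/-- **the field `atp`** of the new cell when `p` is not raised : case (Ma), from `LowerStmt`. -/
theorem atpF_of_not_mem (hLow : LowerStmt) (X : LCtx W p T b L₀ eps eP) (t : ℕ) {P : Finset ℕ}
    {q : ℕ} (hP : P ⊆ Pfin W (rbarB b) L₀) (hq : q ∈ Pfin W (rbarB b) L₀) (hqP : q ∉ P)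
    (hq2 : q ≠ 2) (hqp : q ≠ p) (hpP : p ∉ P) : AtpFStmt X t P q := by
  intro a m n K qv hF Lc Lc' _ _ _ hLc hL G' hgal hle hpL
  have hP' : insert q P ⊆ Pfin W (rbarB b) L₀ := Finset.insert_subset hq hP
  have hLc' : Lc' = cellLevel L₀ (insert q P) := by rw [hL, hLc, cellLevel_insert L₀ hq2 hqP]
  have hpL0 : p ∣ L₀ := by
    rcases dvd_cellLevel_cases (fun r hr => X.prime_of_mem_Pfin (hP' hr)) (Fact.out : p.Prime)
      (hLc' ▸ hpL) with h | h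
    · exact h
    · rcases Finset.mem_insert.1 (Finset.mem_of_mem_erase h) with h | h
      · exact absurd h.symm hqp
      · exact absurd h hpP
  exact X.atp_of_Ma hLow hpL0 hP' Lc' hLc' hF.tw (fun x hx => (hle hx).1.1.1) hgal
    (fun x hx => (hle hx).1.1.2)

end Outer

/-- **StepHardStmt** from the middle block. -/
theorem stepHard_of (hLow : LowerStmt) (hMid : HardMidStmt) : StepHardStmt := by
  intro W p _ T b L₀ _ eps eP X t P q hP hq hqP hq2 hqp hs hpP h2P hsoft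
  exact stepF_outer X t hP hq hqP hq2
    (hMid W p T b L₀ eps eP X t P q hP hq hqP hq2 hqp hs hpP h2P hsoft)
    (atpF_of_not_mem hLow X t hP hq hqP hq2 hqp hpP)

end Fermat.Agent.ML.Hard
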