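import Fermat.Agent.ML.Hard.Inst
import Fermat.Agent.ML.Lift.Inst.MidAbs

/-!
# ML / Hard / MidAbs : the MIDDLE BLOCK of a raising step in the F-form, abstract (ring level) form

`R` a commutative ring, `π0 : R →+* ZMod p`, `ρ : G_ℚ → M₂(R)`, `Ann` an ideal of `R` (the annihilator of the stage module `uA G`).

* `HardPkg p π0 ρ Ann v x D` : the package of ONE raised hard prime : six variables `x`, scroll relations modulo `Ann`, `ρ|D_v` strict modulo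
  `Ann + I` as soon as all `x j ∈ I`.   Multiplier : `x 0` (auxiliary value `p`).
* `VarPkg p π0 ρ Ann v u be P pt f` : the package of ONE prime with `k` free variables `u`, multiplier `be ≡ P(u)` modulo `Ann`, auxiliary
  values `pt` (divisible by `p`), `¬ p^(f+1) ∣ P(pt)`.
* `midF_abs` : all the ring-level fields of `MidData` (`ML/Hard/MidSpec.lean`) from the packages, a multiplier without variable, the
  variables of the NEW prime (auxiliary value `0`) and (GEN).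
-/

set_option autoImplicit false

noncomputable section

open ExtCitation MvPolynomial

namespace Fermat.Agent.ML.Hard

open Fermat.Agent.RIB Fermat.Agent.S56 Fermat.Agent.S56.Gen Fermat.Agent.ML
open CFT (levS levAll decomp Z1 B1 Qb IsSmooth)

variable {p : ℕ} [Fact p.Prime] {R : Type} [CommRing R]

/-- the package of one raised hard prime. -/
structure HardPkg (p : ℕ) (π0 : R →+* ZMod p) (ρ : GQ →* M2 R) (Ann : Ideal R)
    (v : Nat.Primes) (x : Fin 6 → R) (D : ℤ) : Prop where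
  pi0_x : ∀ j, π0 (x j) = 0
  scr : Scroll (fun j => Ideal.Quotient.mk Ann (x j)) ((((p : ℤ) * D : ℤ)) : R ⧸ Ann)
  strict : ∀ I : Ideal R, (∀ j, x j ∈ I) → ∃ M : M2 R, IsUnit (M.map π0) ∧
    ∀ σ ∈ decomp v, ConjConst ℤ (Ann ⊔ I) M (ρ σ)

/-- the package of one prime with `k` free variables. -/
structure VarPkg (p : ℕ) (π0 : R →+* ZMod p) (ρ : GQ →* M2 R) (Ann : Ideal R)
    (v : Nat.Primes) {k : ℕ} (u : Fin k → R) (be : R) (P : MvPolynomial (Fin k) ℤ)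
    (pt : Fin k → ℤ) (f : ℕ) : Prop where
  pi0_u : ∀ j, π0 (u j) = 0
  strict : ∀ I : Ideal R, (∀ j, u j ∈ I) → ∃ M : M2 R, IsUnit (M.map π0) ∧
    ∀ σ ∈ decomp v, ConjConst ℤ (Ann ⊔ I) M (ρ σ)
  pol : be - aeval u P ∈ Ann
  hpt : ∀ j, (p : ℤ) ∣ pt j
  hN : ¬ (p : ℤ) ^ (f + 1) ∣ aeval pt P

/-- one variable which is its own multiplier, auxiliary value `p` (a raised soft prime). -/
theorem VarPkg.of_one {π0 : R →+* ZMod p} {ρ : GQ →* M2 R} {Ann : Ideal R} {v : Nat.Primes} {b : R}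
    (h0 : π0 b = 0)
    (hs : ∀ I : Ideal R, b ∈ I → ∃ M : M2 R, IsUnit (M.map π0) ∧
      ∀ σ ∈ decomp v, ConjConst ℤ (Ann ⊔ I) M (ρ σ)) :
    VarPkg p π0 ρ Ann v (fun _ : Fin 1 => b) b (X 0) (fun _ => (p : ℤ)) 1 where
  pi0_u := fun _ => h0
  strict := fun I hI => hs I (hI 0)
  pol := by simp
  hpt := fun _ => dvd_rfl
  hN := by
    rw [aeval_X]
    intro h
    have hp : (2 : ℤ) ≤ p := by exact_mod_cast (Fact.out : p.Prime).two_le
    have h1 : (p : ℤ) ^ (1 + 1) ≤ p := Int.le_of_dvd (by positivity) h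
    rw [pow_succ, pow_one] at h1
    nlinarith

/-- **the middle block in the F-form, abstract form.** -/
theorem midF_abs {π0 : R →+* ZMod p} {ρ : GQ →* M2 R} (Ann : Ideal R) {t : ℕ}
    (Hs Os : Finset Nat.Primes) (k f : Nat.Primes → ℕ) (OutP : Nat.Primes → R → Prop)
    (hH : ∀ v ∈ Hs, ∃ (x : Fin 6 → R) (D : ℤ), HardPkg p π0 ρ Ann v x D ∧ OutP v (x 0))
    (hO : ∀ v ∈ Os, ∃ (u : Fin (k v) → R) (be : R) (P : MvPolynomial (Fin (k v)) ℤ)
      (pt : Fin (k v) → ℤ), VarPkg p π0 ρ Ann v u be P pt (f v) ∧ OutP v be)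
    (be0 : R) (N0 : ℤ) (f0 : ℕ) (hbe0 : be0 - (N0 : R) ∈ Ann) (hN0 : ¬ (p : ℤ) ^ (f0 + 1) ∣ N0)
    {kq : ℕ} (yn : Fin kq → R) (hyn : ∀ j, π0 (yn j) = 0) (c : R)
    (Pn : MvPolynomial (Fin kq) ℤ) (hc : c - aeval yn Pn ∈ Ann)
    (hPn : aeval (fun _ : Fin kq => (0 : ℤ)) Pn = 0)
    (hgen : ∀ I : Ideal R, (∀ a ∈ I, π0 a = 0) → (∀ j, yn j ∈ I) →
      (∀ v ∈ Hs ∪ Os, ∃ M : M2 R, IsUnit (M.map π0) ∧
        ∀ σ ∈ decomp v, ConjConst ℤ (Ann ⊔ I) M (ρ σ)) →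
      ∃ (g : ℕ) (x : Fin g → R), 3 * Hs.card + ∑ v ∈ Os, k v + kq + g ≤ t ∧
        (∀ i, π0 (x i) = 0) ∧
        RingHom.ker π0 ≤ Ann ⊔ I ⊔ Ideal.span (Set.range x) ⊔ Ideal.span {(p : R)})
    {F : ℕ} (hF : f0 + Hs.card + ∑ v ∈ Os, f v ≤ F) :
    ∃ (β' : R) (Hr σ : Type) (_ : Fintype Hr) (_ : Fintype σ) (D : Hr → ℤ) (val : PV Hr σ → R)
      (pt : σ → ℤ) (Pc Pβ : MvPolynomial (PV Hr σ) ℤ),
      3 * Fintype.card Hr + Fintype.card σ ≤ t ∧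
      (∀ r, Scroll (fun j => Ideal.Quotient.mk Ann (val (Sum.inl (r, j))))
        ((((p : ℤ) * D r : ℤ)) : R ⧸ Ann)) ∧
      (∀ x, π0 (val x) = 0) ∧
      RingHom.ker π0 ≤ Ann ⊔ Ideal.span (Set.range val) ⊔ Ideal.span {(p : R)} ∧
      (∀ s, (p : ℤ) ∣ pt s) ∧
      c - aeval val Pc ∈ Ann ∧
      β' - aeval val Pβ ∈ Ann ∧
      aeval (auxVal p Hr σ pt) Pc = 0 ∧
      ¬ (p : ℤ) ^ (F + 1) ∣ aeval (auxVal p Hr σ pt) Pβ ∧
      be0 ∣ β' ∧ ∀ v ∈ Hs ∪ Os, ∃ be, be ∣ β' ∧ OutP v be := by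
  classical
  choose! xH DH hHp hHo using hH
  choose! uO beO PO ptO hOp hOo using hO
  set I : Ideal R := Ideal.span (Set.range (fun z : ↥Hs × Fin 6 => xH z.1 z.2) ∪
    Set.range (fun s : (Σ v : ↥Os, Fin (k v)) => uO s.1 s.2) ∪ Set.range yn) with hI
  have hI0 : ∀ a ∈ I, π0 a = 0 := by
    have : I ≤ RingHom.ker π0 := by
      rw [hI, Ideal.span_le]
      rintro _ ((⟨z, rfl⟩ | ⟨s, rfl⟩) | ⟨j, rfl⟩)
      · exact (RingHom.mem_ker).2 ((hHp z.1 z.1.2).pi0_x z.2)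
      · exact (RingHom.mem_ker).2 ((hOp s.1 s.1.2).pi0_u s.2)
      · exact (RingHom.mem_ker).2 (hyn j)
    exact fun a ha => (RingHom.mem_ker).1 (this ha)
  have hIy : ∀ j, yn j ∈ I := fun j => Ideal.subset_span (Or.inr ⟨j, rfl⟩)
  have hst : ∀ v ∈ Hs ∪ Os, ∃ M : M2 R, IsUnit (M.map π0) ∧
      ∀ σ ∈ decomp v, ConjConst ℤ (Ann ⊔ I) M (ρ σ) := by
    intro v hv
    rcases Finset.mem_union.1 hv with hv | hv
    · exact (hHp v hv).strict I fun j =>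
        Ideal.subset_span (Or.inl (Or.inl ⟨(⟨v, hv⟩, j), rfl⟩))
    · exact (hOp v hv).strict I fun j =>
        Ideal.subset_span (Or.inl (Or.inr ⟨⟨⟨v, hv⟩, j⟩, rfl⟩))
  obtain ⟨g, xg, hcard, hxg, hgen⟩ := hgen I hI0 hIy hst
  let σ : Type := (Σ v : ↥Os, Fin (k v)) ⊕ (Fin kq ⊕ Fin g)
  let val : PV ↥Hs σ → R := Sum.elim (fun z : ↥Hs × Fin 6 => xH z.1 z.2)
    (Sum.elim (fun s : (Σ v : ↥Os, Fin (k v)) => uO s.1 s.2) (Sum.elim yn xg))
  let pt : σ → ℤ := Sum.elim (fun s : (Σ v : ↥Os, Fin (k v)) => ptO s.1 s.2) (fun _ => 0)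
  let Pc : MvPolynomial (PV ↥Hs σ) ℤ :=
    rename (fun j : Fin kq => (Sum.inr (Sum.inr (Sum.inl j)) : PV ↥Hs σ)) Pn
  let Pβ : MvPolynomial (PV ↥Hs σ) ℤ :=
    C N0 * (∏ v : ↥Hs, X (Sum.inl (v, 0))) *
      ∏ v : ↥Os, rename (fun j : Fin (k v) => (Sum.inr (Sum.inl ⟨v, j⟩) : PV ↥Hs σ)) (PO v)
  have hvalβ : aeval val Pβ = (N0 : R) * (∏ v : ↥Hs, xH v 0) * ∏ v : ↥Os, aeval (uO v) (PO v) := by
    simp only [Pβ, map_mul, map_prod, aeval_X, aeval_rename, aeval_C]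
    rfl
  have hauxβ : aeval (auxVal p ↥Hs σ pt) Pβ =
      N0 * (p : ℤ) ^ Hs.card * ∏ v : ↥Os, aeval (ptO v) (PO v) := by
    simp only [Pβ, map_mul, map_prod, aeval_X, aeval_rename, aeval_C]
    have h1 : ∏ v : ↥Hs, auxVal p ↥Hs σ pt (Sum.inl (v, 0)) = (p : ℤ) ^ Hs.card := by
      simp [auxVal]
    rw [h1]
    rfl
  refine ⟨be0 * (∏ v : ↥Hs, xH v 0) * ∏ v : ↥Os, beO v, ↥Hs, σ, inferInstance, inferInstance,
    fun v => DH v, val, pt, Pc, Pβ, ?_, ?_, ?_, ?_, ?_, ?_, ?_, ?_, ?_, ?_, ?_⟩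
  · have h1 : Fintype.card σ = ∑ v ∈ Os, k v + (kq + g) := by
      simp only [σ, Fintype.card_sum, Fintype.card_sigma, Fintype.card_fin]
      rw [Finset.sum_coe_sort Os k]
    rw [h1, Fintype.card_coe]
    omega
  · intro r
    exact (hHp r r.2).scr
  · rintro (z | s | j | i)
    · exact (hHp z.1 z.1.2).pi0_x z.2
    · exact (hOp s.1 s.1.2).pi0_u s.2
    · exact hyn j
    · exact hxg i
  · refine hgen.trans (sup_le_sup_right ?_ _)
    refine sup_le (sup_le le_sup_left (le_sup_of_le_right ?_)) (le_sup_of_le_right ?_)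
    · rw [hI]
      refine Ideal.span_mono ?_
      rintro _ ((⟨z, rfl⟩ | ⟨s, rfl⟩) | ⟨j, rfl⟩)
      · exact ⟨Sum.inl z, rfl⟩
      · exact ⟨Sum.inr (Sum.inl s), rfl⟩
      · exact ⟨Sum.inr (Sum.inr (Sum.inl j)), rfl⟩
    · refine Ideal.span_mono ?_
      rintro _ ⟨i, rfl⟩
      exact ⟨Sum.inr (Sum.inr (Sum.inr i)), rfl⟩
  · rintro (s | _)
    · exact (hOp s.1 s.1.2).hpt s.2
    · exact dvd_zero _
  · have : aeval val Pc = aeval yn Pn := by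
      simp only [Pc, aeval_rename]
      rfl
    rw [this]
    exact hc
  · rw [hvalβ, ← Ideal.Quotient.eq]
    simp only [map_mul, map_prod]
    rw [(Ideal.Quotient.eq).2 hbe0]
    congr 1
    exact Finset.prod_congr rfl fun v _ => (Ideal.Quotient.eq).2 (hOp v v.2).pol
  · have : aeval (auxVal p ↥Hs σ pt) Pc = aeval (fun _ : Fin kq => (0 : ℤ)) Pn := by
      simp only [Pc, aeval_rename]
      rfl
    rw [this]
    exact hPn
  · rw [hauxβ]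
    intro hd
    have hp : p.Prime := Fact.out
    have h1 : ¬ (p : ℤ) ^ (Hs.card + 1) ∣ (p : ℤ) ^ Hs.card := by
      intro h
      have hp2 : (2 : ℤ) ≤ p := by exact_mod_cast hp.two_le
      have h2 : (p : ℤ) ^ (Hs.card + 1) ≤ (p : ℤ) ^ Hs.card := Int.le_of_dvd (by positivity) h
      have h3 : (0 : ℤ) < (p : ℤ) ^ Hs.card := by positivity
      rw [pow_succ] at h2
      nlinarith
    have h2 : ¬ (p : ℤ) ^ (∑ v : ↥Os, f v + 1) ∣ ∏ v : ↥Os, aeval (ptO v) (PO v) :=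
      Lift.not_pow_dvd_prod hp Finset.univ _ (fun v : ↥Os => f v) fun v _ => (hOp v v.2).hN
    rw [Finset.sum_coe_sort Os f] at h2
    exact Lift.not_pow_dvd_mul' hp (Lift.not_pow_dvd_mul' hp hN0 h1) h2
      ((pow_dvd_pow _ (by omega)).trans hd)
  · exact Dvd.dvd.mul_right (Dvd.intro _ rfl) _
  · intro v hv
    rcases Finset.mem_union.1 hv with hv | hv
    · refine ⟨xH v 0, ?_, hHo v hv⟩
      refine Dvd.dvd.mul_right (Dvd.dvd.mul_left ?_ _) _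
      exact Finset.dvd_prod_of_mem (fun w : ↥Hs => xH w 0) (Finset.mem_univ (⟨v, hv⟩ : ↥Hs))
    · refine ⟨beO v, ?_, hOo v hv⟩
      refine Dvd.dvd.mul_left ?_ _
      exact Finset.dvd_prod_of_mem (fun w : ↥Os => beO w) (Finset.mem_univ (⟨v, hv⟩ : ↥Os))

end Fermat.Agent.ML.Hard
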