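import Fermat.Agent.ML.Hard.RelSM
import Fermat.Agent.ML.Raise.RelState

/-!
# ML / Hard / LocH : the local analysis at a HARD prime (`q ≡ 1` mod `p`, `rbar(Frob_q)` scalar), in the vocabulary of `ML/Main/Cell.lean`

The hard analogue of `ML/Raise/RelState.lean`.  `Sg = ρ(σ)`, `N = ρ(τ) - 1`, six variables `locVar Sg N ε`.

* (ALG)      `trace_eq_zero_of_sq_zero` : `N² = 0`, `det (1 + N) = 1` ⟹ `tr N = 0`.
* (UNR)      `unr_rel` : `c~ (1 + y1) = y1 (y1 - d) - y0 y2`, `c~ = ε tr Sg - (q + 1)`;  `c_mem_of_y_mem`.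
* (RES)      `map_locVar_eq_zero` : the six variables lie in the maximal ideal.
* (STRICT-H) `conjConst_frob_hard`, `conjConst_tame_hard`, `strict_hard` : modulo the six variables, `c` and `tr N`, `ρ|D_q` is constant.
* (RS-in-H)  `loc_rel`, `isScroll_of_loc`, `c_mem_of_loc`, `trace_mem_of_unip` : the Steinberg identities on a `Φ`-stable `Y`, `Ann Y ≤ J` ⟹ the scroll relations in `R ⧸ J`;
             `entries_mem_of_ur` : unramified on `Y` ⟹ `x0, x1, x2 ∈ J`.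
* (RS-out-H) `loc_of_st2` : the Steinberg identities on `V[c]`;  `c_mul_locVar'` : `x_i(τ₀) c(σ) = 0`.
-/

set_option autoImplicit false
set_option linter.unusedSectionVars false

noncomputable section

namespace Fermat.Agent.ML.Hard

open Matrix Fermat.Agent.RIB Fermat.Agent.ML Fermat.Agent.S56 ExtCitation
open CFT (decomp)

local notation "M₂" => Matrix (Fin 2) (Fin 2)

/-! ### pure algebra -/

section Alg

variable {S : Type*} [CommRing S]

/-- `N² = 0`, `det (1 + N) = 1` ⟹ `tr N = 0`. -/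
theorem trace_eq_zero_of_sq_zero (N : M₂ S) (hN : N * N = 0) (hdet : (1 + N).det = 1) :
    N.trace = 0 := by
  have h00 := congrFun (congrFun hN 0) 0
  have h01 := congrFun (congrFun hN 0) 1
  have h10 := congrFun (congrFun hN 1) 0
  have h11 := congrFun (congrFun hN 1) 1
  simp only [Matrix.mul_apply, Fin.sum_univ_two, Matrix.zero_apply] at h00 h01 h10 h11
  rw [Matrix.det_fin_two] at hdet
  simp only [Matrix.add_apply, Matrix.one_apply_eq, ne_eq, zero_ne_one, one_ne_zero,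
    not_false_eq_true, Matrix.one_apply_ne, zero_add] at hdet
  rw [Matrix.trace_fin_two]
  linear_combination (1 + N 1 1) * h00 + (1 + N 1 1) * hdet - N 1 0 * h01 - (N 0 0 + N 1 1) * hdet

variable (Sg N : M₂ S) (q ε : S)

/-- **(UNR)** `c~ (1 + y1) = y1 (y1 - d) - y0 y2`, `c~ = ε tr Sg - (q + 1)`   (no hypothesis on `N`). -/
theorem unr_rel (hε : ε * ε = 1) (hdet : Sg.det = q) :
    (ε * Sg.trace - (q + 1)) * (1 + locVar Sg N ε 4) =
      locVar Sg N ε 4 * (locVar Sg N ε 4 - (q - 1)) - locVar Sg N ε 3 * locVar Sg N ε 5 := by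
  rw [Matrix.det_fin_two] at hdet
  rw [Matrix.trace_fin_two]
  simp only [locVar, Matrix.cons_val]
  linear_combination (ε * ε) * hdet + q * hε

/-- `c = ε c~`. -/
theorem c_eq_mul (hε : ε * ε = 1) :
    Sg.trace - ε * (q + 1) = ε * (ε * Sg.trace - (q + 1)) := by
  linear_combination (-Sg.trace) * hε

/-- **(UNR)** `y0, y1, y2 ∈ J` ⟹ `c ∈ J`. -/
theorem c_mem_of_y_mem (hε : ε * ε = 1) (hdet : Sg.det = q) (J : Ideal S)
    (h3 : locVar Sg N ε 3 ∈ J) (h4 : locVar Sg N ε 4 ∈ J) : Sg.trace - ε * (q + 1) ∈ J := by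
  rw [c_eq_mul Sg q ε hε]
  refine J.mul_mem_left _ ?_
  have h := unr_rel Sg N q ε hε hdet
  have e : ε * Sg.trace - (q + 1) =
      locVar Sg N ε 4 * (locVar Sg N ε 4 - (q - 1)) - locVar Sg N ε 3 * locVar Sg N ε 5
        - (ε * Sg.trace - (q + 1)) * locVar Sg N ε 4 := by
    linear_combination h
  rw [e]
  exact J.sub_mem (J.sub_mem (J.mul_mem_right _ h4) (J.mul_mem_right _ h3)) (J.mul_mem_left _ h4)

/-- the first three variables only depend on `N`. -/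
theorem locVar_congr_lt (Sg' : M₂ S) (ε' : S) (i : Fin 6) (hi : (i : ℕ) < 3) :
    locVar Sg N ε i = locVar Sg' N ε' i := by
  fin_cases i
  · rfl
  · rfl
  · rfl
  · simp at hi
  · simp at hi
  · simp at hi

/-- **(RES)** the six variables lie in the kernel of the residue map. -/
theorem map_locVar_eq_zero {k : Type*} [CommRing k] (π : S →+* k) (hε : ε * ε = 1)
    (hS : Sg.map π = π ε • (1 : M₂ k)) (hN : N.map π = 0) (j : Fin 6) :
    π (locVar Sg N ε j) = 0 := by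
  have hε' : π ε * π ε = 1 := by rw [← map_mul, hε, map_one]
  have s01 : π (Sg 0 1) = 0 := by simpa using congrFun (congrFun hS 0) 1
  have s10 : π (Sg 1 0) = 0 := by simpa using congrFun (congrFun hS 1) 0
  have s11 : π (Sg 1 1) = π ε := by simpa using congrFun (congrFun hS 1) 1
  have n01 : π (N 0 1) = 0 := by simpa using congrFun (congrFun hN 0) 1
  have n10 : π (N 1 0) = 0 := by simpa using congrFun (congrFun hN 1) 0
  have n11 : π (N 1 1) = 0 := by simpa using congrFun (congrFun hN 1) 1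
  fin_cases j <;> simp [locVar, s01, s10, s11, n01, n10, n11, hε']

end Alg

/-! ### (STRICT-H) -/

section Strict

variable {Λ : Type} {A : Type} [CommRing Λ] [CommRing A] [Algebra Λ A]

theorem conjConst_frob_hard (Sg N : M₂ A) (q : ℕ) (εz : ℤ) (hε : εz * εz = 1) (J : Ideal A)
    (hc : Sg.trace - (εz : A) * ((q : A) + 1) ∈ J)
    (h3 : locVar Sg N (εz : A) 3 ∈ J) (h4 : locVar Sg N (εz : A) 4 ∈ J)
    (h5 : locVar Sg N (εz : A) 5 ∈ J) : ConjConst Λ J 1 Sg := by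
  refine ⟨!![(εz : Λ) * q, 0; 0, (εz : Λ)], ?_⟩
  have hε' : (εz : A) * (εz : A) = 1 := by exact_mod_cast congrArg (Int.cast : ℤ → A) hε
  have e2 : (!![(εz : Λ) * q, 0; 0, (εz : Λ)]).map (algebraMap Λ A)
      = !![(εz : A) * q, 0; 0, (εz : A)] := by
    ext i j
    fin_cases i <;> fin_cases j <;> simp
  rw [e2, one_mul, mul_one]
  simp only [locVar, Matrix.cons_val] at h3 h4 h5
  rw [Matrix.trace_fin_two] at hc
  have m01 : Sg 0 1 ∈ J := by
    have : Sg 0 1 = (εz : A) * ((εz : A) * Sg 0 1) := by linear_combination (-Sg 0 1) * hε'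
    rw [this]; exact J.mul_mem_left _ h3
  have m10 : Sg 1 0 ∈ J := by
    have : Sg 1 0 = -(εz : A) * (-((εz : A) * Sg 1 0)) := by linear_combination (-Sg 1 0) * hε'
    rw [this]; exact J.mul_mem_left _ h5
  have m11 : Sg 1 1 - (εz : A) ∈ J := by
    have : Sg 1 1 - (εz : A) = (εz : A) * ((εz : A) * Sg 1 1 - 1) := by
      linear_combination (-Sg 1 1) * hε'
    rw [this]; exact J.mul_mem_left _ h4
  have m00 : Sg 0 0 - (εz : A) * q ∈ J := by
    have : Sg 0 0 - (εz : A) * q =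
        (Sg 0 0 + Sg 1 1 - (εz : A) * ((q : A) + 1)) - (Sg 1 1 - (εz : A)) := by ring
    rw [this]; exact J.sub_mem hc m11
  intro i l
  fin_cases i <;> fin_cases l
  · simpa using m00
  · simpa using m01
  · simpa using m10
  · simpa using m11

theorem conjConst_tame_hard (Sg Tu : M₂ A) (ε : A) (J : Ideal A) (htr : (Tu - 1).trace ∈ J)
    (h0 : locVar Sg (Tu - 1) ε 0 ∈ J) (h1 : locVar Sg (Tu - 1) ε 1 ∈ J)
    (h2 : locVar Sg (Tu - 1) ε 2 ∈ J) : ConjConst Λ J 1 Tu := by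
  refine ⟨1, ?_⟩
  have e2 : (1 : M₂ Λ).map (algebraMap Λ A) = 1 := map_one (algebraMap Λ A).mapMatrix
  rw [e2, one_mul, mul_one]
  simp only [locVar, Matrix.cons_val_zero, Matrix.cons_val_one, Matrix.cons_val] at h0 h1 h2
  rw [Matrix.trace_fin_two] at htr
  have m10 : (Tu - 1) 1 0 ∈ J := by simpa using J.neg_mem h2
  have m00 : (Tu - 1) 0 0 ∈ J := by
    have : (Tu - 1) 0 0 = ((Tu - 1) 0 0 + (Tu - 1) 1 1) - (Tu - 1) 1 1 := by ring
    rw [this]; exact J.sub_mem htr h1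
  intro i l
  fin_cases i <;> fin_cases l
  · exact m00
  · exact h0
  · exact m10
  · exact h1

theorem isUnit_one_map {k : Type*} [CommRing k] (π : A →+* k) : IsUnit ((1 : M₂ A).map π) := by
  have : (1 : M₂ A).map π = 1 := map_one π.mapMatrix
  rw [this]; exact isUnit_one

/-- **(STRICT-H)** : modulo `J ∋ x0, x1, x2, y0, y1, y2, c, tr N` the restriction of `rA` to `D_v` is constant. -/
theorem strict_hard {rA : GQ →* M₂ A} (hcont : GaloisFactorsThroughFiniteLevel rA) (v : Nat.Primes)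
    {φ τ : GQ} (hφ : (primeLocalPlace v).IsFrobeniusAt φ (v : ℕ))
    (N₀ : ℕ) (hN₀ : Nat.Coprime N₀ (v : ℕ)) (htors : ∀ σ ∈ inert v, rA σ ^ N₀ = 1)
    (hgen : ∀ σ ∈ inert v, ∃ n : ℕ, rA σ = rA τ ^ n)
    (εz : ℤ) (hε : εz * εz = 1) (J : Ideal A)
    (hc : (rA φ).trace - (εz : A) * (((v : ℕ) : A) + 1) ∈ J) (htr : (rA τ - 1).trace ∈ J)
    (hvar : ∀ j, locVar (rA φ) (rA τ - 1) (εz : A) j ∈ J) :
    ∀ σ ∈ decomp v, ConjConst Λ J 1 (rA σ) :=
  conjConst_of_gens hcont v N₀ hN₀ htors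
    (fun σ hσ => by
      obtain ⟨n, hn⟩ := hgen σ hσ
      rw [hn]
      exact (conjConst_tame_hard (rA φ) (rA τ) (εz : A) J htr (hvar 0) (hvar 1) (hvar 2)).pow n)
    hφ (conjConst_frob_hard (rA φ) (rA τ - 1) v εz hε J hc (hvar 3) (hvar 4) (hvar 5))

end Strict

/-! ### (RS-in-H), (RS-out-H) -/

section Act

variable {R V : Type} [CommRing R] [AddCommGroup V] [Module R V] [DistribMulAction GQ V]
  {ρ : GQ →* M₂ R} {Φ : M₂ R →ₐ[R] Module.End R V}

theorem phi_sub_smul (H : RhoAct ρ Φ) (g : GQ) (t : R) (x : V) :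
    Φ (ρ g - t • (1 : M₂ R)) x = g • x - t • x := by
  rw [map_sub, map_smul, map_one, LinearMap.sub_apply, LinearMap.smul_apply,
    Module.End.one_apply, H.act]

theorem phi_sub_mul_sub' (H : RhoAct ρ Φ) (g h : GQ) (s t : R) (x : V) :
    Φ ((ρ g - s • (1 : M₂ R)) * (ρ h - t • (1 : M₂ R))) x =
      g • (h • x - t • x) - s • (h • x - t • x) := by
  rw [map_mul, Module.End.mul_apply, phi_sub_smul H h t x, phi_sub_smul H g s]

/-- a matrix which kills a `Φ`-stable `Y` vanishes modulo `J ≥ Ann Y`. -/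
theorem map_mk_eq_zero (Y : Submodule R V) (hY : ∀ (M : M₂ R), ∀ y ∈ Y, Φ M y ∈ Y)
    (J : Ideal R) (hJ : ∀ s : R, (∀ y ∈ Y, s • y = 0) → s ∈ J) (M : M₂ R)
    (h : ∀ x ∈ Y, Φ M x = 0) : M.map (Ideal.Quotient.mk J) = 0 := by
  ext i j
  rw [Matrix.map_apply, Matrix.zero_apply, Ideal.Quotient.eq_zero_iff_mem]
  exact hJ _ fun y hy => entry_smul_eq_zero Φ Y hY M h i j hy

/-- unramified on `Y` ⟹ the entries of `N` lie in `J`. -/
theorem entries_mem_of_ur (H : RhoAct ρ Φ) (Y : Submodule R V)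
    (hY : ∀ (M : M₂ R), ∀ y ∈ Y, Φ M y ∈ Y)
    (J : Ideal R) (hJ : ∀ s : R, (∀ y ∈ Y, s • y = 0) → s ∈ J) {τ : GQ}
    (hur : ∀ x ∈ Y, τ • x = x) (i j : Fin 2) : (ρ τ - 1) i j ∈ J :=
  hJ _ fun y hy => entry_smul_eq_zero Φ Y hY (ρ τ - 1)
    (fun x hx => by rw [H.phi_sub_one, hur x hx, sub_self]) i j hy

/-- the Steinberg identities on `Y` (2nd and 3rd conjunct of `LocSt`, and `LocUnip`), as matrix identities modulo `J ≥ Ann Y`. -/
theorem loc_rel (H : RhoAct ρ Φ) (Y : Submodule R V)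
    (hY : ∀ (M : M₂ R), ∀ y ∈ Y, Φ M y ∈ Y)
    (J : Ideal R) (hJ : ∀ s : R, (∀ y ∈ Y, s • y = 0) → s ∈ J)
    {σ τ : GQ} (q : ℕ) (ε : ℤ) (hε : ε * ε = 1)
    (hdetσ : (ρ σ).det = (q : R)) (hdetτ : (ρ τ).det = 1)
    (h2 : ∀ x ∈ Y, τ • (σ • x - ε • x) = σ • x - ε • x)
    (h3 : ∀ x ∈ Y, σ • (σ • x - ε • x) = (ε * q) • (σ • x - ε • x))
    (hun : ∀ x ∈ Y, τ • (τ • x - x) = τ • x - x) :
    (ρ τ - 1).map (Ideal.Quotient.mk J) * (ρ τ - 1).map (Ideal.Quotient.mk J) = 0 ∧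
    ((ρ τ - 1).map (Ideal.Quotient.mk J)).trace = 0 ∧
    (ρ τ - 1).map (Ideal.Quotient.mk J) * ((ρ σ).map (Ideal.Quotient.mk J) -
      Ideal.Quotient.mk J (ε : R) • (1 : M₂ (R ⧸ J))) = 0 ∧
    ((ρ σ).map (Ideal.Quotient.mk J)).trace =
      Ideal.Quotient.mk J (ε : R) * (Ideal.Quotient.mk J (q : R) + 1) := by
  set φ := Ideal.Quotient.mk J with hφ
  have hε' : (ε : R) * (ε : R) = 1 := by exact_mod_cast congrArg (Int.cast : ℤ → R) hε
  have e1 : ∀ (n : ℤ) (v : V), ((n : ℤ) : R) • v = n • v := fun n v => Int.cast_smul_eq_zsmul R n v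
  have one' : (1 : M₂ R).map φ = 1 := map_one φ.mapMatrix
  have mul' : ∀ X Z : M₂ R, (X * Z).map φ = X.map φ * Z.map φ := fun X Z => Matrix.map_mul
  have sub' : ∀ X Z : M₂ R, (X - Z).map φ = X.map φ - Z.map φ := fun X Z => by ext i j; simp
  have smul' : ∀ (a : R) (X : M₂ R), (a • X).map φ = φ a • X.map φ := fun a X => by ext i j; simp
  have det' : ∀ X : M₂ R, (X.map φ).det = φ X.det := fun X => by
    rw [RingHom.map_det]; rfl
  -- `N² = 0`
  have hN : (ρ τ - 1).map φ * (ρ τ - 1).map φ = 0 := by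
    rw [← mul']
    refine map_mk_eq_zero Y hY J hJ _ fun x hx => ?_
    rw [map_mul, Module.End.mul_apply, H.phi_sub_one, H.phi_sub_one, hun x hx, sub_self]
  -- `tr N = 0`
  have htr : ((ρ τ - 1).map φ).trace = 0 := by
    refine trace_eq_zero_of_sq_zero _ hN ?_
    rw [sub', one', add_sub_cancel, det', hdetτ, map_one]
  -- `N (Sg - ε) = 0`
  have hNG : (ρ τ - 1).map φ * ((ρ σ).map φ - φ (ε : R) • (1 : M₂ (R ⧸ J))) = 0 := by
    rw [← one', ← smul', ← sub', ← mul']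
    refine map_mk_eq_zero Y hY J hJ _ fun x hx => ?_
    have := phi_sub_mul_sub' H τ σ 1 (ε : R) x
    rw [one_smul, one_smul] at this
    rw [this, e1 ε x, h2 x hx, sub_self]
  -- `c = 0`
  have hcS : ((ρ σ).map φ - (φ (ε : R) * φ (q : R)) • (1 : M₂ (R ⧸ J))) *
      ((ρ σ).map φ - φ (ε : R) • (1 : M₂ (R ⧸ J))) = 0 := by
    rw [← one', ← map_mul, ← smul', ← smul', ← sub', ← sub', ← mul']
    refine map_mk_eq_zero Y hY J hJ _ fun x hx => ?_
    have e : (ε : R) * (q : R) = ((ε * (q : ℤ) : ℤ) : R) := by push_cast; ring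
    rw [phi_sub_mul_sub' H σ σ ((ε : R) * (q : R)) (ε : R) x, e1 ε x, e, e1, h3 x hx, sub_self]
  have hεφ : φ (ε : R) * φ (ε : R) = 1 := by rw [← map_mul, hε', map_one]
  have hdetφ : ((ρ σ).map φ).det = φ (q : R) := by rw [det', hdetσ]
  have hcomm : ((ρ σ).map φ - φ (ε : R) • (1 : M₂ (R ⧸ J))) *
      ((ρ σ).map φ - (φ (ε : R) * φ (q : R)) • (1 : M₂ (R ⧸ J))) =
      ((ρ σ).map φ - (φ (ε : R) * φ (q : R)) • (1 : M₂ (R ⧸ J))) *
      ((ρ σ).map φ - φ (ε : R) • (1 : M₂ (R ⧸ J))) := by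
    simp only [sub_mul, mul_sub, Matrix.mul_smul, Matrix.smul_mul, mul_one, one_mul, smul_smul]
    rw [mul_comm (φ (ε : R)) (φ (ε : R) * φ (q : R))]
    abel
  have hc0 := Raise.sub_mul_sub ((ρ σ).map φ) (φ (q : R)) (φ (ε : R)) hεφ hdetφ
  rw [hcomm, hcS] at hc0
  have hinv : (ρ σ).map φ * (ρ σ⁻¹).map φ = 1 := by
    rw [← mul', ← map_mul, mul_inv_cancel, map_one, one']
  have hc : ((ρ σ).map φ).trace = φ (ε : R) * (φ (q : R) + 1) := by
    have h5 : (((ρ σ).map φ).trace - φ (ε : R) * (φ (q : R) + 1)) • (1 : M₂ (R ⧸ J)) = 0 := by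
      rw [← hinv, ← Matrix.smul_mul, ← hc0, zero_mul]
    have h6 := congrFun (congrFun h5 0) 0
    simp only [Matrix.smul_apply, Matrix.one_apply_eq, smul_eq_mul, mul_one,
      Matrix.zero_apply] at h6
    exact sub_eq_zero.1 h6
  exact ⟨hN, htr, hNG, hc⟩

theorem trace_map_mk (J : Ideal R) (X : M₂ R) :
    (X.map (Ideal.Quotient.mk J)).trace = Ideal.Quotient.mk J X.trace := by
  rw [Matrix.trace_fin_two, Matrix.trace_fin_two, map_add]; rfl

/-- **(RS-in-H)** `c ∈ J`. -/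
theorem c_mem_of_loc (H : RhoAct ρ Φ) (Y : Submodule R V)
    (hY : ∀ (M : M₂ R), ∀ y ∈ Y, Φ M y ∈ Y)
    (J : Ideal R) (hJ : ∀ s : R, (∀ y ∈ Y, s • y = 0) → s ∈ J)
    {σ τ : GQ} (q : ℕ) (ε : ℤ) (hε : ε * ε = 1)
    (hdetσ : (ρ σ).det = (q : R)) (hdetτ : (ρ τ).det = 1)
    (h2 : ∀ x ∈ Y, τ • (σ • x - ε • x) = σ • x - ε • x)
    (h3 : ∀ x ∈ Y, σ • (σ • x - ε • x) = (ε * q) • (σ • x - ε • x))
    (hun : ∀ x ∈ Y, τ • (τ • x - x) = τ • x - x) :
    (ρ σ).trace - (ε : R) * ((q : R) + 1) ∈ J := by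
  obtain ⟨-, -, -, hc⟩ := loc_rel H Y hY J hJ q ε hε hdetσ hdetτ h2 h3 hun
  rw [trace_map_mk] at hc
  rw [← Ideal.Quotient.eq_zero_iff_mem, map_sub, hc, map_mul, map_add, map_one, sub_self]

/-- **(RS-in-H)** `tr N ∈ J`. -/
theorem trace_mem_of_unip (H : RhoAct ρ Φ) (Y : Submodule R V)
    (hY : ∀ (M : M₂ R), ∀ y ∈ Y, Φ M y ∈ Y)
    (J : Ideal R) (hJ : ∀ s : R, (∀ y ∈ Y, s • y = 0) → s ∈ J)
    {τ : GQ} (hdetτ : (ρ τ).det = 1) (hun : ∀ x ∈ Y, τ • (τ • x - x) = τ • x - x) :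
    (ρ τ - 1).trace ∈ J := by
  have hN : (ρ τ - 1).map (Ideal.Quotient.mk J) * (ρ τ - 1).map (Ideal.Quotient.mk J) = 0 := by
    rw [← Matrix.map_mul]
    refine map_mk_eq_zero Y hY J hJ _ fun x hx => ?_
    rw [map_mul, Module.End.mul_apply, H.phi_sub_one, H.phi_sub_one, hun x hx, sub_self]
  have htr := trace_eq_zero_of_sq_zero _ hN (by
    have e : (1 : M₂ (R ⧸ J)) + (ρ τ - 1).map (Ideal.Quotient.mk J) =
        (Ideal.Quotient.mk J).mapMatrix (ρ τ) := by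
      ext i j
      fin_cases i <;> fin_cases j <;> simp
    rw [e, ← RingHom.map_det, hdetτ, map_one])
  rw [trace_map_mk] at htr
  exact Ideal.Quotient.eq_zero_iff_mem.1 htr

/-- **(RS-in-H)** the Steinberg identities on `Y` (2nd and 3rd conjunct of `LocSt`, and `LocUnip`) give the scroll relations modulo
`J ≥ Ann Y`  (= `hval` of `SM.liftB`). -/
theorem isScroll_of_loc (H : RhoAct ρ Φ) (Y : Submodule R V)
    (hY : ∀ (M : M₂ R), ∀ y ∈ Y, Φ M y ∈ Y)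
    (J : Ideal R) (hJ : ∀ s : R, (∀ y ∈ Y, s • y = 0) → s ∈ J)
    {σ τ : GQ} (q p : ℕ) (d' : ℤ) (hqd : (q : ℤ) - 1 = (p : ℤ) * d') (ε : ℤ) (hε : ε * ε = 1)
    (hdetσ : (ρ σ).det = (q : R)) (hdetτ : (ρ τ).det = 1)
    (h2 : ∀ x ∈ Y, τ • (σ • x - ε • x) = σ • x - ε • x)
    (h3 : ∀ x ∈ Y, σ • (σ • x - ε • x) = (ε * q) • (σ • x - ε • x))
    (hun : ∀ x ∈ Y, τ • (τ • x - x) = τ • x - x) :
    SM.IsScroll ((((p : ℤ) * d' : ℤ)) : R ⧸ J)
      (fun j => Ideal.Quotient.mk J (locVar (ρ σ) (ρ τ - 1) (ε : R) j)) := by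
  obtain ⟨hN, htr, hNG, hc⟩ := loc_rel H Y hY J hJ q ε hε hdetσ hdetτ h2 h3 hun
  have hε' : (ε : R) * (ε : R) = 1 := by exact_mod_cast congrArg (Int.cast : ℤ → R) hε
  have key := (scroll_locVar ((ρ σ).map (Ideal.Quotient.mk J)) ((ρ τ - 1).map (Ideal.Quotient.mk J))
    (Ideal.Quotient.mk J (q : R)) (Ideal.Quotient.mk J (ε : R))
    (by rw [← map_mul, hε', map_one])
    (by rw [← hdetσ, RingHom.map_det]; rfl) htr hN hNG hc).isScroll
  rw [locVar_map] at key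
  have e : Ideal.Quotient.mk J (q : R) - 1 = ((((p : ℤ) * d' : ℤ)) : R ⧸ J) := by
    rw [← hqd]; push_cast; simp
  rwa [e] at key

/-- **(RS-out-H)** St2 + tame + `c'` a unit : the first two Steinberg identities hold on all of `V`, the third one on `V[c]`. -/
theorem loc_of_st2 (H : RhoAct ρ Φ) {σ τ : GQ} (q : ℕ) (ε : ℤ) (hε : ε * ε = 1)
    (hdetσ : (ρ σ).det = (q : R)) (hq : IsUnit (q : R))
    (hc' : IsUnit ((ρ σ).trace + (ε : R) * ((q : R) + 1)))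
    (hst : (ρ σ * ρ σ - ((q : R) * q) • (1 : M₂ R)) * (ρ τ - 1) = 0)
    (htame : ρ σ * (ρ τ - 1) = (q : R) • ((ρ τ - 1) * ρ σ)) :
    (∀ x : V, σ • (τ • x - x) = (ε * q) • (τ • x - x)) ∧
    (∀ x : V, τ • (σ • x - ε • x) = σ • x - ε • x) ∧
    ∀ x : V, ((ρ σ).trace - (ε : R) * ((q : R) + 1)) • x = 0 →
      σ • (σ • x - ε • x) = (ε * q) • (σ • x - ε • x) := by
  have hε' : (ε : R) * (ε : R) = 1 := by exact_mod_cast congrArg (Int.cast : ℤ → R) hε
  have e1 : ∀ (n : ℤ) (v : V), ((n : ℤ) : R) • v = n • v := fun n v => Int.cast_smul_eq_zsmul R n v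
  have e : (ε : R) * (q : R) = ((ε * (q : ℤ) : ℤ) : R) := by push_cast; ring
  refine ⟨fun x => ?_, fun x => ?_, fun x hx => ?_⟩
  · have h1 := Raise.sub_mul_eq_zero (ρ σ) (ρ τ - 1) (q : R) (ε : R) hε' hdetσ hq hc' hst
    have h2 := phi_sub_mul_sub' H σ τ ((ε : R) * (q : R)) 1 x
    rw [one_smul, one_smul, h1, map_zero, LinearMap.zero_apply, e, e1] at h2
    exact sub_eq_zero.1 h2.symm
  · have h1 := Raise.mul_sub_eq_zero (ρ σ) (ρ τ - 1) (q : R) (ε : R) hε' hdetσ hq hc' hst htame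
    have h2 := phi_sub_mul_sub' H τ σ 1 (ε : R) x
    rw [one_smul, one_smul, h1, map_zero, LinearMap.zero_apply, e1] at h2
    exact sub_eq_zero.1 h2.symm
  · have hcomm : (ρ σ - ((ε : R) * (q : R)) • (1 : M₂ R)) * (ρ σ - (ε : R) • (1 : M₂ R)) =
        (ρ σ - (ε : R) • (1 : M₂ R)) * (ρ σ - ((ε : R) * (q : R)) • (1 : M₂ R)) := by
      simp only [sub_mul, mul_sub, Matrix.mul_smul, Matrix.smul_mul, mul_one, one_mul, smul_smul]
      rw [mul_comm (ε : R) ((ε : R) * (q : R))]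
      abel
    have h2 := phi_sub_mul_sub' H σ σ ((ε : R) * (q : R)) (ε : R) x
    rw [hcomm, Raise.sub_mul_sub (ρ σ) (q : R) (ε : R) hε' hdetσ, map_smul, LinearMap.smul_apply,
      ← map_smul, hx, map_zero, e1 ε x, e, e1] at h2
    exact sub_eq_zero.1 h2.symm

/-- `x_i(τ₀) c(σ) = 0` for EVERY Frobenius `σ` (St2 for the pair `(σ, τ₀)`). -/
theorem c_mul_locVar' {σ σ₀ τ₀ : GQ} (q : ℕ) (ε : R) (hε : ε * ε = 1)
    (hdetσ : (ρ σ).det = (q : R)) (hq : IsUnit (q : R))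
    (hc' : IsUnit ((ρ σ).trace + ε * ((q : R) + 1)))
    (hst : (ρ σ * ρ σ - ((q : R) * q) • (1 : M₂ R)) * (ρ τ₀ - 1) = 0) (i : Fin 6)
    (hi : (i : ℕ) < 3) :
    ((ρ σ).trace - ε * ((q : R) + 1)) * locVar (ρ σ₀) (ρ τ₀ - 1) ε i = 0 := by
  rw [locVar_congr_lt (ρ σ₀) (ρ τ₀ - 1) ε (ρ σ) ε i hi]
  exact c_mul_locVar (ρ σ) (ρ τ₀ - 1) (q : R) ε hε hdetσ hq hc' hst i hi

end Act

end Fermat.Agent.ML.Hard
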