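/-
ML / HARD / Poly : the polynomials `Pc`, `Pβ` of `raise_step_abs_F` (`ML/Hard/StepAbsF.lean`) and their values
at `val` and at the auxiliary point `auxVal p Hr σ pt`.

* `auxVal_inl_zero`, `auxVal_inl_ne`, `auxVal_inr`;  `ptOf B` (`p` on `B`, `0` elsewhere), `ptOf_mem`, `ptOf_not_mem`, `dvd_ptOf`.
* `polyC s0 s1 s2 d = y1 (y1 - d) - y0 y2`  : `aeval_polyC`, `aeval_aux_polyC`;  `hc_hard`, `hc_hard'` (= `hc`, `hxc` for a new hard prime, `c := c~ (1 + y1)`).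
* `polyB B = ∏_{q ∈ Hr} x0(q) * ∏_{s ∈ B} X s` : `aeval_polyB`, `aeval_aux_polyB`.
* `polyTwo u a = 3 (9 - (u + a)²)` : `aeval_polyTwo`, `aeval_aux_polyTwo`, `two_sub_mem` (the CELL-2 factor `(z₂ + 3)(9 - t₂²)` modulo `Ann ∋ z₂`).
* `not_dvd_mul_polyB`, `exists_not_dvd`, `hβ_mul` : `hβ`, `hxβ` for `β' = n₂ * ∏ b`.
* `isUnit_one_add_of_pow`, `isUnit_one_add_of_map`, `smul_eq_zero_iff_of_unit`, `smul_ctilde_iff` : `1 + y1` is a unit, `c • x = 0 ↔ c_q • x = 0`.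
-/
import Fermat.Agent.ML.Hard.LocH
import Fermat.Agent.ML.Hard.Inst

set_option autoImplicit false

open MvPolynomial

namespace Fermat.Agent.ML.Hard

local notation "M₂" => Matrix (Fin 2) (Fin 2)

variable (p : ℕ) (Hr σ : Type)

/-! ### the auxiliary point -/

section Aux

variable (pt : σ → ℤ)

@[simp] theorem auxVal_inl_zero (q : Hr) : auxVal p Hr σ pt (Sum.inl (q, 0)) = (p : ℤ) := by
  simp [auxVal]

theorem auxVal_inl_ne (q : Hr) {j : Fin 6} (hj : j ≠ 0) :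
    auxVal p Hr σ pt (Sum.inl (q, j)) = 0 := by
  simp [auxVal, hj]

@[simp] theorem auxVal_inr (s : σ) : auxVal p Hr σ pt (Sum.inr s) = pt s := rfl

theorem aeval_aux_X_inr (s : σ) :
    aeval (auxVal p Hr σ pt) (X (Sum.inr s) : MvPolynomial (PV Hr σ) ℤ) = pt s := by
  rw [aeval_X, auxVal_inr]

theorem aeval_aux_C (n : ℤ) :
    aeval (auxVal p Hr σ pt) (C n : MvPolynomial (PV Hr σ) ℤ) = n := by
  simp

/-- the standard auxiliary point: `p` on `B`, `0` elsewhere. -/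
def ptOf [DecidableEq σ] (B : Finset σ) : σ → ℤ := fun s => if s ∈ B then (p : ℤ) else 0

theorem ptOf_mem [DecidableEq σ] {B : Finset σ} {s : σ} (hs : s ∈ B) : ptOf p σ B s = (p : ℤ) := by
  simp [ptOf, hs]

theorem ptOf_not_mem [DecidableEq σ] {B : Finset σ} {s : σ} (hs : s ∉ B) : ptOf p σ B s = 0 := by
  simp [ptOf, hs]

theorem dvd_ptOf [DecidableEq σ] (B : Finset σ) (s : σ) : (p : ℤ) ∣ ptOf p σ B s := by
  by_cases hs : s ∈ B
  · rw [ptOf_mem p σ hs]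
  · rw [ptOf_not_mem p σ hs]; exact dvd_zero _

end Aux

/-! ### `Pc` for a new hard prime -/

/-- `y1 (y1 - d) - y0 y2`. -/
noncomputable def polyC (s0 s1 s2 : σ) (d : ℤ) : MvPolynomial (PV Hr σ) ℤ :=
  X (Sum.inr s1) * (X (Sum.inr s1) - C d) - X (Sum.inr s0) * X (Sum.inr s2)

theorem aeval_polyC {T : Type*} [CommRing T] (val : PV Hr σ → T) (s0 s1 s2 : σ) (d : ℤ) :
    aeval val (polyC Hr σ s0 s1 s2 d) =
      val (Sum.inr s1) * (val (Sum.inr s1) - (d : T)) - val (Sum.inr s0) * val (Sum.inr s2) := by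
  simp [polyC]

theorem aeval_aux_polyC (pt : σ → ℤ) (s0 s1 s2 : σ) (d : ℤ) (h1 : pt s1 = 0)
    (h02 : pt s0 = 0 ∨ pt s2 = 0) :
    aeval (auxVal p Hr σ pt) (polyC Hr σ s0 s1 s2 d) = 0 := by
  rw [aeval_polyC, auxVal_inr, auxVal_inr, auxVal_inr, h1]
  rcases h02 with h | h <;> simp [h]

/-- **`hc`** for a new hard prime `q`: `c := c~ (1 + y1)`, `c~ = ε tr Sg - (q + 1)`, EXACT equality. -/
theorem hc_hard {R : Type*} [CommRing R] (val : PV Hr σ → R) (Sg N : M₂ R) (q : ℕ) (ε : R)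
    (hε : ε * ε = 1) (hdet : Sg.det = (q : R)) (s0 s1 s2 : σ)
    (h0 : val (Sum.inr s0) = locVar Sg N ε 3) (h1 : val (Sum.inr s1) = locVar Sg N ε 4)
    (h2 : val (Sum.inr s2) = locVar Sg N ε 5) :
    (ε * Sg.trace - ((q : R) + 1)) * (1 + locVar Sg N ε 4) =
      aeval val (polyC Hr σ s0 s1 s2 ((q : ℤ) - 1)) := by
  rw [aeval_polyC, h0, h1, h2, unr_rel Sg N (q : R) ε hε hdet]
  push_cast
  ring

/-- the same, as a membership. -/
theorem hc_hard' {R : Type*} [CommRing R] (J : Ideal R) (val : PV Hr σ → R) (Sg N : M₂ R) (q : ℕ)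
    (ε : R) (hε : ε * ε = 1) (hdet : Sg.det = (q : R)) (s0 s1 s2 : σ)
    (h0 : val (Sum.inr s0) = locVar Sg N ε 3) (h1 : val (Sum.inr s1) = locVar Sg N ε 4)
    (h2 : val (Sum.inr s2) = locVar Sg N ε 5) :
    (ε * Sg.trace - ((q : R) + 1)) * (1 + locVar Sg N ε 4) -
      aeval val (polyC Hr σ s0 s1 s2 ((q : ℤ) - 1)) ∈ J := by
  rw [hc_hard Hr σ val Sg N q ε hε hdet s0 s1 s2 h0 h1 h2, sub_self]
  exact J.zero_mem

/-! ### `Pβ` -/

section B

variable [Fintype Hr]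

/-- the product of the `b`-variables: `x0(q)` for the raised hard primes, `X s` for `s ∈ B`. -/
noncomputable def polyB (B : Finset σ) : MvPolynomial (PV Hr σ) ℤ :=
  (∏ q : Hr, X (Sum.inl (q, 0))) * ∏ s ∈ B, X (Sum.inr s)

theorem aeval_polyB {T : Type*} [CommRing T] (val : PV Hr σ → T) (B : Finset σ) :
    aeval val (polyB Hr σ B) = (∏ q : Hr, val (Sum.inl (q, 0))) * ∏ s ∈ B, val (Sum.inr s) := by
  simp [polyB, map_prod]

theorem aeval_aux_polyB (pt : σ → ℤ) (B : Finset σ) (hB : ∀ s ∈ B, pt s = (p : ℤ)) :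
    aeval (auxVal p Hr σ pt) (polyB Hr σ B) = (p : ℤ) ^ (Fintype.card Hr + B.card) := by
  rw [aeval_polyB, pow_add]
  congr 1
  · simp [Finset.card_univ]
  · rw [Finset.prod_congr rfl (fun s hs => by rw [auxVal_inr, hB s hs]), Finset.prod_const]

/-- **`hxβ`**. -/
theorem not_dvd_mul_polyB (hp : p.Prime) (pt : σ → ℤ) (B : Finset σ)
    (hB : ∀ s ∈ B, pt s = (p : ℤ)) (N₂ : MvPolynomial (PV Hr σ) ℤ) {f₂ : ℕ}
    (h : ¬ (p : ℤ) ^ (f₂ + 1) ∣ aeval (auxVal p Hr σ pt) N₂) :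
    ¬ (p : ℤ) ^ (Fintype.card Hr + B.card + f₂ + 1) ∣
      aeval (auxVal p Hr σ pt) (N₂ * polyB Hr σ B) := by
  rw [map_mul, aeval_aux_polyB p Hr σ pt B hB, add_assoc, pow_add, mul_comm]
  intro h'
  have hp0 : (p : ℤ) ≠ 0 := by exact_mod_cast hp.ne_zero
  exact h ((mul_dvd_mul_iff_right (pow_ne_zero _ hp0)).1 h')

/-- **`hβ`**. -/
theorem hβ_mul {R : Type*} [CommRing R] (J : Ideal R) (val : PV Hr σ → R) (B : Finset σ)
    (N₂ : MvPolynomial (PV Hr σ) ℤ) (n₂ : R) (h : n₂ - aeval val N₂ ∈ J) :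
    n₂ * ((∏ q : Hr, val (Sum.inl (q, 0))) * ∏ s ∈ B, val (Sum.inr s)) -
      aeval val (N₂ * polyB Hr σ B) ∈ J := by
  rw [map_mul, aeval_polyB, ← sub_mul]
  exact J.mul_mem_right _ h

end B

/-- a non zero integer is not divisible by a high power of `p`. -/
theorem exists_not_dvd (hp : p.Prime) (n : ℤ) (hn : n ≠ 0) : ∃ f : ℕ, ¬ (p : ℤ) ^ (f + 1) ∣ n := by
  refine ⟨n.natAbs, fun h => ?_⟩
  have h1 : p ^ (n.natAbs + 1) ∣ n.natAbs := by
    have := Int.natAbs_dvd_natAbs.2 h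
    rwa [Int.natAbs_pow, Int.natAbs_natCast] at this
  have h2 := Nat.le_of_dvd (Int.natAbs_pos.2 hn) h1
  have h3 : n.natAbs + 1 < p ^ (n.natAbs + 1) := Nat.lt_pow_self hp.one_lt
  omega

/-! ### the factor at `2` -/

/-- `3 (9 - (u + a)²)`. -/
noncomputable def polyTwo (u : σ) (a : ℤ) : MvPolynomial (PV Hr σ) ℤ :=
  C 3 * (C 9 - (X (Sum.inr u) + C a) ^ 2)

theorem aeval_polyTwo {T : Type*} [CommRing T] (val : PV Hr σ → T) (u : σ) (a : ℤ) :
    aeval val (polyTwo Hr σ u a) = 3 * (9 - (val (Sum.inr u) + (a : T)) ^ 2) := by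
  simp [polyTwo]

theorem aeval_aux_polyTwo (pt : σ → ℤ) (u : σ) (a : ℤ) (hu : pt u = 0) :
    aeval (auxVal p Hr σ pt) (polyTwo Hr σ u a) = 3 * (9 - a ^ 2) := by
  rw [aeval_polyTwo, auxVal_inr, hu]
  simp

theorem aeval_aux_polyTwo_ne_zero (pt : σ → ℤ) (u : σ) (a : ℤ) (hu : pt u = 0) (ha : a ^ 2 ≠ 9) :
    aeval (auxVal p Hr σ pt) (polyTwo Hr σ u a) ≠ 0 := by
  rw [aeval_aux_polyTwo p Hr σ pt u a hu]
  intro h
  apply ha
  linarith

/-- the CELL-2 factor `(z₂ + 3)(9 - t₂²)` modulo `J ∋ z₂`, variable `u₂ = t₂ - a`. -/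
theorem two_sub_mem {R : Type*} [CommRing R] (J : Ideal R) (val : PV Hr σ → R) (u : σ) (a : ℤ)
    (z₂ t₂ : R) (hz : z₂ ∈ J) (hu : val (Sum.inr u) = t₂ - (a : R)) :
    (z₂ + 3) * (9 - t₂ ^ 2) - aeval val (polyTwo Hr σ u a) ∈ J := by
  rw [aeval_polyTwo, hu]
  have e : (z₂ + 3) * (9 - t₂ ^ 2) - 3 * (9 - (t₂ - (a : R) + (a : R)) ^ 2) =
      z₂ * (9 - t₂ ^ 2) := by ring
  rw [e]
  exact J.mul_mem_right _ hz

/-- the factor `z₂ + 3` modulo `J ∋ z₂`. -/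
theorem three_sub_mem {R : Type*} [CommRing R] (J : Ideal R) (val : PV Hr σ → R)
    (z₂ : R) (hz : z₂ ∈ J) :
    (z₂ + 3) - aeval val (C 3 : MvPolynomial (PV Hr σ) ℤ) ∈ J := by
  have e : (z₂ + 3) - aeval val (C 3 : MvPolynomial (PV Hr σ) ℤ) = z₂ := by simp
  rw [e]
  exact hz

/-! ### units -/

/-- `1 + y` is a unit if a power of the ideal `m ∋ y` vanishes. -/
theorem isUnit_one_add_of_pow {R : Type*} [CommRing R] (m : Ideal R) {E : ℕ} (hE : m ^ E = ⊥)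
    {y : R} (hy : y ∈ m) : IsUnit (1 + y) := by
  have : IsNilpotent y := ⟨E, by
    have := Ideal.pow_mem_pow hy E
    rwa [hE, Ideal.mem_bot] at this⟩
  exact this.isUnit_one_add

/-- `1 + y` is a unit in a local ring, `y` in the kernel of a ring hom to a non trivial ring. -/
theorem isUnit_one_add_of_map {R k : Type*} [CommRing R] [IsLocalRing R] [CommRing k] [Nontrivial k]
    (π : R →+* k) {y : R} (hy : π y = 0) : IsUnit (1 + y) := by
  by_contra h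
  have h1 : (1 + y) ∈ IsLocalRing.maximalIdeal R := (IsLocalRing.mem_maximalIdeal _).2 h
  have h2 : y ∈ IsLocalRing.maximalIdeal R := by
    rw [IsLocalRing.mem_maximalIdeal, mem_nonunits_iff]
    intro hu
    have := hu.map π
    rw [hy] at this
    exact not_isUnit_zero this
  have h3 : (1 : R) ∈ IsLocalRing.maximalIdeal R := by
    have := (IsLocalRing.maximalIdeal R).sub_mem h1 h2
    rwa [add_sub_cancel_right] at this
  exact (IsLocalRing.maximalIdeal.isMaximal R).ne_top ((Ideal.eq_top_iff_one _).2 h3)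

theorem smul_eq_zero_iff_of_unit {R V : Type*} [CommRing R] [AddCommGroup V] [Module R V]
    {u : R} (hu : IsUnit u) (c : R) (x : V) : (c * u) • x = 0 ↔ c • x = 0 := by
  obtain ⟨w, rfl⟩ := hu
  constructor
  · intro h
    have := congrArg (fun y => ((↑w⁻¹ : R)) • y) h
    simpa [smul_smul, mul_comm, mul_assoc] using this
  · intro h
    rw [mul_comm, mul_smul, h, smul_zero]

/-- `c := c~ (1 + y1)` and `c_q = tr Sg - ε (q + 1)` kill the same elements. -/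
theorem smul_ctilde_iff {R V : Type*} [CommRing R] [AddCommGroup V] [Module R V]
    (Sg N : M₂ R) (q ε : R) (hε : ε * ε = 1) (hu : IsUnit (1 + locVar Sg N ε 4)) (x : V) :
    ((ε * Sg.trace - (q + 1)) * (1 + locVar Sg N ε 4)) • x = 0 ↔
      (Sg.trace - ε * (q + 1)) • x = 0 := by
  rw [smul_eq_zero_iff_of_unit hu]
  have hεu : IsUnit ε := IsUnit.of_mul_eq_one ε hε
  have e : ε * Sg.trace - (q + 1) = (Sg.trace - ε * (q + 1)) * ε := by
    linear_combination (q + 1) * hε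
  rw [e, smul_eq_zero_iff_of_unit hεu]

end Fermat.Agent.ML.Hard
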