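/-
ML / HARD / StepGenF : `raise_step_abs_F`, `final_abs_F` with (GEN) in the form delivered by `MCtx.gen_stage` :
the LOCAL variables `val₀ : PV Hr σ₀ → R` are given, the global ones `x : Fin g → R` come from an existential; `3 #Hr + #σ₀ + g ≤ t`;
the Hilbert bound is `4^#Hr (E+1)^t`.
-/
import Fermat.Agent.ML.Hard.StepAbsF

set_option autoImplicit false
set_option linter.unusedSectionVars false

open MvPolynomial

namespace Fermat.Agent.ML.Hard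

open Submodule Fermat.Agent.ML Fermat.Agent.ML.Raise Fermat.Agent.ML.Lift

section Ext

variable (Hr σ₀ : Type) {R : Type*} [CommRing R] (g : ℕ)

/-- the inclusion of the local variables. -/
def extV : PV Hr σ₀ → PV Hr (σ₀ ⊕ Fin g) := Sum.map id Sum.inl

/-- local variables + global variables. -/
def extVal (val₀ : PV Hr σ₀ → R) (x : Fin g → R) : PV Hr (σ₀ ⊕ Fin g) → R :=
  Sum.elim (fun z => val₀ (Sum.inl z)) (Sum.elim (fun s => val₀ (Sum.inr s)) x)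

theorem extVal_extV (val₀ : PV Hr σ₀ → R) (x : Fin g → R) (v : PV Hr σ₀) :
    extVal Hr σ₀ g val₀ x (extV Hr σ₀ g v) = val₀ v := by
  rcases v with z | s <;> rfl

theorem aeval_extVal (val₀ : PV Hr σ₀ → R) (x : Fin g → R) (P : MvPolynomial (PV Hr σ₀) ℤ) :
    aeval (extVal Hr σ₀ g val₀ x) (rename (extV Hr σ₀ g) P) = aeval val₀ P := by
  rw [aeval_rename]
  congr 2
  funext v
  exact extVal_extV Hr σ₀ g val₀ x v

theorem aeval_auxVal_ext (p : ℕ) (pt : σ₀ → ℤ) (P : MvPolynomial (PV Hr σ₀) ℤ) :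
    aeval (auxVal p Hr (σ₀ ⊕ Fin g) (Sum.elim pt fun _ => 0)) (rename (extV Hr σ₀ g) P) =
      aeval (auxVal p Hr σ₀ pt) P := by
  rw [aeval_rename]
  congr 2
  funext v
  rcases v with z | s <;> rfl

theorem range_extVal (val₀ : PV Hr σ₀ → R) (x : Fin g → R) :
    Set.range (extVal Hr σ₀ g val₀ x) = Set.range val₀ ∪ Set.range x := by
  ext y
  constructor
  · rintro ⟨(z | s | i), rfl⟩
    · exact Or.inl ⟨Sum.inl z, rfl⟩
    · exact Or.inl ⟨Sum.inr s, rfl⟩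
    · exact Or.inr ⟨i, rfl⟩
  · rintro (⟨(z | s), rfl⟩ | ⟨i, rfl⟩)
    · exact ⟨Sum.inl z, rfl⟩
    · exact ⟨Sum.inr (Sum.inl s), rfl⟩
    · exact ⟨Sum.inr (Sum.inr i), rfl⟩

theorem HB_le [Fintype Hr] [Fintype σ₀] {t : ℕ}
    (h : 3 * Fintype.card Hr + Fintype.card σ₀ + g ≤ t) (E : ℕ) :
    SM.HB (Fintype.card Hr) (Fintype.card (σ₀ ⊕ Fin g)) E ≤ 4 ^ Fintype.card Hr * (E + 1) ^ t := by
  rw [SM.HB, Fintype.card_sum, Fintype.card_fin]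
  exact Nat.mul_le_mul_left _ (Nat.pow_le_pow_right (by omega) (by omega))

end Ext

variable {Γ : Type*} [Group Γ] {J : Type*} [AddCommGroup J] [DistribMulAction Γ J]
  {V : AddSubgroup J} {R : Type*} [CommRing R] [Module R V] {tr : Γ → R} {χ : Γ → ℤ}
  {M : Type*} [AddCommGroup M] [DistribMulAction Γ M]

variable [Finite V] {p a t : ℕ} [Fact p.Prime] (Hr σ₀ : Type) [Fintype Hr] [Fintype σ₀]
  (D : Hr → ℤ)

/-- **[RAISE-STEP-F]**, (GEN) in the form of `gen_stage`. -/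
theorem raise_step_gen_F (H : IsTraceRing V R tr χ) (ha : 1 ≤ a)
    (hcomm : ∀ (g : Γ) (s : R) (x : V),
      ((s • (⟨g • (x : J), H.stable g x x.2⟩ : V) : V) : J) = g • ((s • x : V) : J))
    (τ : Fin t → Γ) (hχτ : ∀ i, ∀ x ∈ V, χ (τ i) • x = x)
    (mR : Ideal R) (hpm : (p : R) ∈ mR) (hres : ∀ s : R, ∃ c : ℤ, s - (c : R) ∈ mR)
    (hz : ∀ i, tr (τ i) - 2 ∈ mR) {E₀ : ℕ} (hE₀ : ∀ s ∈ mR ^ E₀, ∀ x : V, s • x = 0)
    (U G : AddSubgroup M) (hU : ∀ (g : Γ), ∀ v ∈ U, g • v ∈ U) (hG : ∀ (g : Γ), ∀ v ∈ G, g • v ∈ G)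
    (hUa : ∀ v ∈ U, p ^ a • v = 0) (hGU : G ≤ boxG p a τ U)
    (uA uE : M →+ J) (hA : ∀ (g : Γ) v, uA (g • v) = g • uA v)
    (hE : ∀ (g : Γ) v, uE (g • v) = g • uE v)
    (hAV : ∀ v ∈ U, uA v ∈ V) (hEV : ∀ v ∈ U, uE v ∈ V)
    (hAi : ∀ v ∈ U, uA v = 0 → v = 0) (hEi : ∀ v ∈ U, uE v = 0 → v = 0)
    {d e : ℕ} (hcogen : Nat.card ↥(boxG p 1 τ U) ≤ p ^ d) (he : p ^ d < 2 ^ e)
    (U' : AddSubgroup J) (hU' : ∀ (g : Γ), ∀ x ∈ U', g • x ∈ U') (hU'V : U' ≤ V)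
    (hU'a : ∀ x ∈ U', p ^ a • x = 0)
    {D' : ℕ} (hcogen' : Nat.card ↥(boxG p 1 τ U') ≤ p ^ D')
    (hsize' : p ^ (D' * a ^ (t + 1)) ≤ Nat.card ↥(boxG p a τ U'))
    (val₀ : PV Hr σ₀ → R)
    (hscr : ∀ q, Scroll (fun j => Ideal.Quotient.mk
        (H.mapSub G hG uA hA fun v hv => hAV v (hGU hv).1).annihilator (val₀ (Sum.inl (q, j))))
      ((((p : ℤ) * D q : ℤ)) : R ⧸ (H.mapSub G hG uA hA fun v hv => hAV v (hGU hv).1).annihilator))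
    (hval : ∀ x, val₀ x ∈ mR)
    {g : ℕ} (x : Fin g → R) (hx : ∀ i, x i ∈ mR)
    (hcard : 3 * Fintype.card Hr + Fintype.card σ₀ + g ≤ t)
    (hgen : mR ≤ (H.mapSub G hG uA hA fun v hv => hAV v (hGU hv).1).annihilator ⊔
        Ideal.span (Set.range val₀) ⊔ Ideal.span (Set.range x) ⊔ Ideal.span {(p : R)})
    (pt : σ₀ → ℤ) (hpt : ∀ s, (p : ℤ) ∣ pt s)
    (c β' : R) (Pc Pβ : MvPolynomial (PV Hr σ₀) ℤ)
    (hc : c - aeval val₀ Pc ∈ (H.mapSub G hG uA hA fun v hv => hAV v (hGU hv).1).annihilator)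
    (hβ : β' - aeval val₀ Pβ ∈ (H.mapSub G hG uA hA fun v hv => hAV v (hGU hv).1).annihilator)
    (hxc : aeval (auxVal p Hr σ₀ pt) Pc = 0) {f₁ Bd m : ℕ}
    (hxβ : ¬ (p : ℤ) ^ (f₁ + 1) ∣ aeval (auxVal p Hr σ₀ pt) Pβ) (hBd : d * f₁ < Bd)
    (hbig : p ^ (d * f₁ * (4 ^ Fintype.card Hr * (e * ((t + 1) * a + 1) + 1) ^ t) * d) < Nat.card G)
    (hemb : ∀ v (hv : v ∈ U), c • (⟨uA v, hAV v hv⟩ : V) = 0 → uE v ∈ U')
    (hm : (t + 1) * m + Bd ≤ a + 1) :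
    ∃ G' : AddSubgroup J, (∀ (g : Γ), ∀ x ∈ G', g • x ∈ G') ∧ G' ≤ boxG p a τ U' ∧
      p ^ (m ^ (t + 1)) ≤ Nat.card G' ∧
      ∀ x ∈ G', ∃ x₁ : V, (x₁ : J) ∈ boxG p a τ U' ∧ ((β' • x₁ : V) : J) = x := by
  have hp1 : 1 ≤ p := (Fact.out : p.Prime).one_lt.le
  refine raise_step_abs_F Hr (σ₀ ⊕ Fin g) D H ha hcomm τ hχτ mR hpm hres hz hE₀ U G hU hG hUa hGU
    uA uE hA hE hAV hEV hAi hEi hcogen he U' hU' hU'V hU'a hcogen' hsize'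
    (extVal Hr σ₀ g val₀ x) hscr ?_ ?_ (Sum.elim pt fun _ => 0) ?_ c β'
    (rename (extV Hr σ₀ g) Pc) (rename (extV Hr σ₀ g) Pβ) ?_ ?_ ?_ ?_ hBd ?_ hemb hm
  · rintro (z | s | i)
    · exact hval _
    · exact hval _
    · exact hx i
  · rw [range_extVal, Ideal.span_union, ← sup_assoc]
    exact hgen
  · rintro (s | i)
    · exact hpt s
    · exact dvd_zero _
  · rw [aeval_extVal]; exact hc
  · rw [aeval_extVal]; exact hβ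
  · rw [aeval_auxVal_ext]; exact hxc
  · rw [aeval_auxVal_ext]; exact hxβ
  · refine lt_of_le_of_lt (Nat.pow_le_pow_right hp1 ?_) hbig
    exact Nat.mul_le_mul_right _ (Nat.mul_le_mul_left _ (HB_le Hr σ₀ g hcard _))

/-- **[FINAL-F]**, (GEN) in the form of `gen_stage`. -/
theorem final_gen_F (H : IsTraceRing V R tr χ)
    (τ : Fin t → Γ) (hχτ : ∀ i, ∀ x ∈ V, χ (τ i) • x = x)
    (mR : Ideal R) (hpm : (p : R) ∈ mR) (hres : ∀ s : R, ∃ c : ℤ, s - (c : R) ∈ mR)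
    (hz : ∀ i, tr (τ i) - 2 ∈ mR) {E₀ : ℕ} (hE₀ : ∀ s ∈ mR ^ E₀, ∀ x : V, s • x = 0)
    (U G : AddSubgroup M) (hU : ∀ (g : Γ), ∀ v ∈ U, g • v ∈ U) (hG : ∀ (g : Γ), ∀ v ∈ G, g • v ∈ G)
    (hGU : G ≤ boxG p a τ U)
    (uA : M →+ J) (hA : ∀ (g : Γ) v, uA (g • v) = g • uA v)
    (hAV : ∀ v ∈ U, uA v ∈ V) (hAi : ∀ v ∈ U, uA v = 0 → v = 0)
    {d e : ℕ} (hcogen : Nat.card ↥(boxG p 1 τ U) ≤ p ^ d) (he : p ^ d < 2 ^ e)
    {n : ℕ} (π : R →+* ZMod (p ^ n)) (hπm : ∀ s ∈ mR, (p : ZMod (p ^ n)) ∣ π s)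
    (val₀ : PV Hr σ₀ → R)
    (hscr : ∀ q, Scroll (fun j => Ideal.Quotient.mk
        ((H.mapSub G hG uA hA fun v hv => hAV v (hGU hv).1).annihilator ⊓ RingHom.ker π)
        (val₀ (Sum.inl (q, j))))
      ((((p : ℤ) * D q : ℤ)) :
        R ⧸ ((H.mapSub G hG uA hA fun v hv => hAV v (hGU hv).1).annihilator ⊓ RingHom.ker π)))
    (hval : ∀ x, val₀ x ∈ mR)
    {g : ℕ} (x : Fin g → R) (hx : ∀ i, x i ∈ mR)
    (hcard : 3 * Fintype.card Hr + Fintype.card σ₀ + g ≤ t)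
    (hgen : mR ≤ ((H.mapSub G hG uA hA fun v hv => hAV v (hGU hv).1).annihilator ⊓ RingHom.ker π) ⊔
        Ideal.span (Set.range val₀) ⊔ Ideal.span (Set.range x) ⊔ Ideal.span {(p : R)})
    {c : ℕ} (hn : c * d < n)
    (hbig : p ^ (c * d * (4 ^ Fintype.card Hr * (e * ((t + 1) * a + 1) + 1) ^ t) * d) < Nat.card G) :
    ∃ v, ∃ hv : v ∈ G, (∀ s : R, π s = 0 → s • (⟨uA v, hAV v (hGU hv).1⟩ : V) = 0) ∧
      p ^ c • v ≠ 0 := by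
  have hp1 : 1 ≤ p := (Fact.out : p.Prime).one_lt.le
  refine final_abs_F Hr (σ₀ ⊕ Fin g) D H τ hχτ mR hpm hres hz hE₀ U G hU hG hGU uA hA hAV hAi
    hcogen he π hπm (extVal Hr σ₀ g val₀ x) hscr ?_ ?_ hn ?_
  · rintro (z | s | i)
    · exact hval _
    · exact hval _
    · exact hx i
  · rw [range_extVal, Ideal.span_union, ← sup_assoc]
    exact hgen
  · refine lt_of_le_of_lt (Nat.pow_le_pow_right hp1 ?_) hbig
    exact Nat.mul_le_mul_right _ (Nat.mul_le_mul_left _ (HB_le Hr σ₀ g hcard _))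

end Fermat.Agent.ML.Hard
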