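/-
ML / HARD / Vars : the INDEX BOOKKEEPING between `MCtx.gen_stage` (`Rs : Finset ι`, weights `w`) and `raise_step_gen_F` / `final_gen_F`
(`Hr`, `σ₀`, `val₀`, `hcard`, `pt`, `Pc`, `Pβ`).

`Hs ⊆ Rs` = the raised hard primes (six variables `xv v j`, weight `3`);  the other `v ∈ Rs` have `w v` free variables `yv v j`, `j < w v`.

* `SgV Rs Hs w := Σ v : ↥(Rs \ Hs), Fin (w v)`, `card_SgV`, `hcard_vars` (= `hcard` with `g := t - ∑ v ∈ Rs, w v`).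
* `ix` (the variable `(v, j)`), `valOf xv yv`, `valOf_inl`, `valOf_ix`, `valOf_mem`, `xv_mem_span`, `yv_mem_span`, `span_valOf_le`.
* `bSet Sb` (the variables `(v, 0)`, `v ∈ Sb`), `card_bSet`, `ix_mem_bSet_iff`, `prod_bSet`.
* `aeval_valOf_polyB`, `aeval_valOf_polyC`, `hxc_vars`, `hxβ_vars`, `hβ_vars`, `ptOf_ix`.
-/
import Fermat.Agent.ML.Hard.Poly
import Fermat.Agent.ML.Hard.StepGenF

set_option autoImplicit false
set_option linter.unusedSectionVars false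

open MvPolynomial

namespace Fermat.Agent.ML.Hard

section Vars

variable {ι : Type} [DecidableEq ι] (Rs Hs : Finset ι) (w : ι → ℕ)

/-- the free local variables. -/
abbrev SgV : Type := Σ v : ↥(Rs \ Hs), Fin (w v)

theorem card_SgV : Fintype.card (SgV Rs Hs w) = ∑ v ∈ Rs \ Hs, w v := by
  rw [Fintype.card_sigma]
  simp only [Fintype.card_fin]
  exact Finset.sum_coe_sort (Rs \ Hs) w

/-- **`hcard`** of `raise_step_gen_F`, `final_gen_F`, with `g := t - ∑ v ∈ Rs, w v` as in `MCtx.gen_stage`. -/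
theorem hcard_vars (hHs : Hs ⊆ Rs) (hw : ∀ v ∈ Hs, w v = 3) {t : ℕ} (h : ∑ v ∈ Rs, w v ≤ t) :
    3 * Fintype.card ↥Hs + Fintype.card (SgV Rs Hs w) + (t - ∑ v ∈ Rs, w v) ≤ t := by
  rw [card_SgV, Fintype.card_coe]
  have h1 : ∑ v ∈ Rs \ Hs, w v + ∑ v ∈ Hs, w v = ∑ v ∈ Rs, w v := Finset.sum_sdiff hHs
  have h2 : ∑ v ∈ Hs, w v = 3 * Hs.card := by
    rw [Finset.sum_congr rfl hw, Finset.sum_const, smul_eq_mul, mul_comm]
  omega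

variable {Rs Hs w}

/-- the variable `(v, j)`. -/
def ix (v : ι) (hv : v ∈ Rs) (hv' : v ∉ Hs) (j : ℕ) (hj : j < w v) : SgV Rs Hs w :=
  ⟨⟨v, Finset.mem_sdiff.2 ⟨hv, hv'⟩⟩, ⟨j, hj⟩⟩

theorem exists_ix (s : SgV Rs Hs w) : ∃ v hv hv' j hj, s = ix v hv hv' j hj :=
  ⟨s.1.1, (Finset.mem_sdiff.1 s.1.2).1, (Finset.mem_sdiff.1 s.1.2).2, s.2.1, s.2.2, rfl⟩

theorem ix_eq_iff {v v' : ι} {hv : v ∈ Rs} {hv' : v ∉ Hs} {j : ℕ} {hj : j < w v}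
    {hw : v' ∈ Rs} {hw' : v' ∉ Hs} {j' : ℕ} {hj' : j' < w v'} :
    (ix v hv hv' j hj : SgV Rs Hs w) = ix v' hw hw' j' hj' ↔ v = v' ∧ j = j' := by
  constructor
  · intro h
    have h1 : v = v' := congrArg (fun s : SgV Rs Hs w => (s.1 : ι)) h
    have h2 : j = j' := congrArg (fun s : SgV Rs Hs w => (s.2 : ℕ)) h
    exact ⟨h1, h2⟩
  · rintro ⟨rfl, rfl⟩
    rfl

variable (Rs Hs w)

section Val

variable {R : Type*} [CommRing R] (xv : ι → Fin 6 → R) (yv : ι → ℕ → R)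

/-- the values of the local variables. -/
def valOf : PV ↥Hs (SgV Rs Hs w) → R :=
  Sum.elim (fun z => xv z.1 z.2) (fun s => yv s.1 s.2)

@[simp] theorem valOf_inl (q : ↥Hs) (j : Fin 6) :
    valOf Rs Hs w xv yv (Sum.inl (q, j)) = xv q j := rfl

@[simp] theorem valOf_ix (v : ι) (hv : v ∈ Rs) (hv' : v ∉ Hs) (j : ℕ) (hj : j < w v) :
    valOf Rs Hs w xv yv (Sum.inr (ix v hv hv' j hj)) = yv v j := rfl

/-- **`hval`**. -/
theorem valOf_mem (m : Ideal R) (hx : ∀ v ∈ Hs, ∀ j, xv v j ∈ m)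
    (hy : ∀ v ∈ Rs, v ∉ Hs → ∀ j < w v, yv v j ∈ m) (z : PV ↥Hs (SgV Rs Hs w)) :
    valOf Rs Hs w xv yv z ∈ m := by
  rcases z with ⟨q, j⟩ | s
  · exact hx q.1 q.2 j
  · exact hy s.1.1 (Finset.mem_sdiff.1 s.1.2).1 (Finset.mem_sdiff.1 s.1.2).2 s.2.1 s.2.2

theorem span_valOf_le (m : Ideal R) (hx : ∀ v ∈ Hs, ∀ j, xv v j ∈ m)
    (hy : ∀ v ∈ Rs, v ∉ Hs → ∀ j < w v, yv v j ∈ m) :
    Ideal.span (Set.range (valOf Rs Hs w xv yv)) ≤ m := by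
  rw [Ideal.span_le]
  rintro _ ⟨z, rfl⟩
  exact valOf_mem Rs Hs w xv yv m hx hy z

theorem xv_mem_span {v : ι} (hv : v ∈ Hs) (j : Fin 6) :
    xv v j ∈ Ideal.span (Set.range (valOf Rs Hs w xv yv)) :=
  Ideal.subset_span ⟨Sum.inl (⟨v, hv⟩, j), rfl⟩

theorem yv_mem_span {v : ι} (hv : v ∈ Rs) (hv' : v ∉ Hs) {j : ℕ} (hj : j < w v) :
    yv v j ∈ Ideal.span (Set.range (valOf Rs Hs w xv yv)) :=
  Ideal.subset_span ⟨Sum.inr (ix v hv hv' j hj), rfl⟩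

/-- the ideal of the six variables of `v ∈ Hs` lies in the ideal of all the local variables. -/
theorem span_xv_le {v : ι} (hv : v ∈ Hs) :
    Ideal.span (Set.range (xv v)) ≤ Ideal.span (Set.range (valOf Rs Hs w xv yv)) := by
  rw [Ideal.span_le]
  rintro _ ⟨j, rfl⟩
  exact xv_mem_span Rs Hs w xv yv hv j

/-- the ideal of the variables of `v ∈ Rs \ Hs` lies in the ideal of all the local variables. -/
theorem span_yv_le {v : ι} (hv : v ∈ Rs) (hv' : v ∉ Hs) :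
    Ideal.span ((yv v) '' {j | j < w v}) ≤ Ideal.span (Set.range (valOf Rs Hs w xv yv)) := by
  rw [Ideal.span_le]
  rintro _ ⟨j, hj, rfl⟩
  exact yv_mem_span Rs Hs w xv yv hv hv' hj

end Val

/-! ### the `b`-variables -/

variable {Rs Hs w}

/-- the variables `(v, 0)`, `v ∈ Sb`. -/
def bSet (Sb : Finset ι) (hSb : ∀ v ∈ Sb, v ∈ Rs ∧ v ∉ Hs ∧ 0 < w v) : Finset (SgV Rs Hs w) :=
  Sb.attach.image fun v => ix v.1 (hSb v.1 v.2).1 (hSb v.1 v.2).2.1 0 (hSb v.1 v.2).2.2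

variable (Sb : Finset ι) (hSb : ∀ v ∈ Sb, v ∈ Rs ∧ v ∉ Hs ∧ 0 < w v)

theorem bSet_inj : Function.Injective fun v : ↥Sb =>
    (ix v.1 (hSb v.1 v.2).1 (hSb v.1 v.2).2.1 0 (hSb v.1 v.2).2.2 : SgV Rs Hs w) := by
  intro v v' h
  exact Subtype.ext (ix_eq_iff.1 h).1

theorem card_bSet : (bSet Sb hSb).card = Sb.card := by
  rw [bSet, Finset.card_image_of_injective _ (bSet_inj Sb hSb), Finset.card_attach]

theorem ix_mem_bSet_iff {v : ι} {hv : v ∈ Rs} {hv' : v ∉ Hs} {j : ℕ} {hj : j < w v} :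
    (ix v hv hv' j hj : SgV Rs Hs w) ∈ bSet Sb hSb ↔ v ∈ Sb ∧ j = 0 := by
  rw [bSet, Finset.mem_image]
  constructor
  · rintro ⟨v', -, h⟩
    obtain ⟨h1, h2⟩ := ix_eq_iff.1 h
    exact ⟨h1 ▸ v'.2, h2.symm⟩
  · rintro ⟨h1, h2⟩
    exact ⟨⟨v, h1⟩, Finset.mem_attach _ _, ix_eq_iff.2 ⟨rfl, h2.symm⟩⟩

theorem prod_bSet {T : Type*} [CommMonoid T] (f : SgV Rs Hs w → T) (g : ι → T)
    (hfg : ∀ v hv hv' hj, f (ix v hv hv' 0 hj) = g v) :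
    ∏ s ∈ bSet Sb hSb, f s = ∏ v ∈ Sb, g v := by
  rw [bSet, Finset.prod_image fun x _ y _ h => bSet_inj Sb hSb h, ← Finset.prod_attach Sb g]
  exact Finset.prod_congr rfl fun v _ => hfg _ _ _ _

/-- the standard auxiliary point at the variable `(v, j)`. -/
theorem ptOf_ix (p : ℕ) {v : ι} {hv : v ∈ Rs} {hv' : v ∉ Hs} {j : ℕ} {hj : j < w v} :
    ptOf p (SgV Rs Hs w) (bSet Sb hSb) (ix v hv hv' j hj) = if v ∈ Sb ∧ j = 0 then (p : ℤ) else 0 := by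
  by_cases h : v ∈ Sb ∧ j = 0
  · rw [if_pos h, ptOf_mem p _ ((ix_mem_bSet_iff Sb hSb).2 h)]
  · rw [if_neg h, ptOf_not_mem p _ fun h' => h ((ix_mem_bSet_iff Sb hSb).1 h')]

theorem ptOf_ix_of_not_mem (p : ℕ) {v : ι} {hv : v ∈ Rs} {hv' : v ∉ Hs} {j : ℕ} {hj : j < w v}
    (h : v ∉ Sb) : ptOf p (SgV Rs Hs w) (bSet Sb hSb) (ix v hv hv' j hj) = 0 := by
  rw [ptOf_ix, if_neg fun h' => h h'.1]

/-! ### the polynomials -/

section Poly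

variable {R : Type*} [CommRing R] (xv : ι → Fin 6 → R) (yv : ι → ℕ → R)

theorem aeval_valOf_polyB :
    aeval (valOf Rs Hs w xv yv) (polyB ↥Hs (SgV Rs Hs w) (bSet Sb hSb)) =
      (∏ v ∈ Hs, xv v 0) * ∏ v ∈ Sb, yv v 0 := by
  rw [aeval_polyB]
  congr 1
  · exact Finset.prod_coe_sort Hs fun v => xv v 0
  · exact prod_bSet Sb hSb _ _ fun v hv hv' hj => rfl

theorem aeval_valOf_polyC (q : ι) (hq : q ∈ Rs) (hq' : q ∉ Hs) (h3 : 2 < w q) (d : ℤ) :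
    aeval (valOf Rs Hs w xv yv) (polyC ↥Hs (SgV Rs Hs w) (ix q hq hq' 0 (by omega))
      (ix q hq hq' 1 (by omega)) (ix q hq hq' 2 h3) d) =
      yv q 1 * (yv q 1 - (d : R)) - yv q 0 * yv q 2 := by
  rw [aeval_polyC]
  rfl

/-- **`hxc`** for the new hard prime `q ∉ Sb`. -/
theorem hxc_vars (p : ℕ) (q : ι) (hq : q ∈ Rs) (hq' : q ∉ Hs) (h3 : 2 < w q) (hqS : q ∉ Sb) (d : ℤ) :
    aeval (auxVal p ↥Hs (SgV Rs Hs w) (ptOf p (SgV Rs Hs w) (bSet Sb hSb)))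
      (polyC ↥Hs (SgV Rs Hs w) (ix q hq hq' 0 (by omega)) (ix q hq hq' 1 (by omega))
        (ix q hq hq' 2 h3) d) = 0 :=
  aeval_aux_polyC p _ _ _ _ _ _ d (ptOf_ix_of_not_mem Sb hSb p hqS)
    (Or.inl (ptOf_ix_of_not_mem Sb hSb p hqS))

/-- **`hxβ`** : `f₁ = #Hs + #Sb + f₂`. -/
theorem hxβ_vars {p : ℕ} (hp : p.Prime) (N₂ : MvPolynomial (PV ↥Hs (SgV Rs Hs w)) ℤ) {f₂ : ℕ}
    (h : ¬ (p : ℤ) ^ (f₂ + 1) ∣
      aeval (auxVal p ↥Hs (SgV Rs Hs w) (ptOf p (SgV Rs Hs w) (bSet Sb hSb))) N₂) :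
    ¬ (p : ℤ) ^ (Hs.card + Sb.card + f₂ + 1) ∣
      aeval (auxVal p ↥Hs (SgV Rs Hs w) (ptOf p (SgV Rs Hs w) (bSet Sb hSb)))
        (N₂ * polyB ↥Hs (SgV Rs Hs w) (bSet Sb hSb)) := by
  have := not_dvd_mul_polyB p ↥Hs (SgV Rs Hs w) hp (ptOf p (SgV Rs Hs w) (bSet Sb hSb))
    (bSet Sb hSb) (fun s hs => ptOf_mem p _ hs) N₂ h
  rwa [Fintype.card_coe, card_bSet] at this

/-- **`hβ`** : `β' = n₂ * ∏_{Hs} x0 * ∏_{Sb} b`. -/
theorem hβ_vars (J : Ideal R) (N₂ : MvPolynomial (PV ↥Hs (SgV Rs Hs w)) ℤ) (n₂ : R)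
    (h : n₂ - aeval (valOf Rs Hs w xv yv) N₂ ∈ J) :
    n₂ * ((∏ v ∈ Hs, xv v 0) * ∏ v ∈ Sb, yv v 0) -
      aeval (valOf Rs Hs w xv yv) (N₂ * polyB ↥Hs (SgV Rs Hs w) (bSet Sb hSb)) ∈ J := by
  rw [map_mul, aeval_valOf_polyB, ← sub_mul]
  exact J.mul_mem_right _ h

end Poly

end Vars

end Fermat.Agent.ML.Hard
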