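/-
ML / HARD / PolVal : polynomial form of the multipliers.

* `aeval_sub_mem`, `smul_eq_of_pol` : `u j ≡ c j` modulo `I` (resp. on `x`) ⟹ `aeval u P ≡ aeval c P`   (so `Pkg2.val` follows from `Pkg2.pol`).
* `ptV p dz` : the auxiliary point `(v, j) ↦ p * dz v j` on `SgV Rs Hs w`;  `dvd_ptV`, `ptV_ix`.
* `ixF v hv hv' hk : Fin k → PV ↥Hs (SgV Rs Hs w)` (`k ≤ w v`) : the first `k` variables of the prime `v`;
  `aeval_valOf_rename`, `aeval_aux_rename` : a polynomial in the variables of ONE prime, inside the big polynomial ring.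
* `hxc_ptV`, `hxβ_ptV` : `hxc`, `hxβ` of `raise_step_gen_F` for the point `ptV p dz`.
-/
import Fermat.Agent.ML.Hard.Vars

set_option autoImplicit false
set_option linter.unusedSectionVars false

open MvPolynomial

namespace Fermat.Agent.ML.Hard

section Pol

variable {R : Type*} [CommRing R] {κ : Type*}

/-- `u j ≡ c j` modulo `I` ⟹ `aeval u P ≡ aeval c P` modulo `I`. -/
theorem aeval_sub_mem (I : Ideal R) (u : κ → R) (c : κ → ℤ) (h : ∀ j, u j - (c j : R) ∈ I)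
    (P : MvPolynomial κ ℤ) : aeval u P - ((aeval c P : ℤ) : R) ∈ I := by
  induction P using MvPolynomial.induction_on with
  | C n => simp
  | add P Q hP hQ =>
    have e : aeval u (P + Q) - ((aeval c (P + Q) : ℤ) : R) =
        (aeval u P - ((aeval c P : ℤ) : R)) + (aeval u Q - ((aeval c Q : ℤ) : R)) := by
      rw [map_add, map_add]; push_cast; ring
    rw [e]
    exact I.add_mem hP hQ
  | mul_X P j hP =>
    have e : aeval u (P * X j) - ((aeval c (P * X j) : ℤ) : R) =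
        (aeval u P - ((aeval c P : ℤ) : R)) * u j + ((aeval c P : ℤ) : R) * (u j - (c j : R)) := by
      rw [map_mul, map_mul, aeval_X, aeval_X]; push_cast; ring
    rw [e]
    exact I.add_mem (I.mul_mem_right _ hP) (I.mul_mem_left _ (h j))

/-- `(u j - c j) x = 0` ⟹ `aeval u P • x = aeval c P • x`. -/
theorem smul_eq_of_pol {V : Type*} [AddCommGroup V] [Module R V] (u : κ → R) (c : κ → ℤ)
    (P : MvPolynomial κ ℤ) (x : V) (h : ∀ j, (u j - (c j : R)) • x = 0) :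
    aeval u P • x = (aeval c P : ℤ) • x := by
  have h1 := aeval_sub_mem (Submodule.span R {x}).annihilator u c (fun j => by
    rw [Submodule.mem_annihilator_span_singleton]; exact h j) P
  rw [Submodule.mem_annihilator_span_singleton, sub_smul, sub_eq_zero] at h1
  rw [h1, Int.cast_smul_eq_zsmul]

/-- the implication form of a multiplier from its polynomial form : `β ≡ aeval u P` on `x`, `(u j - p δ j) x = 0`, `δ j = dz j`. -/
theorem val_of_pol {V : Type*} [AddCommGroup V] [Module R V] (p : ℕ) (u dl : κ → R) (dz : κ → ℤ)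
    (hdl : ∀ j, dl j = ((dz j : ℤ) : R)) (P : MvPolynomial κ ℤ) (β : R) (x : V)
    (hβ : (β - aeval u P) • x = 0) (h : ∀ j, (u j - (p : R) * dl j) • x = 0) :
    β • x = (aeval (fun j => (p : ℤ) * dz j) P : ℤ) • x := by
  rw [← smul_eq_of_pol u (fun j => (p : ℤ) * dz j) P x (fun j => by
    have := h j
    rw [hdl j] at this
    push_cast
    exact this)]
  exact sub_eq_zero.1 (by rw [← sub_smul]; exact hβ)

end Pol

section Vars

variable {ι : Type} [DecidableEq ι] {Rs Hs : Finset ι} {w : ι → ℕ}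

/-- the auxiliary point `(v, j) ↦ p * dz v j`. -/
def ptV (p : ℕ) (dz : ι → ℕ → ℤ) : SgV Rs Hs w → ℤ := fun s => (p : ℤ) * dz s.1 s.2

theorem dvd_ptV (p : ℕ) (dz : ι → ℕ → ℤ) (s : SgV Rs Hs w) : (p : ℤ) ∣ ptV p dz s :=
  Dvd.intro _ rfl

@[simp] theorem ptV_ix (p : ℕ) (dz : ι → ℕ → ℤ) (v : ι) (hv : v ∈ Rs) (hv' : v ∉ Hs) (j : ℕ)
    (hj : j < w v) : ptV p dz (ix v hv hv' j hj : SgV Rs Hs w) = (p : ℤ) * dz v j := rfl

/-- the first `k` variables of the prime `v`. -/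
def ixF (v : ι) (hv : v ∈ Rs) (hv' : v ∉ Hs) {k : ℕ} (hk : k ≤ w v) :
    Fin k → PV ↥Hs (SgV Rs Hs w) :=
  fun j => Sum.inr (ix v hv hv' j (lt_of_lt_of_le j.2 hk))

theorem aeval_valOf_rename {R : Type*} [CommRing R] (xv : ι → Fin 6 → R) (yv : ι → ℕ → R)
    (v : ι) (hv : v ∈ Rs) (hv' : v ∉ Hs) {k : ℕ} (hk : k ≤ w v) (P : MvPolynomial (Fin k) ℤ) :
    aeval (valOf Rs Hs w xv yv) (rename (ixF v hv hv' hk) P) =
      aeval (fun j : Fin k => yv v j) P := by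
  rw [aeval_rename]
  rfl

theorem aeval_aux_rename (p : ℕ) (dz : ι → ℕ → ℤ)
    (v : ι) (hv : v ∈ Rs) (hv' : v ∉ Hs) {k : ℕ} (hk : k ≤ w v) (P : MvPolynomial (Fin k) ℤ) :
    aeval (auxVal p ↥Hs (SgV Rs Hs w) (ptV p dz)) (rename (ixF v hv hv' hk) P) =
      aeval (fun j : Fin k => (p : ℤ) * dz v j) P := by
  rw [aeval_rename]
  rfl

/-- **`hxc`** for the new hard prime `q`, `dz q 0 = dz q 1 = 0`. -/
theorem hxc_ptV (p : ℕ) (dz : ι → ℕ → ℤ) (q : ι) (hq : q ∈ Rs) (hq' : q ∉ Hs) (h3 : 2 < w q)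
    (h0 : dz q 0 = 0) (h1 : dz q 1 = 0) (d : ℤ) :
    aeval (auxVal p ↥Hs (SgV Rs Hs w) (ptV p dz))
      (polyC ↥Hs (SgV Rs Hs w) (ix q hq hq' 0 (by omega)) (ix q hq hq' 1 (by omega))
        (ix q hq hq' 2 h3) d) = 0 :=
  aeval_aux_polyC p _ _ _ _ _ _ d (by rw [ptV_ix, h1, mul_zero]) (Or.inl (by rw [ptV_ix, h0, mul_zero]))

/-- **`hxc`** if `c` is one of the variables (`Pc := X (v, j)`), `dz v j = 0`. -/
theorem hxc_X_ptV (p : ℕ) (dz : ι → ℕ → ℤ) (v : ι) (hv : v ∈ Rs) (hv' : v ∉ Hs) (j : ℕ)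
    (hj : j < w v) (h0 : dz v j = 0) :
    aeval (auxVal p ↥Hs (SgV Rs Hs w) (ptV p dz))
      (X (Sum.inr (ix v hv hv' j hj)) : MvPolynomial (PV ↥Hs (SgV Rs Hs w)) ℤ) = 0 := by
  rw [aeval_aux_X_inr, ptV_ix, h0, mul_zero]

/-- **`hxβ`** : `f₁ = #Hs + #Sb + f₂`, for the point `ptV p dz`, `dz v 0 = 1` on `Sb`. -/
theorem hxβ_ptV {p : ℕ} (hp : p.Prime) (dz : ι → ℕ → ℤ) (Sb : Finset ι)
    (hSb : ∀ v ∈ Sb, v ∈ Rs ∧ v ∉ Hs ∧ 0 < w v) (hdz : ∀ v ∈ Sb, dz v 0 = 1)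
    (N₂ : MvPolynomial (PV ↥Hs (SgV Rs Hs w)) ℤ) {f₂ : ℕ}
    (h : ¬ (p : ℤ) ^ (f₂ + 1) ∣ aeval (auxVal p ↥Hs (SgV Rs Hs w) (ptV p dz)) N₂) :
    ¬ (p : ℤ) ^ (Hs.card + Sb.card + f₂ + 1) ∣
      aeval (auxVal p ↥Hs (SgV Rs Hs w) (ptV p dz))
        (N₂ * polyB ↥Hs (SgV Rs Hs w) (bSet Sb hSb)) := by
  have := not_dvd_mul_polyB p ↥Hs (SgV Rs Hs w) hp (ptV p dz) (bSet Sb hSb) (fun s hs => by
    obtain ⟨v, hv, hv', j, hj, rfl⟩ := exists_ix s
    obtain ⟨h1, rfl⟩ := (ix_mem_bSet_iff Sb hSb).1 hs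
    rw [ptV_ix, hdz v h1, mul_one]) N₂ h
  rwa [Fintype.card_coe, card_bSet] at this

end Vars

end Fermat.Agent.ML.Hard
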