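import Fermat.Agent.ML.Hard.LocK
import Fermat.Agent.ML.Raise.RelLast

/-!
# ML / Hard / LocOut : (RS-out) at a hard prime `q ‖ N = M q`, in the frame `Lift.TopCtx`, vocabulary of `ML/Main/Cell.lean`

`HardAt C H q ε` : the standing hypotheses (`M` rigid, `q ≠ p`, `rbar` unramified at `q`, `rbar(Frob_q) = ε`, `q ≡ 1` mod `p`).

* `isUnit_c'`, `st_rel` : `c'` is a unit; `(ρφ - εq)(ρτ - 1) = 0`, `(ρτ - 1)(ρφ - ε) = 0`, `(ρφ - εq)(ρφ - ε) = c ρφ` in `M₂(R)`.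
* `locSt_of_c` : `LocSt q ε S` for every set `S` of points of `X` killed by all the `c(φ)`.
* `locUnip_top` : `LocUnip q X`.
* `c_mul_locVar_all` : `c(φ) x_i(τ₀) = 0` for ALL places and ALL Frobenius elements;  `locSt_smul_hard` : `LocSt q ε (β X)`, `x_i(τ₀) ∣ β`.
* `c_smul_of_relLast`, `locSt_new_hard` : the prime raised now : `LocSt q ε` on the points satisfying [REL-LAST].
-/

set_option autoImplicit false
set_option linter.unusedSectionVars false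

noncomputable section

namespace Fermat.Agent.ML.Hard

open Matrix ModularCurve Fermat.Agent.RIB Fermat.Agent.ML Fermat.Agent.S56 ExtCitation
  Fermat.Agent.ML.ESide Fermat.Agent.ML.Lift Fermat.Agent.GAL Fermat.Agent.GAL.PC
  Fermat.Agent.RIB.Rho
open scoped Pointwise

local notation "Qbar" => AlgebraicClosure ℚ
local notation "GQ" => (AlgebraicClosure ℚ ≃ₐ[ℚ] AlgebraicClosure ℚ)
local notation "M₂" => Matrix (Fin 2) (Fin 2)

variable {W : WeierstrassCurve ℤ} {p : ℕ} [Fact p.Prime]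
  {b : Module.Basis (Fin 2) (ZMod p) (TorsW W p)} {K : ℕ}
  {B : Module.Basis (Fin 2) (ZMod (p ^ (K + 1))) (TorsW W (p ^ (K + 1)))} {N : ℕ} [NeZero N]
  {X : AddSubgroup (JZero N)} {R : Type} [CommRing R] [Algebra (ZMod (p ^ (K + 1))) R]
  [Module R ↥X] {πE : R →ₐ[ZMod (p ^ (K + 1))] ZMod (p ^ (K + 1))} {ρ : GQ →* M₂ R}
  {Φ : M₂ R →ₐ[R] Module.End R ↥X}

/-- the standing hypotheses at a hard prime `q ‖ N`. -/
structure HardAt (b : Module.Basis (Fin 2) (ZMod p) (TorsW W p)) (N q : ℕ) (ε : ℤ) : Prop where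
  hq : q.Prime
  hqp : q ≠ p
  lev : ∃ M : ℕ, N = M * q ∧ ¬ q ∣ M ∧ (4 ∣ M ∨ 9 ∣ M)
  sgn : ε * ε = 1
  ur : ∀ A : ValuationSubring Qbar, A.LiesOverPrime q → ∀ σ ∈ A.inertiaSubgroupIn ℚ, rbarB b σ = 1
  sc : ∀ A : ValuationSubring Qbar, A.LiesOverPrime q → ∀ φ : GQ, A.IsFrobeniusAt φ q →
    rbarB b φ = ((ε : ℤ) : ZMod p) • (1 : M₂ (ZMod p))
  one : (q : ZMod p) = 1

/-- `HardAt` from the static context. -/
theorem hardAt_of {T : Finset ℕ} {L₀ : ℕ} [NeZero L₀] {eps : ℕ → ℤ} {eP : GQ → ℤ}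
    (Xc : LCtx W p T b L₀ eps eP) {q : ℕ} (hq : q ∈ Pfin W (rbarB b) L₀) (hqp : q ≠ p)
    (hs : FrobScalar (rbarB b) q) {N M : ℕ} (hN : N = M * q) (hqM : ¬ q ∣ M)
    (h49 : 4 ∣ M ∨ 9 ∣ M) : HardAt b N q (eps q) where
  hq := Xc.prime_of_mem_Pfin hq
  hqp := hqp
  lev := ⟨M, hN, hqM, h49⟩
  sgn := by
    rcases (Xc.sgn q (Xc.prime_of_mem_Pfin hq) hqp (Xc.dvd_of_mem_Pfin hq)).1 with h | h <;>
      rw [h] <;> norm_num
  ur := fun A hA σ hσ => by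
    by_contra hne
    exact Xc.not_ram_of_mem_Pfin hq hqp ⟨A, hA, σ, hσ, hne⟩
  sc := (hard_facts Xc (Xc.prime_of_mem_Pfin hq) hqp (Xc.dvd_of_mem_Pfin hq) hs).1
  one := by
    obtain ⟨D, hD⟩ := (hard_facts Xc (Xc.prime_of_mem_Pfin hq) hqp (Xc.dvd_of_mem_Pfin hq) hs).2
    have h1 : (((q : ℤ) - 1 : ℤ) : ZMod p) = 0 := by
      rw [hD]; push_cast; simp
    push_cast at h1
    exact sub_eq_zero.1 h1

variable (C : TopCtx W p b K B N X) (H : Rho.IsRhoK N (p ^ (K + 1)) X (rEB B) πE ρ Φ)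
  {q : ℕ} {ε : ℤ} (D : HardAt b N q ε)

include C H D

theorem isUnit_q : IsUnit (q : R) := by
  refine TopCtx.isUnit_of_pi0 H ?_
  rw [map_natCast, D.one]
  exact one_ne_zero

theorem isUnit_c' {A : ValuationSubring Qbar} (hA : A.LiesOverPrime q) {φ : GQ}
    (hφ : A.IsFrobeniusAt φ q) : IsUnit ((ρ φ).trace + (ε : R) * ((q : R) + 1)) := by
  refine TopCtx.isUnit_of_pi0 H ?_
  have e : pi0 πE (ρ φ).trace = (rbarB b φ).trace := by
    rw [← C.lift H φ, Matrix.trace_fin_two, Matrix.trace_fin_two, map_add]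
    rfl
  rw [map_add, e, D.sc A hA φ hφ, map_mul, map_add, map_intCast, map_natCast, map_one, D.one,
    Matrix.trace_fin_two]
  simp only [Matrix.smul_apply, Matrix.one_apply_eq, smul_eq_mul, mul_one]
  have hε : ((ε : ℤ) : ZMod p) * ((ε : ℤ) : ZMod p) = 1 := by
    exact_mod_cast congrArg (Int.cast : ℤ → ZMod p) D.sgn
  have h2 : (2 : ZMod p) ≠ 0 := two_ne_zero_zmod C.hp2
  intro h
  have h4 : (2 : ZMod p) * 2 = 0 := by
    linear_combination ((ε : ℤ) : ZMod p) * h - 4 * hε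
  rcases mul_eq_zero.1 h4 with h | h <;> exact h2 h

/-- the relations in `M₂(R)`. -/
theorem st_rel [Finite R] {A : ValuationSubring Qbar} (hA : A.LiesOverPrime q) {φ : GQ}
    (hφ : A.IsFrobeniusAt φ q) {τ : GQ} (hτ : τ ∈ A.inertiaSubgroupIn ℚ) :
    (ρ φ * ρ φ - ((q : R) * q) • (1 : M₂ R)) * (ρ τ - 1) = 0 ∧
    (ρ τ - 1) * (ρ τ - 1) = 0 ∧
    (ρ φ - ((ε : R) * q) • (1 : M₂ R)) * (ρ τ - 1) = 0 ∧
    (ρ τ - 1) * (ρ φ - (ε : R) • (1 : M₂ R)) = 0 := by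
  obtain ⟨M, hN, hqM, h49⟩ := D.lev
  have hM0 : NeZero M := ⟨fun h => NeZero.ne N (by rw [hN, h, zero_mul])⟩
  have : Fact q.Prime := ⟨D.hq⟩
  have hε' : (ε : R) * (ε : R) = 1 := by exact_mod_cast congrArg (Int.cast : ℤ → R) D.sgn
  have hst : (ρ φ * ρ φ - ((q : R) * q) • (1 : M₂ R)) * (ρ τ - 1) = 0 := by
    have := C.st2 H hN hqM h49 D.hqp hA hφ hτ
    rwa [pow_two, Nat.cast_mul] at this
  have hsq : (ρ τ - 1) * (ρ τ - 1) = 0 :=
    C.sq_zero H D.hq D.hqp (hN ▸ Dvd.intro_left M rfl) (fun hd => hqM (by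
      rw [hN, pow_two] at hd
      exact Nat.dvd_of_mul_dvd_mul_right D.hq.pos hd)) hA hτ
  obtain ⟨-, -, htc⟩ := exists_tame_data C H D.hq D.hqp hA (D.ur A hA)
  have htame := Raise.comm_of_tame (ρ φ) (ρ τ) q hsq (htc φ hφ τ hτ)
  have hdet := C.det_frob H D.hq D.hqp hA hφ
  exact ⟨hst, hsq,
    Raise.sub_mul_eq_zero (ρ φ) (ρ τ - 1) (q : R) (ε : R) hε' hdet (isUnit_q C H D)
      (isUnit_c' C H D hA hφ) hst,
    Raise.mul_sub_eq_zero (ρ φ) (ρ τ - 1) (q : R) (ε : R) hε' hdet (isUnit_q C H D)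
      (isUnit_c' C H D hA hφ) hst htame⟩

/-- **(RS-out-H)** `LocSt q ε` on every set of points of `X` killed by the `c(φ)`. -/
theorem locSt_of_c [Finite R] (S : Set (JZero N))
    (hS : ∀ x ∈ S, ∃ x₁ : ↥X, (x₁ : JZero N) = x ∧ ∀ A : ValuationSubring Qbar, A.LiesOverPrime q →
      ∀ φ : GQ, A.IsFrobeniusAt φ q → ((ρ φ).trace - (ε : R) * ((q : R) + 1)) • x₁ = 0) :
    LocSt q ε S := by
  intro A hA φ hφ τ hτ x hx
  obtain ⟨x₁, rfl, hc⟩ := hS x hx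
  obtain ⟨-, -, h1, h2⟩ := st_rel C H D hA hφ hτ
  have hε' : (ε : R) * (ε : R) = 1 := by exact_mod_cast congrArg (Int.cast : ℤ → R) D.sgn
  have e : (ε : R) * (q : R) = ((ε * (q : ℤ) : ℤ) : R) := by push_cast; ring
  refine ⟨?_, ?_, ?_⟩
  · have := coe_phi_sub_mul_sub H φ τ (ε * (q : ℤ)) 1 x₁
    rw [← e, ← sub_one_eq, h1, map_zero, LinearMap.zero_apply, one_smul] at this
    exact (sub_eq_zero.1 this.symm)
  · have := coe_phi_sub_mul_sub H τ φ 1 ε x₁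
    rw [← sub_one_eq, h2, map_zero, LinearMap.zero_apply, one_smul] at this
    exact (sub_eq_zero.1 this.symm)
  · have hcomm : (ρ φ - ((ε : R) * (q : R)) • (1 : M₂ R)) * (ρ φ - (ε : R) • (1 : M₂ R)) =
        (ρ φ - (ε : R) • (1 : M₂ R)) * (ρ φ - ((ε : R) * (q : R)) • (1 : M₂ R)) := by
      simp only [sub_mul, mul_sub, Matrix.mul_smul, Matrix.smul_mul, mul_one, one_mul, smul_smul]
      rw [mul_comm (ε : R) ((ε : R) * (q : R))]
      abel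
    have := coe_phi_sub_mul_sub H φ φ (ε * (q : ℤ)) ε x₁
    rw [← e, hcomm, Raise.sub_mul_sub (ρ φ) (q : R) (ε : R) hε' (C.det_frob H D.hq D.hqp hA hφ),
      map_smul, LinearMap.smul_apply, ← map_smul, hc A hA φ hφ, map_zero] at this
    exact (sub_eq_zero.1 this.symm)

/-- `LocUnip q` on all of `X`. -/
theorem locUnip_top [Finite R] : LocUnip q (X : Set (JZero N)) := by
  intro A hA τ hτ τ' hτ' x hx
  obtain ⟨⟨τ₀, hτ₀, hgen⟩, -, -⟩ := exists_tame_data C H D.hq D.hqp hA (D.ur A hA)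
  obtain ⟨φ, hφ⟩ := S56.exists_isFrobeniusAt D.hq hA
  obtain ⟨-, hsq, -, -⟩ := st_rel C H D hA hφ hτ₀
  have key : ∀ σ ∈ A.inertiaSubgroupIn ℚ, ∃ n : ℕ, ρ σ - 1 = (n : R) • (ρ τ₀ - 1) := by
    intro σ hσ
    obtain ⟨n, hn⟩ := hgen σ hσ
    refine ⟨n, ?_⟩
    have e1 : ρ τ₀ = 1 + (ρ τ₀ - 1) := by abel
    rw [hn]
    conv_lhs => rw [e1]
    rw [Raise.one_add_pow_of_sq_zero _ hsq n]
    abel
  obtain ⟨n, hn⟩ := key τ hτ
  obtain ⟨n', hn'⟩ := key τ' hτ'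
  have h0 : (ρ τ' - 1) * (ρ τ - 1) = 0 := by
    rw [hn, hn', Matrix.smul_mul, Matrix.mul_smul, hsq, smul_zero, smul_zero]
  have := coe_phi_sub_mul_sub H τ' τ 1 1 ⟨x, hx⟩
  rw [← sub_one_eq, ← sub_one_eq, h0, map_zero, LinearMap.zero_apply, one_smul, one_smul] at this
  exact (sub_eq_zero.1 this.symm)

/-- `c(φ) x_i(τ₀) = 0` for all the places above `q` and all the Frobenius elements. -/
theorem c_mul_locVar_all [Finite R] {A₀ : ValuationSubring Qbar} (hA₀ : A₀.LiesOverPrime q)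
    {τ₀ : GQ} (hτ₀ : τ₀ ∈ A₀.inertiaSubgroupIn ℚ) (σ₀ : GQ) (i : Fin 6) (hi : (i : ℕ) < 3)
    {A : ValuationSubring Qbar} (hA : A.LiesOverPrime q) {φ : GQ} (hφ : A.IsFrobeniusAt φ q) :
    ((ρ φ).trace - (ε : R) * ((q : R) + 1)) * locVar (ρ σ₀) (ρ τ₀ - 1) (ε : R) i = 0 := by
  obtain ⟨g, rfl⟩ := Bridge.exists_smul_eq D.hq hA₀ hA
  rw [Bridge.isFrobeniusAt_smul_iff D.hq hA₀] at hφ
  have htr : (ρ (g⁻¹ * φ * g)).trace = (ρ φ).trace := by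
    rw [map_mul, map_mul, Matrix.trace_mul_comm, ← mul_assoc, ← map_mul, mul_inv_cancel, map_one,
      one_mul]
  have hε' : (ε : R) * (ε : R) = 1 := by exact_mod_cast congrArg (Int.cast : ℤ → R) D.sgn
  rw [← htr]
  exact c_mul_locVar' q (ε : R) hε' (C.det_frob H D.hq D.hqp hA₀ hφ) (isUnit_q C H D)
    (isUnit_c' C H D hA₀ hφ) (st_rel C H D hA₀ hφ hτ₀).1 i hi

/-- **(RS-out-H)** a prime raised before : `LocSt q ε (β X)` as soon as one of `x0, x1, x2` divides `β`. -/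
theorem locSt_smul_hard [Finite R] {A₀ : ValuationSubring Qbar} (hA₀ : A₀.LiesOverPrime q)
    {τ₀ : GQ} (hτ₀ : τ₀ ∈ A₀.inertiaSubgroupIn ℚ) (σ₀ : GQ) (i : Fin 6) (hi : (i : ℕ) < 3)
    (β : R) (hβ : locVar (ρ σ₀) (ρ τ₀ - 1) (ε : R) i ∣ β) :
    LocSt q ε {x : JZero N | ∃ x₁ : ↥X, ((β • x₁ : ↥X) : JZero N) = x} := by
  refine locSt_of_c C H D _ ?_
  rintro x ⟨x₁, rfl⟩
  refine ⟨β • x₁, rfl, fun A hA φ hφ => ?_⟩
  obtain ⟨β₀, rfl⟩ := hβ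
  rw [smul_smul, ← mul_assoc, c_mul_locVar_all C H D hA₀ hτ₀ σ₀ i hi hA hφ, zero_mul]
  exact zero_smul R x₁

/-- `tr ρ(φ)` acts as `trOp q φ`. -/
theorem coe_trace_smul {A : ValuationSubring Qbar} (hA : A.LiesOverPrime q) {φ : GQ}
    (hφ : A.IsFrobeniusAt φ q) (x : ↥X) :
    (((ρ φ).trace • x : ↥X) : JZero N) = trOp q φ (x : JZero N) := by
  rw [C.trace_smul_coe H, trOp]
  have hχ : (chiM (p ^ (K + 1)) φ) = ((q : ℕ) : ZMod (p ^ (K + 1))) := by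
    rw [chiM_apply]
    exact cycloChar_of_isFrobeniusAt' _ D.hq (C.coprime H D.hq D.hqp).symm hA hφ
  have hy : p ^ (K + 1) • (φ⁻¹ • (x : JZero N)) = 0 := by
    have e : p ^ (K + 1) • φ⁻¹ • (x : JZero N) = φ⁻¹ • (p ^ (K + 1) • (x : JZero N)) :=
      (map_nsmul (DistribSMul.toAddMonoidHom (JZero N) φ⁻¹) _ _).symm
    rw [e, C.hXm _ x.2]
    exact map_zero (DistribSMul.toAddMonoidHom (JZero N) φ⁻¹)
  rw [val_nsmul_eq hχ hy]

/-- [REL-LAST] + `c'` a unit ⟹ `c = 0`. -/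
theorem c_smul_of_relLast {A : ValuationSubring Qbar} (hA : A.LiesOverPrime q) {φ : GQ}
    (hφ : A.IsFrobeniusAt φ q) (x : ↥X)
    (hrel : trOp q φ (trOp q φ (x : JZero N)) = (q + 1) ^ 2 • (x : JZero N)) :
    ((ρ φ).trace - (ε : R) * ((q : R) + 1)) • x = 0 := by
  have hε' : (ε : R) * (ε : R) = 1 := by exact_mod_cast congrArg (Int.cast : ℤ → R) D.sgn
  have h1 : ((ρ φ).trace * (ρ φ).trace) • x = (((q + 1) ^ 2 : ℕ) : R) • x := by
    apply Subtype.ext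
    rw [mul_smul, coe_trace_smul C H D hA hφ, coe_trace_smul C H D hA hφ, hrel,
      Nat.cast_smul_eq_nsmul, AddSubgroup.coe_nsmul]
  obtain ⟨u, hu⟩ := isUnit_c' C H D hA hφ
  have h2 : ((ρ φ).trace + (ε : R) * ((q : R) + 1)) •
      (((ρ φ).trace - (ε : R) * ((q : R) + 1)) • x) = 0 := by
    rw [smul_smul]
    have e : ((ρ φ).trace + (ε : R) * ((q : R) + 1)) * ((ρ φ).trace - (ε : R) * ((q : R) + 1)) =
        (ρ φ).trace * (ρ φ).trace - (((q + 1) ^ 2 : ℕ) : R) := by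
      push_cast
      linear_combination (-(((q : R) + 1) ^ 2)) * hε'
    rw [e, sub_smul, h1, sub_self]
  rw [← hu] at h2
  have := congrArg (fun z => ((u⁻¹ : Rˣ) : R) • z) h2
  simpa [smul_smul] using this

/-- **(RS-out-H)** the prime raised now : `LocSt q ε` on the points of `X` which satisfy [REL-LAST]. -/
theorem locSt_new_hard [Finite R] (S : Set (JZero N)) (hSX : ∀ x ∈ S, x ∈ X)
    (hrel : ∀ x ∈ S, ∀ A : ValuationSubring Qbar, A.LiesOverPrime q → ∀ φ : GQ,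
      A.IsFrobeniusAt φ q → trOp q φ (trOp q φ x) = (q + 1) ^ 2 • x) : LocSt q ε S :=
  locSt_of_c C H D S fun x hx => ⟨⟨x, hSX x hx⟩, rfl, fun A hA φ hφ =>
    c_smul_of_relLast C H D hA hφ ⟨x, hSX x hx⟩ (hrel x hx A hA φ hφ)⟩

end Fermat.Agent.ML.Hard
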