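import Fermat.Agent.ML.Main.StepSplit
import Fermat.Agent.ML.ESide.StMat

/-!
# ML / Hard / Facts : what `FrobScalar` means at a bad prime `q ≠ p` of `W`

* `stShape_of_signE` : the sign `eps q` of `SignE` is the sign of the matrices `rEB B` (any `m = p^k`).
* `hard_facts` : `FrobScalar (rbarB b) q` ⟹ `rbarB b φ = eps q` for every Frobenius `φ` at `q`, and `q ≡ 1` mod `p`.
-/

set_option autoImplicit false
set_option linter.unusedSectionVars false

noncomputable section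

namespace Fermat.Agent.ML.Hard

open Fermat.Agent.ML Fermat.Agent.ML.ESide Fermat.Agent.GAL Fermat.Agent.RIB.Rho

local notation "Qbar" => AlgebraicClosure ℚ
local notation "GQ" => (AlgebraicClosure ℚ ≃ₐ[ℚ] AlgebraicClosure ℚ)
local notation "M₂" => Matrix (Fin 2) (Fin 2)

variable {W : WeierstrassCurve ℤ} {p : ℕ} [Fact p.Prime]

/-- the sign of `SignE` is the sign of the matrices `rEB B`. -/
theorem stShape_of_signE {eps : ℕ → ℤ} (hs : SignE W p eps) {q : ℕ} (hq : q.Prime) (hqp : q ≠ p)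
    (hqΔ : (q : ℤ) ∣ W.Δ) {m : ℕ} (k : ℕ) (hm : m = p ^ k)
    (B : Module.Basis (Fin 2) (ZMod m) (TorsW W m))
    {A : ValuationSubring Qbar} (hA : A.LiesOverPrime q) {φ : GQ} (hφ : A.IsFrobeniusAt φ q) :
    StShape q (eps q) (A.inertiaSubgroupIn ℚ : Set GQ) (rEB B) φ := by
  have h := (hs q hq hqp hqΔ).2 k A hA φ hφ
  have hx : ∀ x : TorsW W m, (x : S58.EQ W) ∈ {x : S58.EQ W | p ^ k • x = 0} := fun x => by
    show p ^ k • (x : S58.EQ W) = 0
    rw [← hm]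
    exact nsmul_coe_torsW W x
  refine ⟨fun τ hτ => ?_, fun τ hτ => ?_, ?_⟩
  · have := rEB_sub_mul_sub_eq_zero_int B φ τ (eps q * q) 1 (fun x => by
      rw [one_smul]
      exact Subtype.ext (h τ hτ (x : S58.EQ W) (hx x)).1)
    simpa using this
  · have := rEB_sub_mul_sub_eq_zero_int B τ φ 1 (eps q) (fun x => by
      rw [one_smul]
      exact Subtype.ext (h τ hτ (x : S58.EQ W) (hx x)).2.1)
    simpa using this
  · exact rEB_sub_mul_sub_eq_zero_int B φ φ (eps q * q) (eps q) (fun x =>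
      Subtype.ext (h 1 (Subgroup.one_mem _) (x : S58.EQ W) (hx x)).2.2)

/-- a scalar Frobenius at a bad prime : the scalar is the sign, and `q ≡ 1` mod `p`. -/
theorem scalar_facts {eps : ℕ → ℤ} (hs : SignE W p eps) {q : ℕ} (hq : q.Prime) (hqp : q ≠ p)
    (hqΔ : (q : ℤ) ∣ W.Δ) (b : Module.Basis (Fin 2) (ZMod p) (TorsW W p))
    {A : ValuationSubring Qbar} (hA : A.LiesOverPrime q) {φ : GQ} (hφ : A.IsFrobeniusAt φ q)
    (hdet : (rbarB b φ).det = (q : ZMod p)) {c : ZMod p} (hc : rbarB b φ = c • (1 : M₂ (ZMod p))) :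
    c = ((eps q : ℤ) : ZMod p) ∧ (q : ZMod p) = 1 := by
  have hS := (stShape_of_signE hs hq hqp hqΔ 1 (pow_one p).symm b hA hφ).frob
  have hb : rEB b φ = c • (1 : M₂ (ZMod p)) := hc
  rw [hb] at hS
  have h00 := congrFun (congrFun hS 0) 0
  simp only [Matrix.mul_apply, Fin.sum_univ_two, Matrix.sub_apply, Matrix.smul_apply,
    Matrix.one_apply_eq, smul_eq_mul, mul_one, ne_eq, zero_ne_one, not_false_eq_true,
    Matrix.one_apply_ne, mul_zero, sub_self, one_ne_zero, add_zero, Matrix.zero_apply] at h00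
  rw [hc, Matrix.det_fin_two] at hdet
  simp only [Matrix.smul_apply, Matrix.one_apply_eq, smul_eq_mul, mul_one, ne_eq, zero_ne_one,
    not_false_eq_true, Matrix.one_apply_ne, mul_zero, one_ne_zero, sub_zero] at hdet
  have hε : ((eps q : ℤ) : ZMod p) * ((eps q : ℤ) : ZMod p) = 1 := by
    rcases (hs q hq hqp hqΔ).1 with h | h <;> rw [h] <;> simp
  have hq0 : (q : ZMod p) ≠ 0 := by
    rw [Ne, ZMod.natCast_eq_zero_iff]
    exact fun hd => hqp ((Nat.prime_dvd_prime_iff_eq Fact.out hq).1 hd).symm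
  push_cast at h00
  rcases mul_eq_zero.1 h00 with h | h
  · -- `c = ε q`
    have hcq : c = ((eps q : ℤ) : ZMod p) * q := sub_eq_zero.1 h
    have h1 : (q : ZMod p) * ((q : ZMod p) - 1) = 0 := by
      rw [hcq] at hdet
      linear_combination hdet - (q : ZMod p) * (q : ZMod p) * hε
    have h2 : (q : ZMod p) = 1 := sub_eq_zero.1 ((mul_eq_zero.1 h1).resolve_left hq0)
    exact ⟨by rw [hcq, h2, mul_one], h2⟩
  · have hcq : c = ((eps q : ℤ) : ZMod p) := sub_eq_zero.1 h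
    exact ⟨hcq, by rw [← hdet, hcq, hε]⟩

/-- **hard primes** : `rbar(Frob_q) = eps q`, `q ≡ 1` mod `p`. -/
theorem hard_facts {T : Finset ℕ} {b : Module.Basis (Fin 2) (ZMod p) (TorsW W p)} {L₀ : ℕ}
    [NeZero L₀] {eps : ℕ → ℤ} {eP : GQ → ℤ} (X : LCtx W p T b L₀ eps eP) {q : ℕ} (hq : q.Prime)
    (hqp : q ≠ p) (hqΔ : (q : ℤ) ∣ W.Δ) (hs : FrobScalar (rbarB b) q) :
    (∀ A : ValuationSubring Qbar, A.LiesOverPrime q → ∀ φ : GQ, A.IsFrobeniusAt φ q →
      rbarB b φ = ((eps q : ℤ) : ZMod p) • (1 : M₂ (ZMod p))) ∧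
    ∃ D : ℤ, (q : ℤ) - 1 = (p : ℤ) * D := by
  have hdet : ∀ A : ValuationSubring Qbar, A.LiesOverPrime q → ∀ φ : GQ, A.IsFrobeniusAt φ q →
      (rbarB b φ).det = (q : ZMod p) := fun A hA φ hφ => by
    rw [X.C.det]
    exact GAL.PC.cycloChar_of_isFrobeniusAt' _ hq
      ((Nat.coprime_primes hq Fact.out).2 hqp) hA hφ
  refine ⟨fun A hA φ hφ => ?_, ?_⟩
  · obtain ⟨c, hc⟩ := hs A hA φ hφ
    rw [hc, (scalar_facts X.sgn hq hqp hqΔ b hA hφ (hdet A hA φ hφ) hc).1]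
  · obtain ⟨A, φ, hA, hφ⟩ := S54.exists_isFrobeniusAt hq
    obtain ⟨c, hc⟩ := hs A hA φ hφ
    have h1 := (scalar_facts X.sgn hq hqp hqΔ b hA hφ (hdet A hA φ hφ) hc).2
    have h2 : (((q : ℤ) - 1 : ℤ) : ZMod p) = 0 := by
      push_cast
      rw [h1, sub_self]
    exact (ZMod.intCast_zmod_eq_zero_iff_dvd _ p).1 h2

end Fermat.Agent.ML.Hard
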