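/-
ML / HARD / NilF : **[NIL]** for an IDEAL (not only for single elements), and small facts on finite local rings for the consumers of `stepF`.

* `nilF` : `X` killed by `p^a, z_i^a`, `#X[p,z] < 2^e`, `mA^E₀ X = 0` (`E₀` arbitrary)  ⟹  `mA^(e ((r+1) a + 1)) X = 0`.
* `exists_pow_eq_bot` : in a finite ring an ideal of nilpotent elements is nilpotent.
* `hres_of_pi0` : `π0 : A →+* ZMod p` ⟹ `∀ s, ∃ c : ℤ, s - c ∈ ker π0`.
* `card_soc_le_of_le` : `#X[mA] ≤ #X[p,z]`.
-/
import Fermat.Agent.ML.Count.Soc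
import Fermat.Agent.ML.Count.Min

set_option autoImplicit false

namespace Fermat.Agent.ML.Hard

open Fermat.Agent.RIB Fermat.Agent.ML Submodule

variable {A : Type*} [CommRing A] {X : Type*} [AddCommGroup X] [Module A X]

/-- **[NIL-F]** -/
theorem nilF [Finite X] {p a r e E₀ : ℕ} (z : Fin r → A) (mA : Ideal A)
    (hpa : ∀ x : X, (p : A) ^ a • x = 0) (hza : ∀ (i : Fin r) (x : X), z i ^ a • x = 0)
    (hcogen : Nat.card ↥(torsionBy A X (p : A) ⊓ ⨅ i, torsionBy A X (z i)) < 2 ^ e)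
    (hE₀ : ∀ s ∈ mA ^ E₀, ∀ x : X, s • x = 0) :
    ∀ s ∈ mA ^ (e * ((r + 1) * a + 1)), ∀ x : X, s • x = 0 := by
  classical
  let g : Option (Fin r) → A := fun o => o.elim (p : A) z
  let y : mA → A := fun s => s.1
  have hy : Ideal.span (Set.range y) = mA := by
    have : Set.range y = (mA : Set A) := Subtype.range_coe
    rw [this, Ideal.span_eq]
  have h1 : (soc g 1 : Submodule A X) ≤ soc y e := by
    refine Count.Soc.le_soc_of_card_lt y _ ⟨E₀, fun x _ => ?_⟩ ?_
    · rw [Count.Soc.mem_soc_iff_ideal, hy]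
      exact fun t ht => hE₀ t ht x
    · refine lt_of_le_of_lt (le_of_eq ?_) hcogen
      congr 2
      ext x
      simp only [mem_soc_one, Submodule.mem_inf, Submodule.mem_iInf, mem_torsionBy_iff]
      constructor
      · exact fun h => ⟨h none, fun i => h (some i)⟩
      · rintro ⟨h0, h1⟩ (_ | i)
        · exact h0
        · exact h1 i
  have h2 := Count.Soc.soc_le_soc_mul (V := X) h1 ((r + 1) * a + 1)
  intro s hs x
  have h3 : x ∈ (soc g ((r + 1) * a + 1) : Submodule A X) := by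
    rw [Count.Soc.mem_soc_iff_ideal]
    intro t ht
    have h4 := span_pow_card_mul_le g a (Finset.univ : Finset (Option (Fin r)))
    rw [Finset.card_univ, Fintype.card_option, Fintype.card_fin, Finset.coe_univ, Set.image_univ,
      Set.image_univ] at h4
    refine smul_eq_zero_of_mem_span ?_ t (h4 ht)
    rintro _ ⟨o, rfl⟩
    cases o with
    | none => exact hpa x
    | some i => exact hza i x
  have h5 := (Count.Soc.mem_soc_iff_ideal y _ x).1 (h2 h3)
  rw [hy] at h5
  exact h5 s hs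

/-- in a finite ring an ideal of nilpotent elements is nilpotent. -/
theorem exists_pow_eq_bot [Finite A] (m : Ideal A) (h : ∀ x ∈ m, IsNilpotent x) :
    ∃ n : ℕ, m ^ n = ⊥ := by
  have hfg : m.FG := IsNoetherian.noetherian m
  have := (Ideal.FG.isNilpotent_iff_le_nilradical hfg).2 fun x hx => mem_nilradical.2 (h x hx)
  obtain ⟨n, hn⟩ := this
  exact ⟨n, hn⟩

theorem hres_of_pi0 {p : ℕ} (π0 : A →+* ZMod p) (s : A) :
    ∃ c : ℤ, s - (c : A) ∈ RingHom.ker π0 := by
  obtain ⟨c, hc⟩ := ZMod.intCast_surjective (π0 s)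
  refine ⟨c, ?_⟩
  rw [RingHom.mem_ker, map_sub, map_intCast, hc, sub_self]

theorem card_soc_le_of_le [Finite X] {p r : ℕ} (z : Fin r → A) (mA : Ideal A) (hpm : (p : A) ∈ mA)
    (hz : ∀ i, z i ∈ mA) :
    Nat.card {x : X // ∀ s ∈ mA, s • x = 0} ≤
      Nat.card ↥(torsionBy A X (p : A) ⊓ ⨅ i, torsionBy A X (z i)) := by
  refine Nat.card_le_card_of_injective
    (fun x => (⟨x.1, ?_⟩ : ↥(torsionBy A X (p : A) ⊓ ⨅ i, torsionBy A X (z i))))
    (fun x y h => Subtype.ext (congrArg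
      (fun w : ↥(torsionBy A X (p : A) ⊓ ⨅ i, torsionBy A X (z i)) => w.1) h))
  simp only [Submodule.mem_inf, Submodule.mem_iInf, mem_torsionBy_iff]
  exact ⟨x.2 _ hpm, fun i => x.2 _ (hz i)⟩

end Fermat.Agent.ML.Hard
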