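import Fermat.Agent.ML.Hard.LocH
import Fermat.Agent.ML.Hard.Facts
import Fermat.Agent.ML.Hard.NilF
import Fermat.Agent.ML.Main.LiftRho
import Fermat.Agent.ML.Main.LocCalc
import Fermat.Agent.ML.Rho.TameK

/-!
# ML / Hard / LocK : the hard primes over `H : Rho.IsRhoK N (p^(K+1)) X (rEB B) πE ρ Φ`, in the vocabulary of `ML/Main/Cell.lean`

`Y : Submodule R ↥X` a `Φ`-stable submodule (the stage module `uA G`), `S : Set (JZero N)` a set containing the points of `Y`.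

* (PHI)  `loc_rel_phi` : the matrix form (no group action).
* (IN)   `scroll_of_cell` : `LocSt q ε S`, `LocUnip q S` ⟹ `Hard.Scroll` of the six variables modulo `Y.annihilator`  (`hscr` of `raise_step_abs_F`);
         `c_mem_of_cell`, `trace_mem_of_cell`, `entries_mem_of_locUr`.
* (GENS) `exists_tame_data` : a tame generator.
* (STRICT) `strict_raised_hard`, `strict_unraised_hard` : `hstrict` of `GenHypMZ.of_act`.
* (RES)  `pi0_locVar` : the six variables lie in `ker π0`.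
* (OUT)  see `ML/Hard/LocOut.lean`.
-/

set_option autoImplicit false
set_option linter.unusedSectionVars false

noncomputable section

namespace Fermat.Agent.ML.Hard

open Matrix ModularCurve Fermat.Agent.RIB Fermat.Agent.ML Fermat.Agent.S56 ExtCitation
  Fermat.Agent.ML.ESide Fermat.Agent.ML.Lift
open CFT (decomp)

local notation "Qbar" => AlgebraicClosure ℚ
local notation "GQ" => (AlgebraicClosure ℚ ≃ₐ[ℚ] AlgebraicClosure ℚ)
local notation "M₂" => Matrix (Fin 2) (Fin 2)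

/-! ### (PHI) the matrix form -/

section Phi

variable {R : Type*} [CommRing R] {V : Type*} [AddCommGroup V] [Module R V]
  (Φ : M₂ R →ₐ[R] Module.End R V)

theorem map_mk_eq_zero_phi (Y : Submodule R V) (hY : ∀ (M : M₂ R), ∀ y ∈ Y, Φ M y ∈ Y)
    (J : Ideal R) (hJ : Y.annihilator ≤ J) (M : M₂ R) (h : ∀ x ∈ Y, Φ M x = 0) :
    M.map (Ideal.Quotient.mk J) = 0 := by
  ext i j
  rw [Matrix.map_apply, Matrix.zero_apply, Ideal.Quotient.eq_zero_iff_mem]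
  exact hJ (Submodule.mem_annihilator.2 fun y hy => entry_smul_eq_zero Φ Y hY M h i j hy)

theorem entry_mem_phi (Y : Submodule R V) (hY : ∀ (M : M₂ R), ∀ y ∈ Y, Φ M y ∈ Y)
    (M : M₂ R) (h : ∀ x ∈ Y, Φ M x = 0) (i j : Fin 2) : M i j ∈ Y.annihilator :=
  Submodule.mem_annihilator.2 fun _ hy => entry_smul_eq_zero Φ Y hY M h i j hy

/-- the four matrix identities modulo `J ≥ Ann Y`. -/
theorem loc_rel_phi (Y : Submodule R V) (hY : ∀ (M : M₂ R), ∀ y ∈ Y, Φ M y ∈ Y)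
    (J : Ideal R) (hJ : Y.annihilator ≤ J) (Sg Sg' Tu : M₂ R) (hinv : Sg * Sg' = 1) (q ε : R)
    (hε : ε * ε = 1) (hdetσ : Sg.det = q) (hdetτ : Tu.det = 1)
    (h2 : ∀ x ∈ Y, Φ ((Tu - 1) * (Sg - ε • (1 : M₂ R))) x = 0)
    (h3 : ∀ x ∈ Y, Φ ((Sg - (ε * q) • (1 : M₂ R)) * (Sg - ε • (1 : M₂ R))) x = 0)
    (hun : ∀ x ∈ Y, Φ ((Tu - 1) * (Tu - 1)) x = 0) :
    (Tu - 1).map (Ideal.Quotient.mk J) * (Tu - 1).map (Ideal.Quotient.mk J) = 0 ∧
    ((Tu - 1).map (Ideal.Quotient.mk J)).trace = 0 ∧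
    (Tu - 1).map (Ideal.Quotient.mk J) * (Sg.map (Ideal.Quotient.mk J) -
      Ideal.Quotient.mk J ε • (1 : M₂ (R ⧸ J))) = 0 ∧
    (Sg.map (Ideal.Quotient.mk J)).trace =
      Ideal.Quotient.mk J ε * (Ideal.Quotient.mk J q + 1) := by
  set φ := Ideal.Quotient.mk J with hφ
  have one' : (1 : M₂ R).map φ = 1 := map_one φ.mapMatrix
  have mul' : ∀ X Z : M₂ R, (X * Z).map φ = X.map φ * Z.map φ := fun X Z => Matrix.map_mul
  have sub' : ∀ X Z : M₂ R, (X - Z).map φ = X.map φ - Z.map φ := fun X Z => by ext i j; simp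
  have smul' : ∀ (a : R) (X : M₂ R), (a • X).map φ = φ a • X.map φ := fun a X => by ext i j; simp
  have det' : ∀ X : M₂ R, (X.map φ).det = φ X.det := fun X => by
    rw [RingHom.map_det]; rfl
  have hN : (Tu - 1).map φ * (Tu - 1).map φ = 0 := by
    rw [← mul']
    exact map_mk_eq_zero_phi Φ Y hY J hJ _ hun
  have htr : ((Tu - 1).map φ).trace = 0 := by
    refine trace_eq_zero_of_sq_zero _ hN ?_
    rw [sub', one', add_sub_cancel, det', hdetτ, map_one]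
  have hNG : (Tu - 1).map φ * (Sg.map φ - φ ε • (1 : M₂ (R ⧸ J))) = 0 := by
    rw [← one', ← smul', ← sub', ← mul']
    exact map_mk_eq_zero_phi Φ Y hY J hJ _ h2
  have hcS : (Sg.map φ - (φ ε * φ q) • (1 : M₂ (R ⧸ J))) *
      (Sg.map φ - φ ε • (1 : M₂ (R ⧸ J))) = 0 := by
    rw [← one', ← map_mul, ← smul', ← smul', ← sub', ← sub', ← mul']
    exact map_mk_eq_zero_phi Φ Y hY J hJ _ h3
  have hεφ : φ ε * φ ε = 1 := by rw [← map_mul, hε, map_one]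
  have hdetφ : (Sg.map φ).det = φ q := by rw [det', hdetσ]
  have hcomm : (Sg.map φ - φ ε • (1 : M₂ (R ⧸ J))) *
      (Sg.map φ - (φ ε * φ q) • (1 : M₂ (R ⧸ J))) =
      (Sg.map φ - (φ ε * φ q) • (1 : M₂ (R ⧸ J))) *
      (Sg.map φ - φ ε • (1 : M₂ (R ⧸ J))) := by
    simp only [sub_mul, mul_sub, Matrix.mul_smul, Matrix.smul_mul, mul_one, one_mul, smul_smul]
    rw [mul_comm (φ ε) (φ ε * φ q)]
    abel
  have hc0 := Raise.sub_mul_sub (Sg.map φ) (φ q) (φ ε) hεφ hdetφ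
  rw [hcomm, hcS] at hc0
  have hinv' : Sg.map φ * Sg'.map φ = 1 := by rw [← mul', hinv, one']
  have hc : (Sg.map φ).trace = φ ε * (φ q + 1) := by
    have h5 : ((Sg.map φ).trace - φ ε * (φ q + 1)) • (1 : M₂ (R ⧸ J)) = 0 := by
      rw [← hinv', ← Matrix.smul_mul, ← hc0, zero_mul]
    have h6 := congrFun (congrFun h5 0) 0
    simp only [Matrix.smul_apply, Matrix.one_apply_eq, smul_eq_mul, mul_one,
      Matrix.zero_apply] at h6
    exact sub_eq_zero.1 h6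
  exact ⟨hN, htr, hNG, hc⟩

end Phi

/-! ### over `Rho.IsRhoK` -/

section RhoK

variable {N m : ℕ} [NeZero N] [NeZero m] {X : AddSubgroup (JZero N)} {rE : GQ →* M₂ (ZMod m)}
  {R : Type} [CommRing R] [Algebra (ZMod m) R] [Module R ↥X] {πE : R →ₐ[ZMod m] ZMod m}
  {ρ : GQ →* M₂ R} {Φ : M₂ R →ₐ[R] Module.End R ↥X}

theorem coe_phi_sub (H : Rho.IsRhoK N m X rE πE ρ Φ) (g : GQ) (n : ℤ) (x : ↥X) :
    ((Φ (ρ g - (n : R) • (1 : M₂ R)) x : ↥X) : JZero N) =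
      g • (x : JZero N) - n • (x : JZero N) := by
  rw [map_sub, map_smul, map_one, LinearMap.sub_apply, LinearMap.smul_apply,
    Module.End.one_apply, AddSubgroup.coe_sub, H.act, Int.cast_smul_eq_zsmul, AddSubgroup.coe_zsmul]

theorem coe_phi_sub_mul_sub (H : Rho.IsRhoK N m X rE πE ρ Φ) (g h : GQ) (k n : ℤ) (x : ↥X) :
    ((Φ ((ρ g - (k : R) • (1 : M₂ R)) * (ρ h - (n : R) • (1 : M₂ R))) x : ↥X) : JZero N) =
      g • (h • (x : JZero N) - n • (x : JZero N)) - k • (h • (x : JZero N) - n • (x : JZero N)) := by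
  rw [map_mul, Module.End.mul_apply, coe_phi_sub H g k, coe_phi_sub H h n]

theorem sub_one_eq (M : M₂ R) : M - 1 = M - ((1 : ℤ) : R) • (1 : M₂ R) := by
  rw [Int.cast_one, one_smul]

variable (H : Rho.IsRhoK N m X rE πE ρ Φ) (Y : Submodule R ↥X)
  (hY : ∀ (M : M₂ R), ∀ y ∈ Y, Φ M y ∈ Y) {S : Set (JZero N)}
  (hYS : ∀ y ∈ Y, ((y : ↥X) : JZero N) ∈ S)

include H hY hYS

/-- the four matrix identities modulo `J ≥ Ann Y`, from `LocSt`, `LocUnip`. -/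
theorem loc_rel_cell (J : Ideal R) (hJ : Y.annihilator ≤ J) {q : ℕ} {ε : ℤ} (hε : ε * ε = 1)
    (hst : LocSt q ε S) (hun : LocUnip q S)
    {A : ValuationSubring Qbar} (hA : A.LiesOverPrime q) {φ τ : GQ} (hφ : A.IsFrobeniusAt φ q)
    (hτ : τ ∈ A.inertiaSubgroupIn ℚ) (hdetφ : (ρ φ).det = (q : R)) (hdetτ : (ρ τ).det = 1) :
    (ρ τ - 1).map (Ideal.Quotient.mk J) * (ρ τ - 1).map (Ideal.Quotient.mk J) = 0 ∧
    ((ρ τ - 1).map (Ideal.Quotient.mk J)).trace = 0 ∧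
    (ρ τ - 1).map (Ideal.Quotient.mk J) * ((ρ φ).map (Ideal.Quotient.mk J) -
      Ideal.Quotient.mk J (ε : R) • (1 : M₂ (R ⧸ J))) = 0 ∧
    ((ρ φ).map (Ideal.Quotient.mk J)).trace =
      Ideal.Quotient.mk J (ε : R) * (Ideal.Quotient.mk J (q : R) + 1) := by
  have hε' : (ε : R) * (ε : R) = 1 := by exact_mod_cast congrArg (Int.cast : ℤ → R) hε
  refine loc_rel_phi Φ Y hY J hJ (ρ φ) (ρ φ⁻¹) (ρ τ) (by rw [← map_mul, mul_inv_cancel, map_one])
    (q : R) (ε : R) hε' hdetφ hdetτ (fun x hx => ?_) (fun x hx => ?_) (fun x hx => ?_)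
  · apply Subtype.ext
    rw [sub_one_eq, coe_phi_sub_mul_sub H, one_smul,
      (hst A hA φ hφ τ hτ _ (hYS x hx)).2.1, sub_self]
    rfl
  · apply Subtype.ext
    have e : (ε : R) * (q : R) = ((ε * (q : ℤ) : ℤ) : R) := by push_cast; ring
    rw [e, coe_phi_sub_mul_sub H, (hst A hA φ hφ τ hτ _ (hYS x hx)).2.2, sub_self]
    rfl
  · apply Subtype.ext
    rw [sub_one_eq, coe_phi_sub_mul_sub H, one_smul, one_smul,
      hun A hA τ hτ τ hτ _ (hYS x hx), sub_self]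
    rfl

/-- **(IN)** `hscr` of `raise_step_abs_F`. -/
theorem scroll_of_cell (J : Ideal R) (hJ : Y.annihilator ≤ J) {q : ℕ} {ε : ℤ} (hε : ε * ε = 1)
    (hst : LocSt q ε S) (hun : LocUnip q S)
    {A : ValuationSubring Qbar} (hA : A.LiesOverPrime q) {φ τ : GQ} (hφ : A.IsFrobeniusAt φ q)
    (hτ : τ ∈ A.inertiaSubgroupIn ℚ) (hdetφ : (ρ φ).det = (q : R)) (hdetτ : (ρ τ).det = 1)
    {p : ℕ} {D : ℤ} (hqd : (q : ℤ) - 1 = (p : ℤ) * D) :
    Scroll (fun j => Ideal.Quotient.mk J (locVar (ρ φ) (ρ τ - 1) (ε : R) j))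
      ((((p : ℤ) * D : ℤ)) : R ⧸ J) := by
  obtain ⟨hN, htr, hNG, hc⟩ := loc_rel_cell H Y hY hYS J hJ hε hst hun hA hφ hτ hdetφ hdetτ
  have hε' : (ε : R) * (ε : R) = 1 := by exact_mod_cast congrArg (Int.cast : ℤ → R) hε
  have key := scroll_locVar ((ρ φ).map (Ideal.Quotient.mk J)) ((ρ τ - 1).map (Ideal.Quotient.mk J))
    (Ideal.Quotient.mk J (q : R)) (Ideal.Quotient.mk J (ε : R))
    (by rw [← map_mul, hε', map_one])
    (by rw [← hdetφ, RingHom.map_det]; rfl) htr hN hNG hc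
  rw [locVar_map] at key
  have e : Ideal.Quotient.mk J (q : R) - 1 = ((((p : ℤ) * D : ℤ)) : R ⧸ J) := by
    rw [← hqd]; push_cast; simp
  rwa [e] at key

theorem c_mem_of_cell {q : ℕ} {ε : ℤ} (hε : ε * ε = 1)
    (hst : LocSt q ε S) (hun : LocUnip q S)
    {A : ValuationSubring Qbar} (hA : A.LiesOverPrime q) {φ τ : GQ} (hφ : A.IsFrobeniusAt φ q)
    (hτ : τ ∈ A.inertiaSubgroupIn ℚ) (hdetφ : (ρ φ).det = (q : R)) (hdetτ : (ρ τ).det = 1) :
    (ρ φ).trace - (ε : R) * ((q : R) + 1) ∈ Y.annihilator := by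
  obtain ⟨-, -, -, hc⟩ := loc_rel_cell H Y hY hYS _ le_rfl hε hst hun hA hφ hτ hdetφ hdetτ
  rw [trace_map_mk] at hc
  rw [← Ideal.Quotient.eq_zero_iff_mem, map_sub, hc, map_mul, map_add, map_one, sub_self]

theorem trace_mem_of_cell {q : ℕ} (hun : LocUnip q S)
    {A : ValuationSubring Qbar} (hA : A.LiesOverPrime q) {τ : GQ}
    (hτ : τ ∈ A.inertiaSubgroupIn ℚ) (hdetτ : (ρ τ).det = 1) :
    (ρ τ - 1).trace ∈ Y.annihilator := by
  have hN : (ρ τ - 1).map (Ideal.Quotient.mk Y.annihilator) *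
      (ρ τ - 1).map (Ideal.Quotient.mk Y.annihilator) = 0 := by
    rw [← Matrix.map_mul]
    refine map_mk_eq_zero_phi Φ Y hY _ le_rfl _ fun x hx => ?_
    apply Subtype.ext
    rw [sub_one_eq, coe_phi_sub_mul_sub H, one_smul, one_smul,
      hun A hA τ hτ τ hτ _ (hYS x hx), sub_self]
    rfl
  have htr := trace_eq_zero_of_sq_zero _ hN (by
    have e : (1 : M₂ (R ⧸ Y.annihilator)) + (ρ τ - 1).map (Ideal.Quotient.mk Y.annihilator) =
        (Ideal.Quotient.mk Y.annihilator).mapMatrix (ρ τ) := by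
      ext i j
      fin_cases i <;> fin_cases j <;> simp
    rw [e, ← RingHom.map_det, hdetτ, map_one])
  rw [trace_map_mk] at htr
  exact Ideal.Quotient.eq_zero_iff_mem.1 htr

theorem entries_mem_of_locUr {q : ℕ} (hur : LocUr q S)
    {A : ValuationSubring Qbar} (hA : A.LiesOverPrime q) {τ : GQ}
    (hτ : τ ∈ A.inertiaSubgroupIn ℚ) (i j : Fin 2) : (ρ τ - 1) i j ∈ Y.annihilator := by
  refine entry_mem_phi Φ Y hY _ (fun x hx => ?_) i j
  apply Subtype.ext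
  rw [sub_one_eq, coe_phi_sub H, one_smul, hur A hA τ hτ _ (hYS x hx), sub_self]
  rfl

end RhoK

/-! ### in the frame `Lift.TopCtx` -/

section Top

variable {W : WeierstrassCurve ℤ} {p : ℕ} [Fact p.Prime]
  {b : Module.Basis (Fin 2) (ZMod p) (TorsW W p)} {K : ℕ}
  {B : Module.Basis (Fin 2) (ZMod (p ^ (K + 1))) (TorsW W (p ^ (K + 1)))} {N : ℕ} [NeZero N]
  {X : AddSubgroup (JZero N)} {R : Type} [CommRing R] [Algebra (ZMod (p ^ (K + 1))) R]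
  [Module R ↥X] {πE : R →ₐ[ZMod (p ^ (K + 1))] ZMod (p ^ (K + 1))} {ρ : GQ →* M₂ R}
  {Φ : M₂ R →ₐ[R] Module.End R ↥X}
  (C : TopCtx W p b K B N X) (H : Rho.IsRhoK N (p ^ (K + 1)) X (rEB B) πE ρ Φ)

include C H

/-- **(GENS)** tame generator, exponent, tame relation at a prime `q ≠ p` where `rbar` is unramified. -/
theorem exists_tame_data [Finite R] {q : ℕ} (hq : q.Prime) (hqp : q ≠ p)
    {A : ValuationSubring Qbar} (hA : A.LiesOverPrime q)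
    (hur : ∀ σ ∈ A.inertiaSubgroupIn ℚ, rbarB b σ = 1) :
    (∃ τ ∈ A.inertiaSubgroupIn ℚ, ∀ σ ∈ A.inertiaSubgroupIn ℚ, ∃ n : ℕ, ρ σ = ρ τ ^ n) ∧
    (∃ N₀ : ℕ, Nat.Coprime N₀ q ∧ ∀ σ ∈ A.inertiaSubgroupIn ℚ, ρ σ ^ N₀ = 1) ∧
    ∀ φ : GQ, A.IsFrobeniusAt φ q → ∀ σ ∈ A.inertiaSubgroupIn ℚ, ρ φ * ρ σ = ρ σ ^ q * ρ φ := by
  obtain ⟨n, hn⟩ := exists_pow_eq_bot (RingHom.ker (pi0 πE))
    (fun x hx => TopCtx.isNilpotent_of_pi0 H ((RingHom.mem_ker).1 hx))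
  have hpI : ((p : ℕ) : R) ∈ RingHom.ker (pi0 πE) := by
    rw [RingHom.mem_ker, map_natCast, ZMod.natCast_self]
  have hun : ∀ σ ∈ A.inertiaSubgroupIn ℚ, ∀ i j, (ρ σ ^ (p ^ 0) - 1) i j ∈ RingHom.ker (pi0 πE) := by
    intro σ hσ i j
    rw [pow_zero, pow_one, RingHom.mem_ker]
    have h1 := congrFun (congrFun (C.lift H σ) i) j
    rw [hur σ hσ, Matrix.map_apply] at h1
    rw [Matrix.sub_apply, map_sub, h1]
    by_cases hij : i = j
    · subst hij; simp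
    · simp [Matrix.one_apply_ne hij]
  refine ⟨exists_tame_gen Fact.out hq hqp hA (C.cont H) hn hpI 0 hun, ⟨p ^ (0 + n), ?_, fun σ hσ =>
    pow_inertia_eq_one hn hpI 0 hun hσ⟩, fun φ hφ σ hσ =>
    tame_conj Fact.out hq hqp hA (C.cont H) hn hpI 0 hun hφ hσ⟩
  exact Nat.Coprime.pow_left _ ((Nat.coprime_primes Fact.out hq).2 (Ne.symm hqp))

/-- **(RES)** the six variables lie in `ker π0`. -/
theorem pi0_locVar {φ τ : GQ} {ε : ℤ} (hε : ε * ε = 1)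
    (hφ : rbarB b φ = ((ε : ℤ) : ZMod p) • (1 : M₂ (ZMod p))) (hτ : rbarB b τ = 1) (j : Fin 6) :
    pi0 πE (locVar (ρ φ) (ρ τ - 1) (ε : R) j) = 0 := by
  have hε' : (ε : R) * (ε : R) = 1 := by exact_mod_cast congrArg (Int.cast : ℤ → R) hε
  refine map_locVar_eq_zero (ρ φ) (ρ τ - 1) (ε : R) (pi0 πE) hε' ?_ ?_ j
  · rw [C.lift H φ, hφ, map_intCast]
  · have : (ρ τ - 1).map (pi0 πE) = (ρ τ).map (pi0 πE) - 1 := by
      ext i j
      fin_cases i <;> fin_cases j <;> simp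
    rw [this, C.lift H τ, hτ, sub_self]

variable (Y : Submodule R ↥X) (hY : ∀ (M : M₂ R), ∀ y ∈ Y, Φ M y ∈ Y) {S : Set (JZero N)}
  (hYS : ∀ y ∈ Y, ((y : ↥X) : JZero N) ∈ S)

include hY hYS

/-- **(STRICT)**, raised hard prime : `hstrict` of `GenHypMZ.of_act`. -/
theorem strict_raised_hard [Finite R] (v : Nat.Primes) (hvp : (v : ℕ) ≠ p)
    (hur : ∀ σ ∈ inert v, rbarB b σ = 1) {ε : ℤ} (hε : ε * ε = 1)
    (hst : LocSt (v : ℕ) ε S) (hun : LocUnip (v : ℕ) S) {φ τ : GQ}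
    (hφ : (primeLocalPlace v).IsFrobeniusAt φ (v : ℕ)) (hτ : τ ∈ inert v)
    (hgen : ∀ σ ∈ inert v, ∃ n : ℕ, ρ σ = ρ τ ^ n) (I : Ideal R)
    (hvar : ∀ j, locVar (ρ φ) (ρ τ - 1) (ε : R) j ∈ I) :
    ∃ M : M₂ R, IsUnit (M.map (pi0 πE)) ∧
      ∀ s ∈ decomp v, ConjConst ℤ (Y.annihilator ⊔ I) M (ρ s) := by
  have hA := liesOverPrime_primeLocalPlace v
  obtain ⟨-, ⟨N₀, hN₀, htors⟩, -⟩ := exists_tame_data C H v.2 hvp hA hur
  have hdφ := C.det_frob H v.2 hvp hA hφ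
  have hdτ := C.det_inertia H v.2 hvp hA hτ
  exact ⟨1, isUnit_one_map _, strict_hard (C.cont H) v hφ N₀ hN₀ htors hgen ε hε _
    (Ideal.mem_sup_left (c_mem_of_cell H Y hY hYS hε hst hun hA hφ hτ hdφ hdτ))
    (Ideal.mem_sup_left (trace_mem_of_cell H Y hY hYS hun hA hτ hdτ))
    (fun j => Ideal.mem_sup_right (hvar j))⟩

/-- **(STRICT)**, unraised hard prime : only `y0, y1, y2`. -/
theorem strict_unraised_hard [Finite R] (v : Nat.Primes) (hvp : (v : ℕ) ≠ p)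
    (hur : ∀ σ ∈ inert v, rbarB b σ = 1) {ε : ℤ} (hε : ε * ε = 1)
    (hS : LocUr (v : ℕ) S) {φ τ : GQ}
    (hφ : (primeLocalPlace v).IsFrobeniusAt φ (v : ℕ)) (hτ : τ ∈ inert v)
    (hgen : ∀ σ ∈ inert v, ∃ n : ℕ, ρ σ = ρ τ ^ n) (I : Ideal R)
    (h3 : locVar (ρ φ) (ρ τ - 1) (ε : R) 3 ∈ I) (h4 : locVar (ρ φ) (ρ τ - 1) (ε : R) 4 ∈ I)
    (h5 : locVar (ρ φ) (ρ τ - 1) (ε : R) 5 ∈ I) :
    ∃ M : M₂ R, IsUnit (M.map (pi0 πE)) ∧
      ∀ s ∈ decomp v, ConjConst ℤ (Y.annihilator ⊔ I) M (ρ s) := by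
  have hA := liesOverPrime_primeLocalPlace v
  obtain ⟨-, ⟨N₀, hN₀, htors⟩, -⟩ := exists_tame_data C H v.2 hvp hA hur
  have hdφ := C.det_frob H v.2 hvp hA hφ
  have hε' : (ε : R) * (ε : R) = 1 := by exact_mod_cast congrArg (Int.cast : ℤ → R) hε
  have hent := entries_mem_of_locUr H Y hY hYS hS hA hτ
  refine ⟨1, isUnit_one_map _, strict_hard (C.cont H) v hφ N₀ hN₀ htors hgen ε hε _
    (c_mem_of_y_mem (ρ φ) (ρ τ - 1) ((v : ℕ) : R) (ε : R) hε' hdφ _ (Ideal.mem_sup_right h3)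
      (Ideal.mem_sup_right h4))
    (Ideal.mem_sup_left ?_) (fun j => ?_)⟩
  · rw [Matrix.trace_fin_two]
    exact Ideal.add_mem _ (hent 0 0) (hent 1 1)
  · fin_cases j
    · exact Ideal.mem_sup_left (hent 0 1)
    · exact Ideal.mem_sup_left (hent 1 1)
    · exact Ideal.mem_sup_left (Ideal.neg_mem_iff _ |>.2 (hent 1 0))
    · exact Ideal.mem_sup_right h3
    · exact Ideal.mem_sup_right h4
    · exact Ideal.mem_sup_right h5

end Top

end Fermat.Agent.ML.Hard
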