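import Fermat.Agent.ML.Hard.MidAbs
import Fermat.Agent.ML.Hard.MidSpec

/-!
# ML / Hard / MidAbsData : `MidData` from the abstract middle block `midF_abs`

* `VarPkg.of_poly` : a prime with ONE free variable, multiplier given by a one-variable polynomial.
* `exists_midData` : the packages (`Ann := Gt.annihilator`), (GEN), (EMB) and (OUT for every multiplier with the divisibilities) `⟹ MidData`.
-/

set_option autoImplicit false

noncomputable section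

open ExtCitation MvPolynomial AlgebraicCurve ModularCurve

namespace Fermat.Agent.ML.Hard

open Fermat.Agent.RIB Fermat.Agent.S56 Fermat.Agent.S56.Gen Fermat.Agent.ML
  Fermat.Agent.GAL Fermat.Agent.GAL.PC Fermat.Agent.ML.TWFree Fermat.Agent.ML.ESide
  Fermat.Agent.ML.Lift
open CFT (levS levAll decomp Z1 B1 Qb IsSmooth)

variable {p : ℕ} [Fact p.Prime] {R : Type} [CommRing R]

/-- one free variable, multiplier given by a one-variable polynomial. -/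
theorem VarPkg.of_poly {π0 : R →+* ZMod p} {ρ : GQ →* M2 R} {Ann : Ideal R} {v : Nat.Primes}
    {u be : R} {P1 : Polynomial ℤ} {pt : ℤ} {f : ℕ} (h0 : π0 u = 0)
    (hs : ∀ I : Ideal R, u ∈ I → ∃ M : M2 R, IsUnit (M.map π0) ∧
      ∀ σ ∈ decomp v, ConjConst ℤ (Ann ⊔ I) M (ρ σ))
    (pol : be - Polynomial.aeval u P1 ∈ Ann) (hpt : (p : ℤ) ∣ pt)
    (hN : ¬ (p : ℤ) ^ (f + 1) ∣ P1.eval pt) :
    VarPkg p π0 ρ Ann v (fun _ : Fin 1 => u) be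
      (Polynomial.aeval (X 0 : MvPolynomial (Fin 1) ℤ) P1) (fun _ => pt) f where
  pi0_u := fun _ => h0
  strict := fun I hI => hs I (hI 0)
  pol := by
    rw [← Polynomial.aeval_algHom_apply, aeval_X]
    exact pol
  hpt := fun _ => hpt
  hN := by
    rw [← Polynomial.aeval_algHom_apply, aeval_X]
    simpa [Polynomial.aeval_def, Polynomial.eval₂_eq_eval_map] using hN

/-- **`MidData` from the packages.** -/
theorem exists_midData {rbar0 : GQ →* M2 (ZMod p)} {eps : ℕ → ℤ} {P : Finset ℕ} {q F t : ℕ}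
    [NeZero q] {N N' : ℕ} [NeZero N] [NeZero N'] (h : N' = N * q)
    {U : AddSubgroup (JZero N)} {V U' : AddSubgroup (JZero N')} [Module R ↥V]
    {π0 : R →+* ZMod p} {ρ : GQ →* M2 R} (Gt : Submodule R ↥V) (ε : ℤ)
    (Hs Os : Finset Nat.Primes) (k f : Nat.Primes → ℕ) (OutP : Nat.Primes → R → Prop)
    (hH : ∀ v ∈ Hs, ∃ (x : Fin 6 → R) (D : ℤ),
      HardPkg p π0 ρ Gt.annihilator v x D ∧ OutP v (x 0))
    (hO : ∀ v ∈ Os, ∃ (u : Fin (k v) → R) (be : R) (P : MvPolynomial (Fin (k v)) ℤ)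
      (pt : Fin (k v) → ℤ), VarPkg p π0 ρ Gt.annihilator v u be P pt (f v) ∧ OutP v be)
    (be0 : R) (N0 : ℤ) (f0 : ℕ) (hbe0 : be0 - (N0 : R) ∈ Gt.annihilator)
    (hN0 : ¬ (p : ℤ) ^ (f0 + 1) ∣ N0)
    {kq : ℕ} (yn : Fin kq → R) (hyn : ∀ j, π0 (yn j) = 0) (c : R)
    (Pn : MvPolynomial (Fin kq) ℤ) (hc : c - aeval yn Pn ∈ Gt.annihilator)
    (hPn : aeval (fun _ : Fin kq => (0 : ℤ)) Pn = 0)
    (hgen : ∀ I : Ideal R, (∀ a ∈ I, π0 a = 0) → (∀ j, yn j ∈ I) →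
      (∀ v ∈ Hs ∪ Os, ∃ M : M2 R, IsUnit (M.map π0) ∧
        ∀ σ ∈ decomp v, ConjConst ℤ (Gt.annihilator ⊔ I) M (ρ σ)) →
      ∃ (g : ℕ) (x : Fin g → R), 3 * Hs.card + ∑ v ∈ Os, k v + kq + g ≤ t ∧
        (∀ i, π0 (x i) = 0) ∧
        RingHom.ker π0 ≤ Gt.annihilator ⊔ I ⊔ Ideal.span (Set.range x) ⊔ Ideal.span {(p : R)})
    (hF : f0 + Hs.card + ∑ v ∈ Os, f v ≤ F)
    (emb : ∀ v ∈ U, ∀ hv : upE h 0 v ∈ V, c • (⟨upE h 0 v, hv⟩ : ↥V) = 0 →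
      ∀ k, dnE h k (upE h 0 v - ε • upE h 1 v) = 0)
    (out : ∀ β' : R, be0 ∣ β' → (∀ v ∈ Hs ∪ Os, ∃ be, be ∣ β' ∧ OutP v be) →
      ∀ G' : AddSubgroup (JZero N'), (∀ g : GQ, ∀ x ∈ G', g • x ∈ G') → G' ≤ U' →
      (∀ x ∈ G', ∃ x₁ : ↥V, (x₁ : JZero N') ∈ U' ∧ ((β' • x₁ : ↥V) : JZero N') = x) →
      (∀ q' ∈ insert q P, q' ≠ p →
        LocSt q' (eps q') (G' : Set (JZero N')) ∧ LocUnip q' (G' : Set (JZero N'))) ∧
      (2 ∉ insert q P → ¬ Ram rbar0 2 → LocUr 2 (G' : Set (JZero N'))) ∧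
      (Ram rbar0 2 → LocUnip 2 (G' : Set (JZero N')))) :
    ∃ (Hr σ : Type) (_ : Fintype Hr) (_ : Fintype σ) (D : Hr → ℤ) (val : PV Hr σ → R)
      (pt : σ → ℤ) (β' : R) (Pc Pβ : MvPolynomial (PV Hr σ) ℤ),
      MidData p rbar0 eps P q F t h U V U' π0 Gt ε Hr σ D val pt c β' Pc Pβ := by
  obtain ⟨β', Hr, σ, i1, i2, D, val, pt, Pc, Pβ, h1, h2, h3, h4, h5, h6, h7, h8, h9, h10, h11⟩ :=
    midF_abs (t := t) Gt.annihilator Hs Os k f OutP hH hO be0 N0 f0 hbe0 hN0 yn hyn c Pn hc hPn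
      hgen hF
  exact ⟨Hr, σ, i1, i2, D, val, pt, β', Pc, Pβ,
    ⟨h1, h2, h3, h4, h5, h6, h7, h8, h9, emb, out β' h10 h11⟩⟩

end Fermat.Agent.ML.Hard
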