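import Fermat.Agent.ML.Hard.LocOut
import Fermat.Agent.ML.Hard.MidSpec
import Fermat.Agent.ML.Hard.Poly
import Fermat.Agent.ML.Gen.OfRho

/-!
# ML / Hard / MidRec : the records of the HARD primes for the middle block `MidData` of a raising step in the F-form

Frame (level-free, the one of `StepGen.genHyp_sub`) : `Xc : LCtx ..`, `C : TopCtx W p b K B N X`, `H : IsRhoK N (p^(K+1)) X (rEB B) πE ρ Φ`,
`Y : Submodule R ↥X` the stage module (Galois stable : `hYG`), `YS ⊇ Y` a set of points.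

* `OldHard p π0 ρ Y v ε xv D` : a hard prime `v` raised BEFORE : six variables `xv`, scroll relations modulo `Ann Y`, strictness, and the
  local type of `β X` as soon as `xv 0 ∣ β`.       `exists_oldHard`.
* `NewHard p π0 ρ Y v ε yv c d` : the hard prime raised NOW : three variables `yv 0, yv 1, yv 2`, `c = y1 (y1 - d) - y0 y2`, strictness,
  the Frobenius relation on `X[c]`, and the local type of the points which satisfy [REL-LAST].      `exists_newHard`.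
* `relLast_dnE`, `NewHard.emb`, `NewHard.out_dnE` : the fields `emb`, `out` of `MidData` at the new prime.
-/

set_option autoImplicit false
set_option linter.unusedSectionVars false

noncomputable section

namespace Fermat.Agent.ML.Hard.MidRec

open Matrix ModularCurve Fermat.Agent.RIB Fermat.Agent.ML Fermat.Agent.S56 ExtCitation
  Fermat.Agent.ML.ESide Fermat.Agent.ML.Lift Fermat.Agent.ML.Hard Fermat.Agent.ML.TWFree
open CFT (decomp)

local notation "Qbar" => AlgebraicClosure ℚ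
local notation "GQ" => (AlgebraicClosure ℚ ≃ₐ[ℚ] AlgebraicClosure ℚ)
local notation "M₂" => Matrix (Fin 2) (Fin 2)

/-! ### the records -/

section Rec

variable {N : ℕ} [NeZero N] {X : AddSubgroup (JZero N)} {R : Type} [CommRing R] [Module R ↥X]

/-- the record of a hard prime `v` raised before. -/
structure OldHard (p : ℕ) (π0 : R →+* ZMod p) (ρ : GQ →* M₂ R) (Y : Submodule R ↥X)
    (v : Nat.Primes) (ε : ℤ) (xv : Fin 6 → R) (D : ℤ) : Prop where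
  pi0 : ∀ j, π0 (xv j) = 0
  scr : Scroll (fun j => Ideal.Quotient.mk Y.annihilator (xv j))
    ((((p : ℤ) * D : ℤ)) : R ⧸ Y.annihilator)
  strict : ∀ I : Ideal R, (∀ j, xv j ∈ I) → ∃ M : M₂ R, IsUnit (M.map π0) ∧
    ∀ s ∈ decomp v, ConjConst ℤ (Y.annihilator ⊔ I) M (ρ s)
  out : ∀ β : R, xv 0 ∣ β → ∀ S : Set (JZero N),
    (∀ x ∈ S, ∃ x₁ : ↥X, ((β • x₁ : ↥X) : JZero N) = x) →
    LocSt (v : ℕ) ε S ∧ LocUnip (v : ℕ) S

/-- the record of the hard prime `v` raised now. -/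
structure NewHard (p : ℕ) (π0 : R →+* ZMod p) (ρ : GQ →* M₂ R) (Y : Submodule R ↥X)
    (v : Nat.Primes) (ε : ℤ) (yv : ℕ → R) (c : R) (d : ℤ) : Prop where
  pi0 : ∀ j, π0 (yv j) = 0
  strict : ∀ I : Ideal R, (∀ j < 3, yv j ∈ I) → ∃ M : M₂ R, IsUnit (M.map π0) ∧
    ∀ s ∈ decomp v, ConjConst ℤ (Y.annihilator ⊔ I) M (ρ s)
  hc : c = yv 1 * (yv 1 - (d : R)) - yv 0 * yv 2
  frob : ∀ x : ↥X, c • x = 0 → ∃ (A : ValuationSubring Qbar) (σ : GQ), A.LiesOverPrime (v : ℕ) ∧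
    A.IsFrobeniusAt σ (v : ℕ) ∧
    σ • (x : JZero N) + (v : ℕ) • σ⁻¹ • (x : JZero N) = (ε * (((v : ℕ) : ℤ) + 1)) • (x : JZero N)
  out : ∀ S : Set (JZero N), (∀ x ∈ S, x ∈ X) →
    (∀ x ∈ S, ∀ A : ValuationSubring Qbar, A.LiesOverPrime (v : ℕ) → ∀ φ : GQ,
      A.IsFrobeniusAt φ (v : ℕ) → trOp (v : ℕ) φ (trOp (v : ℕ) φ x) = ((v : ℕ) + 1) ^ 2 • x) →
    LocSt (v : ℕ) ε S ∧ LocUnip (v : ℕ) S

end Rec

/-! ### existence -/

section Top

variable {W : WeierstrassCurve ℤ} {p : ℕ} [Fact p.Prime] {T : Finset ℕ}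
  {b : Module.Basis (Fin 2) (ZMod p) (TorsW W p)} {L₀ : ℕ} [NeZero L₀] {eps : ℕ → ℤ}
  {eP : GQ → ℤ} (Xc : LCtx W p T b L₀ eps eP) {K : ℕ}
  {B : Module.Basis (Fin 2) (ZMod (p ^ (K + 1))) (TorsW W (p ^ (K + 1)))} {N : ℕ} [NeZero N]
  {X : AddSubgroup (JZero N)} {R : Type} [CommRing R] [Algebra (ZMod (p ^ (K + 1))) R]
  [Module R ↥X] {πE : R →ₐ[ZMod (p ^ (K + 1))] ZMod (p ^ (K + 1))} {ρ : GQ →* M₂ R}
  {Φ : M₂ R →ₐ[R] Module.End R ↥X}
  (C : TopCtx W p b K B N X) (H : Rho.IsRhoK N (p ^ (K + 1)) X (rEB B) πE ρ Φ)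

include Xc C H in
/-- a Galois stable submodule is `Φ`-stable. -/
theorem phi_stable [IsLocalRing R] (Y : Submodule R ↥X)
    (hYG : ∀ (g : GQ), ∀ y ∈ Y, ∀ y' : ↥X, (y' : JZero N) = g • (y : JZero N) → y' ∈ Y) :
    ∀ (M : M₂ R), ∀ y ∈ Y, Φ M y ∈ Y := by
  have hadj : Algebra.adjoin R (Set.range ρ) = ⊤ := Xc.C.adjoin_range_rho' (C.lift H)
  intro M
  have hM : M ∈ Algebra.adjoin R (Set.range ρ) := by rw [hadj]; trivial
  induction hM using Algebra.adjoin_induction with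
  | mem M hM =>
    obtain ⟨g, rfl⟩ := hM
    intro y hy
    exact hYG g y hy _ (H.act g y)
  | algebraMap r =>
    intro y hy
    rw [AlgHom.commutes, Module.algebraMap_end_apply]
    exact Y.smul_mem r hy
  | add M N _ _ h1 h2 =>
    intro y hy
    rw [map_add, LinearMap.add_apply]
    exact Y.add_mem (h1 y hy) (h2 y hy)
  | mul M N _ _ h1 h2 =>
    intro y hy
    rw [map_mul, Module.End.mul_apply]
    exact h1 _ (h2 y hy)

variable (Y : Submodule R ↥X)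
  (hYG : ∀ (g : GQ), ∀ y ∈ Y, ∀ y' : ↥X, (y' : JZero N) = g • (y : JZero N) → y' ∈ Y)
  {YS : Set (JZero N)} (hYS : ∀ y ∈ Y, ((y : ↥X) : JZero N) ∈ YS)

include Xc C H hYG hYS in
/-- **the record of a hard prime raised before.** -/
theorem exists_oldHard [IsLocalRing R] [Finite R] (v : Nat.Primes)
    (hv : (v : ℕ) ∈ Pfin W (rbarB b) L₀) (hvp : (v : ℕ) ≠ p) (hs : FrobScalar (rbarB b) (v : ℕ))
    {M : ℕ} (hN : N = M * (v : ℕ)) (hvM : ¬ (v : ℕ) ∣ M) (h49 : 4 ∣ M ∨ 9 ∣ M)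
    (hst : LocSt (v : ℕ) (eps v) YS) (hun : LocUnip (v : ℕ) YS) :
    ∃ (xv : Fin 6 → R) (D : ℤ), OldHard p (pi0 πE) ρ Y v (eps v) xv D := by
  have hY := phi_stable Xc C H Y hYG
  have Dh : HardAt b N (v : ℕ) (eps v) := hardAt_of Xc hv hvp hs hN hvM h49
  have hA := liesOverPrime_primeLocalPlace v
  obtain ⟨φ, hφ⟩ := S56.exists_isFrobeniusAt v.2 hA
  obtain ⟨⟨τ, hτ, hgen⟩, -, -⟩ := exists_tame_data C H v.2 hvp hA (Dh.ur _ hA)
  obtain ⟨D, hD⟩ := (hard_facts Xc v.2 hvp (Xc.dvd_of_mem_Pfin hv) hs).2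
  refine ⟨locVar (ρ φ) (ρ τ - 1) ((eps v : ℤ) : R), D, ?_, ?_, ?_, ?_⟩
  · exact pi0_locVar C H Dh.sgn (Dh.sc _ hA φ hφ) (Dh.ur _ hA τ hτ)
  · exact scroll_of_cell H Y hY hYS _ le_rfl Dh.sgn hst hun hA hφ hτ
      (C.det_frob H v.2 hvp hA hφ) (C.det_inertia H v.2 hvp hA hτ) hD
  · intro I hI
    exact strict_raised_hard C H Y hY hYS v hvp (Dh.ur _ hA) Dh.sgn hst hun hφ hτ hgen I hI
  · intro β hβ S hS
    refine ⟨(locSt_smul_hard C H Dh hA hτ φ 0 (by norm_num) β hβ).mono fun x hx => hS x hx,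
      (locUnip_top C H Dh).mono fun x hx => ?_⟩
    obtain ⟨x₁, rfl⟩ := hS x hx
    exact (β • x₁).2

include Xc C H hYG hYS in
/-- **the record of the hard prime raised now.** -/
theorem exists_newHard [IsLocalRing R] [Finite R] (v : Nat.Primes)
    (hv : (v : ℕ) ∈ Pfin W (rbarB b) L₀) (hvp : (v : ℕ) ≠ p) (hs : FrobScalar (rbarB b) (v : ℕ))
    {M : ℕ} (hN : N = M * (v : ℕ)) (hvM : ¬ (v : ℕ) ∣ M) (h49 : 4 ∣ M ∨ 9 ∣ M)
    (hur : LocUr (v : ℕ) YS) :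
    ∃ (yv : ℕ → R) (c : R), NewHard p (pi0 πE) ρ Y v (eps v) yv c (((v : ℕ) : ℤ) - 1) := by
  have hY := phi_stable Xc C H Y hYG
  have Dh : HardAt b N (v : ℕ) (eps v) := hardAt_of Xc hv hvp hs hN hvM h49
  have hA := liesOverPrime_primeLocalPlace v
  obtain ⟨φ, hφ⟩ := S56.exists_isFrobeniusAt v.2 hA
  obtain ⟨⟨τ, hτ, hgen⟩, -, -⟩ := exists_tame_data C H v.2 hvp hA (Dh.ur _ hA)
  have hε' : ((eps v : ℤ) : R) * ((eps v : ℤ) : R) = 1 := by
    exact_mod_cast congrArg (Int.cast : ℤ → R) Dh.sgn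
  have hdet := C.det_frob H v.2 hvp hA hφ
  have hpi := pi0_locVar C H Dh.sgn (Dh.sc _ hA φ hφ) (Dh.ur _ hA τ hτ)
  set lv := locVar (ρ φ) (ρ τ - 1) ((eps v : ℤ) : R) with hlv
  refine ⟨fun j => if j = 0 then lv 3 else if j = 1 then lv 4 else if j = 2 then lv 5 else 0,
    (((eps v : ℤ) : R) * (ρ φ).trace - (((v : ℕ) : R) + 1)) * (1 + lv 4), ?_, ?_, ?_, ?_, ?_⟩
  · intro j
    split_ifs
    · exact hpi 3
    · exact hpi 4
    · exact hpi 5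
    · exact map_zero _
  · intro I hI
    exact strict_unraised_hard C H Y hY hYS v hvp (Dh.ur _ hA) Dh.sgn hur hφ hτ hgen I
      (by simpa using hI 0 (by norm_num)) (by simpa using hI 1 (by norm_num))
      (by simpa using hI 2 (by norm_num))
  · rw [hlv, unr_rel (ρ φ) (ρ τ - 1) ((v : ℕ) : R) ((eps v : ℤ) : R) hε' hdet]
    simp
  · intro x hx
    refine ⟨_, φ, hA, hφ, ?_⟩
    have hu : IsUnit (1 + lv 4) := isUnit_one_add_of_map (pi0 πE) (hpi 4)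
    have h1 := (smul_ctilde_iff (ρ φ) (ρ τ - 1) ((v : ℕ) : R) ((eps v : ℤ) : R) hε' hu x).1 hx
    have h2 := coe_trace_smul C H Dh hA hφ x
    rw [sub_smul, sub_eq_zero] at h1
    rw [h1, trOp] at h2
    rw [← h2]
    have e : ((eps v : ℤ) : R) * (((v : ℕ) : R) + 1) = ((eps v * (((v : ℕ) : ℤ) + 1) : ℤ) : R) := by
      push_cast; ring
    rw [e, Int.cast_smul_eq_zsmul R, AddSubgroup.coe_zsmul]
  · intro S hSX hrel
    exact ⟨locSt_new_hard C H Dh S hSX hrel, (locUnip_top C H Dh).mono hSX⟩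

end Top

/-! ### the fields `emb`, `out` of `MidData` at the new prime -/

section Geo

variable {N Nq q : ℕ} [NeZero N] [NeZero Nq] [NeZero q]

/-- [REL-LAST] through `dnE`. -/
theorem relLast_dnE (h : Nq = N * q) {p : ℕ} (hq : q.Prime) (hp : p.Prime) (hqp : q ≠ p)
    (hqN : ¬ q ∣ N) {A : ValuationSubring Qbar} (hA : A.LiesOverPrime q) {σ : GQ}
    (hσ : A.IsFrobeniusAt σ q) (y : JZero Nq) (hy : ∃ n : ℕ, p ^ n • y = 0)
    (hd : ∀ c, dnE h c y = 0) : trOp q σ (trOp q σ y) = (q + 1) ^ 2 • y := by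
  subst h
  exact rel_last N q p hq hp hqp hqN A hA σ hσ y hy (hd 0) (hd 1)

variable {X : AddSubgroup (JZero Nq)} {R : Type} [CommRing R] [Module R ↥X] {p : ℕ}
  {π0 : R →+* ZMod p} {ρ : GQ →* M₂ R} {Y : Submodule R ↥X} {v : Nat.Primes} {ε : ℤ} {yv : ℕ → R}
  {c : R} {d : ℤ}

/-- the field `emb` of `MidData`. -/
theorem NewHard.emb (Hn : NewHard p π0 ρ Y v ε yv c d) (hvq : (v : ℕ) = q) (hε : ε * ε = 1)
    (h : Nq = N * q) (hp : p.Prime) (hqp : q ≠ p) (hqN : ¬ q ∣ N) (U : AddSubgroup (JZero N))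
    (hUg : ∀ g : GQ, ∀ w ∈ U, g • w ∈ U) (hUt : ∀ w ∈ U, ∃ k : ℕ, p ^ k • w = 0)
    (hinj : ∀ w ∈ U, upE h 0 w = 0 → w = 0) :
    ∀ w ∈ U, ∀ hw : upE h 0 w ∈ X, c • (⟨upE h 0 w, hw⟩ : ↥X) = 0 →
      ∀ k, dnE h k (upE h 0 w - ε • upE h 1 w) = 0 := by
  subst hvq
  intro w hwU hw hcw k
  obtain ⟨A, σ, hA, hσ, hrel⟩ := Hn.frob _ hcw
  refine dnE_embE_of_frob v.2 hqN hp hqp hε h hA hσ (hUt w hwU) ?_ k
  have hc' : upE h 0 (σ • w + (v : ℕ) • σ⁻¹ • w - (ε * (((v : ℕ) : ℤ) + 1)) • w) = 0 := by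
    rw [map_sub, map_add, map_nsmul, map_zsmul, upE_smul, upE_smul, sub_eq_zero]
    exact hrel
  exact sub_eq_zero.1 (hinj _ (U.sub_mem (U.add_mem (hUg σ w hwU)
    (U.nsmul_mem (hUg σ⁻¹ w hwU) _)) (U.zsmul_mem hwU _)) hc')

/-- the field `out` of `MidData` at the new prime. -/
theorem NewHard.out_dnE (Hn : NewHard p π0 ρ Y v ε yv c d) (hvq : (v : ℕ) = q)
    (h : Nq = N * q) (hp : p.Prime) (hqp : q ≠ p) (hqN : ¬ q ∣ N) (S : Set (JZero Nq))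
    (hSX : ∀ x ∈ S, x ∈ X) (hSt : ∀ x ∈ S, ∃ n : ℕ, p ^ n • x = 0)
    (hd : ∀ x ∈ S, ∀ c, dnE h c x = 0) : LocSt q ε S ∧ LocUnip q S := by
  subst hvq
  exact Hn.out S hSX fun x hx A hA φ hφ =>
    relLast_dnE h v.2 hp hqp hqN hA hφ x (hSt x hx) (hd x hx)

end Geo

end Fermat.Agent.ML.Hard.MidRec
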