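/-
ML / HARD / MidAsm : the FINAL GLUE of the middle block at a hard prime :  `hardMidStmt : HardMidStmt`,  `ML.stepHardStmt`.

Pieces : `Hard.midData_hard`, `Hard.hgen_hard` (helper98), `Hard.old_hard`, `Hard.old_soft`, `Hard.old_level` (helper11),
`MidRec.exists_newHard`, `NewHard.emb`, `NewHard.out_dnE` (helper79), `At2.Top2.exists_pkgTop` (helper68), `StepGen.Frame.*` (helper21),
`Raise.mid_trace` (helper60), `Hard.stepHard_of` (`ML/Hard/Asm.lean`).
-/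
import Fermat.Agent.ML.Hard.Asm
import Fermat.Agent.ML.Hard.Mid.Data
import Fermat.Agent.ML.Hard.Mid.Gen
import Fermat.Agent.ML.Hard.Mid.Old
import Fermat.Agent.ML.Hard.Mid.Out
import Fermat.Agent.ML.Hard.MidRec
import Fermat.Agent.ML.Lift.Inst.GenFrame
import Fermat.Agent.ML.Lift.Soft.MidTwo
import Fermat.Agent.ML.At2.Cell2Top

set_option autoImplicit false
set_option linter.unusedSectionVars false
set_option linter.unusedVariables false

noncomputable section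

open AlgebraicCurve ModularCurve

namespace Fermat.Agent.ML.Hard.MidAsm

open Fermat.Agent.RIB Fermat.Agent.RIB.Rho Fermat.Agent.GAL Fermat.Agent.GAL.PC Fermat.Agent.ML
  Fermat.Agent.ML.TWFree Fermat.Agent.ML.ESide Fermat.Agent.ML.Lift Fermat.Agent.S56
  Fermat.Agent.S56.Gen ExtCitation Fermat.Agent.ML.At2 Fermat.Agent.ML.FinGen
open CFT (decomp)

local notation "Qbar" => AlgebraicClosure ℚ
local notation "GQ" => (AlgebraicClosure ℚ ≃ₐ[ℚ] AlgebraicClosure ℚ)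
local notation "M₂" => Matrix (Fin 2) (Fin 2)

/-- a polynomial in `k` variables, all specialised to the same element. -/
theorem aeval_uni {A : Type*} [CommRing A] {k : ℕ} (a : A) (P2 : MvPolynomial (Fin k) ℤ) :
    Polynomial.aeval a (MvPolynomial.aeval (fun _ : Fin k => (Polynomial.X : Polynomial ℤ)) P2) =
      MvPolynomial.aeval (fun _ : Fin k => a) P2 := by
  have : ((Polynomial.aeval a : Polynomial ℤ →ₐ[ℤ] A).comp
      (MvPolynomial.aeval (fun _ : Fin k => (Polynomial.X : Polynomial ℤ)))) =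
      MvPolynomial.aeval (fun _ : Fin k => a) := by
    apply MvPolynomial.algHom_ext
    intro i
    simp
  exact DFunLike.congr_fun this P2

/-! ### the prime `2` -/

section Two

variable {W : WeierstrassCurve ℤ} {p : ℕ} [Fact p.Prime] {T : Finset ℕ}
  {b : Module.Basis (Fin 2) (ZMod p) (TorsW W p)} {L₀ : ℕ} [NeZero L₀] {eps : ℕ → ℤ}
  {eP : GQ → ℤ} (Xc : LCtx W p T b L₀ eps eP) {K : ℕ}
  {B : Module.Basis (Fin 2) (ZMod (p ^ (K + 1))) (TorsW W (p ^ (K + 1)))} {N : ℕ} [NeZero N]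
  {X : AddSubgroup (JZero N)} {R : Type} [CommRing R] [Algebra (ZMod (p ^ (K + 1))) R]
  [Module R ↥X] {πE : R →ₐ[ZMod (p ^ (K + 1))] ZMod (p ^ (K + 1))} {ρ : GQ →* M₂ R}
  {Φ : M₂ R →ₐ[R] Module.End R ↥X}
  (C : TopCtx W p b K B N X) (H : Rho.IsRhoK N (p ^ (K + 1)) X (rEB B) πE ρ Φ)

include Xc C H in
/-- **the prime `2`**, in the shapes of `mid_abs_F` / `midData_hard`. -/
theorem two_pkg [IsLocalRing R] [Finite R] (Y : Submodule R ↥X)
    (hYG : ∀ (g : GQ), ∀ y ∈ Y, ∀ y' : ↥X, (y' : JZero N) = g • (y : JZero N) → y' ∈ Y)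
    {YS : Set (JZero N)} (hYS : ∀ y ∈ Y, ((y : ↥X) : JZero N) ∈ YS) {φ2 : GQ}
    (hφ2 : (primeLocalPlace twoP).IsFrobeniusAt φ2 2) {P : Finset ℕ}
    (hPF : P ⊆ Pfin W (rbarB b) L₀)
    (hur : ¬ Ram (rbarB b) 2 → 2 ∉ P → LocUr 2 YS)
    (hunip : Ram (rbarB b) 2 ∨ 2 ∈ P → LocUnip 2 YS) (hst : 2 ∈ P → LocSt 2 (eps 2) YS)
    {f2 : ℕ} (hf2 : ¬ (p : ℤ) ^ (f2 + 1) ∣ N2val (rbarB b) P φ2) :
    ∃ (R2 : Finset Nat.Primes) (u2 b2 : R) (P12 : Polynomial ℤ) (pt2 : ℤ) (fa fb : ℕ) (be0 : R)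
      (N0 : ℤ), R2 ⊆ {twoP} ∧ (2 ∈ P → twoP ∈ R2) ∧
      (∀ v ∈ R2, PkgOne p (pi0 πE) ρ Y v u2 b2 P12 pt2 fb) ∧
      (∀ v ∈ R2, Nat.card ↥(B1loc (adRep (mapK (kM p) (rbarB b))) v) * Nat.card (kM p) ^ 1 ≤
        Nat.card (kM p) ^ 3) ∧
      be0 - (N0 : R) ∈ Y.annihilator ∧ ¬ (p : ℤ) ^ (fa + 1) ∣ N0 ∧ fa + R2.card * fb ≤ f2 ∧
      ∀ β' : R, be0 ∣ β' → (∀ v ∈ R2, b2 ∣ β') → ∀ S : Set (JZero N),
        (∀ y ∈ S, ∃ x₁ : ↥X, ((β' • x₁ : ↥X) : JZero N) = y) →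
        (2 ∈ P → LocSt 2 (eps 2) S ∧ LocUnip 2 S) ∧
        (2 ∉ P → ¬ Ram (rbarB b) 2 → LocUr 2 S) ∧ (Ram (rbarB b) 2 → LocUnip 2 S) := by
  classical
  have hp : p.Prime := Fact.out
  have h2p : (2 : ℕ) ≠ p := Ne.symm Xc.C.hp2
  have hA := liesOverPrime_primeLocalPlace twoP
  set ε : ℤ := if 2 ∈ P then eps 2 else 1 with hεdef
  have hε : ε * ε = 1 := by
    by_cases h : 2 ∈ P
    · rw [hεdef, if_pos h]
      rcases (Xc.sgn 2 Nat.prime_two h2p (Xc.dvd_of_mem_Pfin (hPF h))).1 with e | e <;>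
        rw [e] <;> norm_num
    · rw [hεdef, if_neg h]; norm_num
  have hεP : 2 ∈ P → ε = eps 2 := fun h => by rw [hεdef, if_pos h]
  have hram : 2 ∈ P → ¬ Ram (rbarB b) 2 := fun h => Xc.not_ram_of_mem_Pfin (hPF h) h2p
  obtain ⟨k2, u, dl, β2, dz, P2, hpk, hk⟩ := Top2.exists_pkgTop Xc.C C H hφ2 P ε hε
    (fun h => ⟨hram h, by
      rw [Raise.mid_trace C H Nat.prime_two h2p hε
        (by rw [hεP h]; exact locSt_EM B Xc.sgn Nat.prime_two h2p (Xc.dvd_of_mem_Pfin (hPF h)))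
        hA hφ2]
      push_cast
      ring⟩)
  have hIn : Top2.In2 (rbarB b) P ε Y :=
    Top2.In2.of_set hYG hYS hur hunip (fun h => by rw [hεP h]; exact hst h)
  have hout : ∀ β' : R, β2 ∣ β' → ∀ S : Set (JZero N),
      (∀ y ∈ S, ∃ x₁ : ↥X, ((β' • x₁ : ↥X) : JZero N) = y) →
      (2 ∈ P → LocSt 2 (eps 2) S ∧ LocUnip 2 S) ∧
      (2 ∉ P → ¬ Ram (rbarB b) 2 → LocUr 2 S) ∧ (Ram (rbarB b) 2 → LocUnip 2 S) := by
    intro β' hβ S hS
    refine ⟨fun h => ⟨?_, hpk.out_unip (Or.inr h) β' hβ S hS⟩,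
      fun h hr => hpk.out_ur hr h β' hβ S hS, fun hr => hpk.out_unip (Or.inl hr) β' hβ S hS⟩
    have := hpk.out_st h β' hβ S hS
    rwa [hεP h] at this
  have hk01 : k2 = 0 ∨ k2 = 1 := by have := hpk.k2_le; omega
  rcases hk01 with rfl | rfl
  · -- no variable
    refine ⟨∅, 0, 1, 0, 0, f2, 0, β2, N2val (rbarB b) P φ2, Finset.empty_subset _, fun h => ?_,
      fun v hv => absurd hv (Finset.notMem_empty v), fun v hv => absurd hv (Finset.notMem_empty v),
      ?_, hf2, by simp, fun β' hβ _ S hS => hout β' hβ S hS⟩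
    · exact absurd (hk.2 ⟨hram h, Or.inl h⟩) (by norm_num)
    · refine Submodule.mem_annihilator.2 fun x hx => ?_
      rw [sub_smul, hpk.val Y hIn x hx (fun j => j.elim0), Int.cast_smul_eq_zsmul, sub_self]
  · -- one variable
    have hu : u = fun _ => u 0 := funext fun j => by rw [Subsingleton.elim j 0]
    have hz : (fun j => (p : ℤ) * dz j) = fun _ => (p : ℤ) * dz 0 :=
      funext fun j => by rw [Subsingleton.elim j 0]
    refine ⟨{twoP}, u 0, β2, MvPolynomial.aeval (fun _ : Fin 1 => (Polynomial.X : Polynomial ℤ)) P2,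
      (p : ℤ) * dz 0, 0, f2, 1, 1, Finset.Subset.refl _, fun _ => Finset.mem_singleton_self _,
      fun v hv => ?_, fun v hv => ?_, ?_, ?_, by simp, fun β' _ hβ S hS =>
        hout β' (hβ twoP (Finset.mem_singleton_self _)) S hS⟩
    · obtain rfl := Finset.mem_singleton.1 hv
      refine ⟨hpk.pi0_u 0, fun I hI => hpk.strict rfl Y hIn I
        (fun j => by rw [Subsingleton.elim j 0]; exact hI), ?_, Dvd.intro _ rfl, ?_⟩
      · rw [aeval_uni, ← hu]
        exact hpk.pol Y hIn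
      · have e : Polynomial.eval ((p : ℤ) * dz 0)
            (MvPolynomial.aeval (fun _ : Fin 1 => (Polynomial.X : Polynomial ℤ)) P2) =
            N2val (rbarB b) P φ2 := by
          rw [← Polynomial.coe_aeval_eq_eval, aeval_uni, ← hz]
          exact hpk.aux
        rw [e]
        exact hf2
    · obtain rfl := Finset.mem_singleton.1 hv
      exact hpk.weight rfl
    · simp
    · intro hd
      have h1 : (p : ℤ) ∣ 1 := (dvd_pow_self (p : ℤ) (by norm_num)).trans hd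
      have h2 : p ∣ 1 := by exact_mod_cast h1
      exact hp.one_lt.ne' (Nat.dvd_one.1 h2)

end Two

/-! ### the final glue -/

/-- **the middle block at a hard prime.** -/
theorem hardMidStmt : HardMidStmt := by
  classical
  intro W p _ T b L₀ _ eps eP X t P q hP hq hqP hq2 hqp hs hpP h2P hsoft
  have hp : p.Prime := Fact.out
  have h2p : (2 : ℕ) ≠ p := Ne.symm X.C.hp2
  have hA2 := liesOverPrime_primeLocalPlace twoP
  obtain ⟨φ2, hφ2⟩ := S56.exists_isFrobeniusAt Nat.prime_two hA2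
  obtain ⟨f2, hf2⟩ := exists_not_dvd p hp (N2val (rbarB b) P φ2) (N2val_ne_zero P φ2)
  refine ⟨f2 + P.card, ?_⟩
  intro a m n K qv hF ha Lc Lc' _ _ _ hLc hL G hG hG0 B C _ R _ _ _ _ _ πE ρ Φ H Gt hGt
  have hqpr : q.Prime := X.prime_of_mem_Pfin hq
  -- the frame
  have hYG := StepGen.Frame.hYG hL hG Gt hGt
  have hGV := StepGen.Frame.hGV X hP hq hqP hq2 hF hLc hL hG
    (V := cellV p (↑(cutS T qv) : Set ℕ) W.apOfModel (lvl Lc' (extP qv) t) (K + 1))
    (fun _ => Iff.rfl)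
  have hY0 := StepGen.Frame.ne_bot X hP hq hqP hq2 hF hLc hL hG Gt hGt hG0 hGV
  have hYS : ∀ y ∈ Gt, ∃ v ∈ G, upE (lvl_mul_q hL qv) 0 v = (y : JZero (lvl Lc' (extP qv) t)) :=
    fun y hy => (hGt y).1 hy
  have hYS' : ∀ y ∈ Gt, (y : JZero (lvl Lc' (extP qv) t)) ∈
      upE (lvl_mul_q hL qv) 0 '' (G : Set (JZero (lvl Lc (extP qv) t))) := fun y hy => by
    obtain ⟨w, hw, e⟩ := hYS y hy
    exact ⟨w, hw, e⟩
  have hu : ∀ (g : GQ) v, upE (lvl_mul_q hL qv) 0 (g • v) = g • upE (lvl_mul_q hL qv) 0 v :=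
    fun g v => upE_smul _ 0 g v
  have hLc' : Lc' = cellLevel L₀ (insert q P) := by
    rw [hL, hLc, Lift.cellLevel_insert L₀ hqP hq2]
  have hnotT := Mid.frame_notT X hF
  have hP' : insert q P ⊆ Pfin W (rbarB b) L₀ := Finset.insert_subset hq hP
  have hqN := StepGen.Frame.hqN X hP hq hqP hq2 hF hLc (qv := qv)
  have hneP : ∀ v ∈ P, v ≠ p := fun v hv e => hpP (e ▸ hv)
  have hT : ∀ v ∈ Pfin W (rbarB b) L₀, v ∈ T := fun v hv => X.mem_T_of_mem_Pfin hv
  have h2T : 2 ∈ T := by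
    refine mem_T_of_dvd_cellLevel X hP Nat.prime_two (Dvd.dvd.mul_right ?_ p)
    exact (by norm_num : 2 ∣ 4).trans (four_dvd_cellLevel X P)
  -- the old primes
  set Hs : Finset Nat.Primes :=
    (toP P).filter (fun v => (v : ℕ) ≠ 2 ∧ FrobScalar (rbarB b) (v : ℕ)) with hHs
  set Ro : Finset Nat.Primes :=
    (toP P).filter (fun v => (v : ℕ) ≠ 2 ∧ ¬ FrobScalar (rbarB b) (v : ℕ)) with hRo
  have memHs : ∀ v, v ∈ Hs ↔ (v : ℕ) ∈ P ∧ (v : ℕ) ≠ 2 ∧ FrobScalar (rbarB b) (v : ℕ) := fun v => by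
    rw [hHs, Finset.mem_filter, mem_toP']
  have memRo : ∀ v, v ∈ Ro ↔ (v : ℕ) ∈ P ∧ (v : ℕ) ≠ 2 ∧ ¬ FrobScalar (rbarB b) (v : ℕ) :=
    fun v => by rw [hRo, Finset.mem_filter, mem_toP']
  have hH : ∀ v ∈ Hs, ∃ (x : Fin 6 → R) (D : ℤ), PkgHard p (pi0 πE) ρ Gt v x D ∧
      Nat.card ↥(B1loc (adRep (mapK (kM p) (rbarB b))) v) * Nat.card (kM p) ^ 3 ≤
        Nat.card (kM p) ^ 3 ∧
      OutAt (cellV p (↑(cutS T qv) : Set ℕ) W.apOfModel (lvl Lc' (extP qv) t) (K + 1)) (v : ℕ)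
        (eps (v : ℕ)) (x 0) := by
    intro v hv
    obtain ⟨hvP, hv2, hvs⟩ := (memHs v).1 hv
    obtain ⟨⟨M, hM, hvM, h49⟩, -⟩ := old_level X hP' hnotT (Finset.mem_insert_of_mem hvP) hv2 hLc'
    obtain ⟨x, D, h1, h2, h3, h4, h5⟩ := old_hard X C H hG _ hu Gt hYG hYS v hvP (hP hvP)
      (hneP _ hvP) hvs hM hvM h49
    exact ⟨x, D, ⟨h1, h2, h3⟩, h4, h5⟩
  choose! xv Dv hxv using hH
  have hS : ∀ v ∈ Ro, ∃ bv : R, PkgOne p (pi0 πE) ρ Gt v bv bv Polynomial.X (p : ℤ) 1 ∧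
      Nat.card ↥(B1loc (adRep (mapK (kM p) (rbarB b))) v) * Nat.card (kM p) ^ 1 ≤
        Nat.card (kM p) ^ 3 ∧
      OutAt (cellV p (↑(cutS T qv) : Set ℕ) W.apOfModel (lvl Lc' (extP qv) t) (K + 1)) (v : ℕ)
        (eps (v : ℕ)) bv := by
    intro v hv
    obtain ⟨hvP, hv2, hvs⟩ := (memRo v).1 hv
    obtain ⟨-, hsq⟩ := old_level X hP' hnotT (Finset.mem_insert_of_mem hvP) hv2 hLc'
    obtain ⟨bv, h1, h2, h3, h4⟩ := old_soft X C H hG _ hu Gt hYG hYS v hvP (hP hvP)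
      (hneP _ hvP) (frobNonScalar_of_not v.2 (X.not_ram_of_mem_Pfin (hP hvP) (hneP _ hvP)) hvs) hsq
    refine ⟨bv, ⟨h1, h2, ?_, dvd_rfl, ?_⟩, h3, h4⟩
    · rw [Polynomial.aeval_X, sub_self]
      exact Submodule.zero_mem _
    · rw [Polynomial.eval_X]
      have := mid_not_pow_succ_dvd hp 1
      rwa [pow_one] at this
  choose! bv hbv using hS
  -- the prime 2
  obtain ⟨R2, u2, b2, P12, pt2, fa, fb, be0, N0, hR2, h2R2, hpk2, hw2, hbe0, hN0, hfab, hout2⟩ :=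
    two_pkg X C H Gt hYG hYS' hφ2 hP
      (fun hr h2 => (hG.ur 2 Nat.prime_two h2T h2 h2p hr).image _ hu)
      (fun h => by
        rcases h with h | h
        · exact (hG.unip 2 Nat.prime_two h2p h).image _ hu
        · exact (hG.st 2 h h2p).2.image _ hu)
      (fun h => (hG.st 2 h h2p).1.image _ hu) hf2
  have hR2' : ∀ v ∈ R2, v = twoP := fun v hv => Finset.mem_singleton.1 (hR2 hv)
  -- the new prime
  obtain ⟨⟨Mq, hMq, hqMq, h49q⟩, -⟩ :=
    old_level X hP' hnotT (Finset.mem_insert_self q P) hq2 hLc'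
  have Dq : HardAt b (lvl Lc' (extP qv) t) q (eps q) := hardAt_of X hq hqp hs hMq hqMq h49q
  obtain ⟨yv, c, Hn⟩ := MidRec.exists_newHard X C H Gt hYG hYS' ⟨q, hqpr⟩ hq hqp hs hMq hqMq h49q
    ((hG.ur q hqpr (hT q hq) hqP hqp (X.not_ram_of_mem_Pfin hq hqp)).image _ hu)
  -- the data of `midData_hard`
  set R1 : Finset Nat.Primes := R2 ∪ Ro with hR1
  have hdisj2 : Disjoint R2 Ro := Finset.disjoint_left.2 fun v h1 h2 =>
    ((memRo v).1 h2).2.1 (by rw [hR2' v h1])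
  have hpk1 : ∀ v ∈ R1, PkgOne p (pi0 πE) ρ Gt v (if v = twoP then u2 else bv v)
      (if v = twoP then b2 else bv v) (if v = twoP then P12 else Polynomial.X)
      (if v = twoP then pt2 else (p : ℤ)) (if v = twoP then fb else 1) := by
    intro v hv
    rcases Finset.mem_union.1 hv with hv | hv
    · have e := hR2' v hv
      simp only [if_pos e]
      exact hpk2 v hv
    · have e : v ≠ twoP := fun e => ((memRo v).1 hv).2.1 (by rw [e])
      simp only [if_neg e]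
      exact (hbv v hv).1
  have hAq := liesOverPrime_primeLocalPlace (⟨q, hqpr⟩ : Nat.Primes)
  obtain ⟨φq, hφq⟩ := S56.exists_isFrobeniusAt hqpr hAq
  have hgen := hgen_hard X C H hG _ hu hF.gen (StepGen.Frame.hlev X hP hq hqP hq2 hF hLc hL)
    (fun v hv h0 => StepGen.Frame.hinj X hP hq hqP hq2 hF hLc hL v (hG.le hv) h0)
    (hF.hK.trans (Nat.le_succ K)) (StepGen.Frame.hp X hP hF hLc hpP) Gt hYG hY0 hYS R1 Hs
    ⟨q, hqpr⟩
    (Finset.disjoint_left.2 fun v h1 h2 => by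
      rcases Finset.mem_union.1 h1 with h1 | h1
      · exact ((memHs v).1 h2).2.1 (by rw [hR2' v h1])
      · exact ((memRo v).1 h1).2.2 ((memHs v).1 h2).2.2)
    (fun h1 => by
      rcases Finset.mem_union.1 h1 with h1 | h1
      · exact hq2 (congrArg Subtype.val (hR2' _ h1))
      · exact hqP ((memRo _).1 h1).1)
    (fun h1 => hqP ((memHs _).1 h1).1)
    (fun v h1 => by
      rcases Finset.mem_union.1 h1 with h1 | h1
      · rw [hR2' v h1]; exact mem_toP'.2 h2T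
      · exact mem_toP'.2 (hT _ (hP ((memRo v).1 h1).1)))
    (fun v h1 => mem_toP'.2 (hT _ (hP ((memHs v).1 h1).1)))
    (mem_toP'.2 (hT q hq))
    (fun h1 => by
      rcases Finset.mem_union.1 h1 with h1 | h1
      · exact h2p (congrArg Subtype.val (hR2' _ h1)).symm
      · exact hpP ((memRo _).1 h1).1)
    (fun h1 => hpP ((memHs _).1 h1).1)
    (fun e => hqp (congrArg Subtype.val e).symm)
    (fun v _ h1 h2 _ hvP => by
      exfalso
      by_cases hv2 : (v : ℕ) = 2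
      · have e : v = twoP := Subtype.ext hv2
        exact h1 (Finset.mem_union_left _ (e ▸ h2R2 (hv2 ▸ hvP)))
      · by_cases hvs : FrobScalar (rbarB b) (v : ℕ)
        · exact h2 ((memHs v).2 ⟨hvP, hv2, hvs⟩)
        · exact h1 (Finset.mem_union_right _ ((memRo v).2 ⟨hvP, hv2, hvs⟩)))
    (fun v h1 => by
      rcases Finset.mem_union.1 h1 with h1 | h1
      · exact hw2 v h1
      · exact (hbv v h1).2.1)
    (fun v h1 => (hxv v h1).2.1)
    (X.C.weight_three ⟨q, hqpr⟩ (fun σ hσ => Dq.ur _ hAq σ hσ) hφq (Dq.sc _ hAq φq hφq))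
    (fun v => if v = twoP then u2 else bv v) (fun v h1 => (hpk1 v h1).strict) xv
    (fun v h1 => (hxv v h1).1.strict) (fun j : Fin 3 => yv (j : ℕ))
    (fun I hI => Hn.strict I fun j hj => hI ⟨j, hj⟩)
  obtain ⟨σ, iσ, val, pt, Pc, Pβ, hM⟩ := midData_hard (rbar0 := rbarB b) (eps := eps) (P := P)
    (q := q) (t := t) (h := lvl_mul_q hL qv)
    (U := cellU p (↑(cutS T qv) : Set ℕ) W.apOfModel (lvl Lc (extP qv) t) qv a)
    (U' := cellK p (↑(cutS T qv) : Set ℕ) W.apOfModel qv a (lvl_mul_q hL qv))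
    Gt R1 Hs _ _ _ _ _ hpk1 xv Dv (fun v h1 => (hxv v h1).1) be0 N0 fa hbe0 hN0
    (fun j : Fin 3 => yv (j : ℕ)) (fun j => Hn.pi0 _) hgen c (((q : ℕ) : ℤ) - 1)
    (by
      have e : c - (yv 1 * (yv 1 - ((((q : ℕ) : ℤ) - 1 : ℤ) : R)) - yv 0 * yv 2) = 0 :=
        sub_eq_zero.2 Hn.hc
      exact e ▸ Submodule.zero_mem _)
    (eps q)
    (Hn.emb rfl Dq.sgn (lvl_mul_q hL qv) hp hqp hqN _ (fun g w hw => smul_mem_cellU g hw)
      (fun w hw => ⟨a, (mem_cellU.1 hw).2.1⟩)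
      (fun w hw h0 => StepGen.Frame.hinj X hP hq hqP hq2 hF hLc hL w (mem_cellU.1 hw).1 h0))
    (fun q' hq' _ => by
      by_cases h2 : q' = 2
      · exact Or.inl h2
      · have hpr : q'.Prime := X.prime_of_mem_Pfin (hP hq')
        by_cases hvs : FrobScalar (rbarB b) q'
        · exact Or.inr (Or.inl ⟨⟨q', hpr⟩, (memHs _).2 ⟨hq', h2, hvs⟩, rfl⟩)
        · exact Or.inr (Or.inr ⟨⟨q', hpr⟩,
            Finset.mem_union_right _ ((memRo _).2 ⟨hq', h2, hvs⟩), rfl⟩))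
    (fun S hS => Hn.out_dnE rfl (lvl_mul_q hL qv) hp hqp hqN S
      (fun x hx => cellV_mono (hF.hK.trans (Nat.le_succ K)) (mem_cellK.1 (hS hx)).1.1)
      (fun x hx => ⟨a, (mem_cellU.1 (mem_cellK.1 (hS hx)).1).2.1⟩)
      (fun x hx => (mem_cellK.1 (hS hx)).2))
    (fun v h1 => (hxv v h1).2.2)
    (fun v h1 hv2 => by
      rcases Finset.mem_union.1 h1 with h1 | h1
      · exact absurd (by rw [hR2' v h1]) hv2
      · have e : v ≠ twoP := fun e => hv2 (by rw [e])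
        simp only [if_neg e]
        exact (hbv v h1).2.2)
    (fun β' h0 h1 S hS => hout2 β' h0 (fun v hv => by
      have e := hR2' v hv
      have := h1 v (Finset.mem_union_left _ hv) (by rw [e])
      simpa only [if_pos e] using this) S hS)
    (f2 + P.card)
    (by
      have e1 : ∑ v ∈ R1, (if v = twoP then fb else 1) = R2.card * fb + Ro.card := by
        rw [hR1, Finset.sum_union hdisj2,
          Finset.sum_congr rfl (fun v hv => if_pos (hR2' v hv)),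
          Finset.sum_congr rfl (fun v hv => if_neg (fun e : v = twoP =>
            ((memRo v).1 hv).2.1 (by rw [e])))]
        simp
      have e2 : Hs.card + Ro.card ≤ P.card := by
        have hd : Disjoint Hs Ro := Finset.disjoint_left.2 fun v h1 h2 =>
          ((memRo v).1 h2).2.2 ((memHs v).1 h1).2.2
        rw [← Finset.card_union_of_disjoint hd]
        refine (Finset.card_le_card (Finset.union_subset (Finset.filter_subset _ _)
          (Finset.filter_subset _ _))).trans ?_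
        exact (Finset.card_subtype Nat.Prime P).trans_le (Finset.card_filter_le _ _)
      rw [e1]
      omega)
  exact ⟨eps q, ↥Hs, σ, inferInstance, iσ, fun r => Dv r, val, pt, c, _, Pc, Pβ, hM⟩

end Fermat.Agent.ML.Hard.MidAsm

namespace Fermat.Agent.ML

/-- **the hard step.** -/
theorem stepHardStmt (hLow : LowerStmt) : StepHardStmt :=
  Hard.stepHard_of hLow Hard.MidAsm.hardMidStmt

end Fermat.Agent.ML
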