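import Fermat.Agent.RIB.Key.Cor
import Fermat.Agent.SS.Top35.CompatF

/-!
# ML / Hard / RelGeo : [REL-H-GEO]  `Frob_q = - q w_q` on `(τ - 1) J₀(L)[p^∞]`,  `q ‖ L`, `L / q` rigid

Geometric input of REL-H (board #2681 (d)) and of `RelAt (b)` (board #2721).

* `frob_tau_sub_rigid` : level `M * q`, `M` rigid (`4 ∣ M` or `9 ∣ M`), `q ∤ M`, `p ≠ q`, `σ` a Frobenius lift at `A ∣ q`, `τ ∈ I_A`,
  `x` of `p`-power order:  `σ (τ x - x) + q w_q (τ x - x) = 0`   (`(τ - 1) x` is toric, `Frob = - q w_q` on toric classes).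
* `exists_w_frob_tau_sub` : the same, the level `L = L' * q` is a variable; `w` is an involution of `J₀(L)` commuting with `G_ℚ` and
  preserving every `θ`-part; ONE `w` for all `A`, `σ`, `τ`, `x`.
* `frob_tau_sub_sign` : the sign.  If no `y ≠ 0` of `W(L) = thetaPart[p]` satisfies `σ y = - ε q y`  (e.g. `σ - ε` nilpotent on `W(L)` and
  `q ≢ -1 mod p`), then `σ (τ x - x) = ε q (τ x - x)` for all `x` of the `θ`-part.
-/

set_option autoImplicit false
set_option linter.style.haveILetI false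
set_option linter.unusedSectionVars false
set_option synthInstance.maxHeartbeats 400000

noncomputable section

open AlgebraicCurve ModularCurve IsLocalRing

namespace Fermat.Agent.ML.Hard

open Fermat.Agent.RED hiding Kb
open Fermat.Agent.S24 Fermat.Agent.SS Fermat.Agent.RIB
open Fermat.Agent.GAL Fermat.Agent.GAL.PC Fermat.Agent.S40

local notation "Qbar" => AlgebraicClosure ℚ
local notation "GQ" => (AlgebraicClosure ℚ ≃ₐ[ℚ] AlgebraicClosure ℚ)

/-- **[REL-H-GEO]**, rigid level `M * q`. -/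
theorem frob_tau_sub_rigid {M q p : ℕ} [NeZero M] [hq : Fact q.Prime] (hqM : ¬ q ∣ M)
    (h49 : 4 ∣ M ∨ 9 ∣ M) (hp : p.Prime) (hpq : p ≠ q) (A : ValuationSubring Qbar)
    (hA : A.LiesOverPrime q) {σ : GQ} (hσ : A.IsFrobeniusAt σ q) {τ : GQ}
    (hτ : τ ∈ A.inertiaSubgroupIn ℚ) (e : ℕ) (x : JZero (M * q)) (hx : p ^ e • x = 0) :
    σ • (τ • x - x) + q • (swAut hqM • (τ • x - x)) = 0 := by
  haveI : IsAlgClosed (ResidueField A) := GalEq.isAlgClosed_residueField A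
  haveI : CharP (ResidueField A) q := GalEq.charP_residueField hq.out hA
  obtain ⟨𝒩, hI, -⟩ := exists_nodalData_compat hqM A h49 hA
  have ht := isToric_smul_sub 𝒩 (RB.isSepParam_jF (M * q)) (pow_ne_zero e hp.ne_zero) (hI τ hτ)
    (y := x) hx
  exact frob_smul_of_isToric hqM A h49 hA hp hpq e hσ ht

/-- **[REL-H-GEO]**, the level is a variable; one `w` for all `A`, `σ`, `τ`, `x`. -/
theorem exists_w_frob_tau_sub {L L' q p : ℕ} [NeZero L] [NeZero L'] [Fact q.Prime]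
    (hL : L = L' * q) (hqL : ¬ q ∣ L') (h49 : 4 ∣ L' ∨ 9 ∣ L') (hp : p.Prime) (hpq : p ≠ q) :
    ∃ w : JZero L →+ JZero L, (∀ x, w (w x) = x) ∧ (∀ (g : GQ) x, w (g • x) = g • w x) ∧
      (∀ (S : Set ℕ) (θ : ℕ → ℤ), (∀ ℓ : ℕ, ℓ.Prime → ℓ ∉ S → ¬ ℓ ∣ L * p) →
        ∀ x ∈ thetaPart L p S θ, w x ∈ thetaPart L p S θ) ∧
      ∀ A : ValuationSubring Qbar, A.LiesOverPrime q → ∀ σ : GQ, A.IsFrobeniusAt σ q →
        ∀ τ ∈ A.inertiaSubgroupIn ℚ, ∀ x : JZero L, (∃ e : ℕ, p ^ e • x = 0) →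
          σ • (τ • x - x) + q • w (τ • x - x) = 0 := by
  subst hL
  set w : JZero (L' * q) →+ JZero (L' * q) :=
    DistribSMul.toAddMonoidHom (JZero (L' * q)) (swAut hqL) with hw
  have hwg : ∀ (g : GQ) x, w (g • x) = g • w x := fun g x => (gal_smul_swAut_smul hqL g x).symm
  refine ⟨w, fun x => swAut_smul_swAut_smul hqL x, hwg, fun S θ hS x hx => ?_, ?_⟩
  · exact map_mem_thetaPart_of_equivariant w hwg (fun r hr hrS => ⟨hS r hr hrS, hS r hr hrS⟩) hx
  · rintro A hA σ hσ τ hτ x ⟨e, he⟩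
    exact frob_tau_sub_rigid hqL h49 hp hpq A hA hσ hτ e x he

section Sign

variable {L p : ℕ} [NeZero L] {S : Set ℕ} {θ : ℕ → ℤ}

theorem galJ_zsmul (σ : GQ) (c : ℤ) (z : JZero L) : σ • (c • z) = c • (σ • z) :=
  map_zsmul (DistribSMul.toAddMonoidHom (JZero L) σ) c z

/-- an additive relation `E y = 0` (`E` additive) which has no solution `≠ 0` in `W(L)` has none in the `θ`-part. -/
theorem eq_zero_of_WS (E : JZero L →+ JZero L)
    (h0 : ∀ y ∈ WS L p S θ, E y = 0 → y = 0) {y : JZero L} (hy : y ∈ thetaPart L p S θ)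
    (h : E y = 0) : y = 0 := by
  obtain ⟨n, hn⟩ := hy.1
  induction n generalizing y with
  | zero => simpa using hn
  | succ n ih =>
    have h1 : p • y ∈ thetaPart L p S θ := (thetaPart L p S θ).nsmul_mem hy p
    have h2 : p • y = 0 := by
      refine ih h1 (by rw [map_nsmul, h, smul_zero]) ?_
      rw [← mul_nsmul', ← pow_succ]
      exact hn
    exact h0 y ⟨hy, h2⟩ h

/-- **the sign** (abstract in `w`). -/
theorem frob_eq_of_sign (w : JZero L →+ JZero L) (hww : ∀ x, w (w x) = x) (σ : GQ)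
    (hwσ : ∀ x, w (σ • x) = σ • w x)
    (hwθ : ∀ x ∈ thetaPart L p S θ, w x ∈ thetaPart L p S θ) (q : ℕ) (ε : ℤ)
    (hε : ε = 1 ∨ ε = -1)
    (hsign : ∀ y ∈ WS L p S θ, σ • y + (ε * q) • y = 0 → y = 0)
    {y : JZero L} (hy : y ∈ thetaPart L p S θ) (h : σ • y + q • w y = 0) :
    w y = -(ε • y) ∧ σ • y = (ε * q) • y := by
  have hεε : ε * ε = 1 := by rcases hε with rfl | rfl <;> norm_num
  set E : JZero L →+ JZero L :=
    DistribSMul.toAddMonoidHom (JZero L) σ + (ε * q) • AddMonoidHom.id (JZero L) with hE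
  have hEapp : ∀ z, E z = σ • z + (ε * q) • z := fun z => rfl
  have hσy : σ • y = -((q : ℤ) • w y) := by
    rw [natCast_zsmul]
    exact eq_neg_of_add_eq_zero_left h
  have h1 : w y + ε • y ∈ thetaPart L p S θ :=
    (thetaPart L p S θ).add_mem (hwθ y hy) ((thetaPart L p S θ).zsmul_mem hy ε)
  have e1 : σ • w y = -((q : ℤ) • y) := by
    rw [← hwσ, hσy, map_neg, map_zsmul, hww]
  have e2 : σ • (ε • y) = -((ε * q) • w y) := by
    rw [galJ_zsmul, hσy, zsmul_neg, mul_zsmul]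
  have e3 : (ε * q) • (ε • y) = (q : ℤ) • y := by
    rw [← mul_zsmul, mul_right_comm, hεε, one_mul]
  have h2 : E (w y + ε • y) = 0 := by
    rw [hEapp, smul_add, e1, e2, zsmul_add, e3]
    abel
  have h3 : w y + ε • y = 0 :=
    eq_zero_of_WS E (fun z hz hEz => hsign z hz (by rw [← hEapp]; exact hEz)) h1 h2
  have h4 : w y = -(ε • y) := eq_neg_of_add_eq_zero_left h3
  refine ⟨h4, ?_⟩
  rw [hσy, h4, zsmul_neg, neg_neg, ← mul_zsmul, mul_comm]

/-- a criterion for `hsign` : `σ - ε` is nilpotent on `W(L)` and `q ≢ -1 mod p`. -/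
theorem sign_of_nil (hp : p.Prime) (σ : GQ) (q : ℕ) (ε : ℤ) (hε : ε = 1 ∨ ε = -1)
    (hq : ¬ p ∣ q + 1)
    (hnil : ∀ y ∈ WS L p S θ, ∃ n : ℕ, (fun z : JZero L => σ • z - ε • z)^[n] y = 0) :
    ∀ y ∈ WS L p S θ, σ • y + (ε * q) • y = 0 → y = 0 := by
  intro y hy h
  obtain ⟨n, hn⟩ := hnil y hy
  have hσy : σ • y = -((ε * q) • y) := eq_neg_of_add_eq_zero_left h
  have h1 : ∀ c : ℤ, σ • (c • y) - ε • (c • y) = (c * (-(ε * (q + 1)))) • y := by
    intro c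
    rw [galJ_zsmul, hσy, zsmul_neg, ← mul_zsmul, ← mul_zsmul, ← neg_zsmul, sub_eq_add_neg,
      ← neg_zsmul, ← add_zsmul]
    congr 1
    ring
  have h2 : ∀ m : ℕ, (fun z : JZero L => σ • z - ε • z)^[m] y = ((-(ε * (q + 1))) ^ m) • y := by
    intro m
    induction m with
    | zero => simp
    | succ m ih =>
      rw [Function.iterate_succ_apply', ih, pow_succ]
      exact h1 _
  rw [h2] at hn
  have hcop : IsCoprime ((-(ε * ((q : ℤ) + 1))) ^ n) (p : ℤ) := by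
    refine IsCoprime.pow_left ?_
    refine ((Nat.prime_iff_prime_int.1 hp).coprime_iff_not_dvd.2 ?_).symm
    intro hd
    apply hq
    have h3 : (p : ℤ) ∣ (q : ℤ) + 1 := by
      rcases hε with rfl | rfl
      · rw [one_mul, dvd_neg] at hd
        exact hd
      · rw [neg_one_mul, neg_neg] at hd
        exact hd
    exact_mod_cast h3
  obtain ⟨a, b, hab⟩ := hcop
  have hpy : (p : ℤ) • y = 0 := by rw [natCast_zsmul]; exact hy.2
  calc y = (1 : ℤ) • y := (one_zsmul _).symm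
    _ = (a * (-(ε * ((q : ℤ) + 1))) ^ n + b * p) • y := by rw [hab]
    _ = 0 := by rw [add_zsmul, mul_zsmul, mul_zsmul, hn, hpy, zsmul_zero, zsmul_zero, add_zero]

end Sign

/-- **[REL-H-GEO] on the `θ`-part, with the sign** : `σ = ε q` on `(τ - 1) thetaPart`. -/
theorem frob_tau_sub_sign {L L' q p : ℕ} [NeZero L] [NeZero L'] [Fact q.Prime]
    (hL : L = L' * q) (hqL : ¬ q ∣ L') (h49 : 4 ∣ L' ∨ 9 ∣ L') (hp : p.Prime) (hpq : p ≠ q)
    (S : Set ℕ) (θ : ℕ → ℤ) (hS : ∀ ℓ : ℕ, ℓ.Prime → ℓ ∉ S → ¬ ℓ ∣ L * p)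
    (A : ValuationSubring Qbar) (hA : A.LiesOverPrime q) {σ : GQ} (hσ : A.IsFrobeniusAt σ q)
    (ε : ℤ) (hε : ε = 1 ∨ ε = -1)
    (hsign : ∀ y ∈ WS L p S θ, σ • y + (ε * q) • y = 0 → y = 0)
    {τ : GQ} (hτ : τ ∈ A.inertiaSubgroupIn ℚ) {x : JZero L} (hx : x ∈ thetaPart L p S θ) :
    σ • (τ • x - x) = (ε * q) • (τ • x - x) := by
  obtain ⟨w, hww, hwg, hwθ, hk⟩ := exists_w_frob_tau_sub hL hqL h49 hp hpq
  exact (frob_eq_of_sign w hww σ (hwg σ) (hwθ S θ hS) q ε hε hsign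
    ((thetaPart L p S θ).sub_mem (smul_mem_thetaPart τ hx) hx) (hk A hA σ hσ τ hτ x hx.1)).2

end Fermat.Agent.ML.Hard
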