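import Fermat.Agent.ML.Hard.Defs
import Fermat.Agent.ML.Raise.Semi

/-!
# ML / Hard / RelH : **[REL-H]** (H6) the scroll relations at a HARD raising prime   (pure matrix algebra, any commutative ring)

`Sg = ρ(Φ)`, `N = ρ(τ) - 1`, `det Sg = q`, `ε² = 1`, `G = ε Sg - 1`, `d = q - 1`.
`locVar Sg N ε = (x0, x1, x2, y0, y1, y2)` with `N = [[-x1, x0], [-x2, x1]]`, `G = [[d - y1, y0], [-y2, y1]]`.

* `scroll_locVar`   : `tr N = 0`, `N² = 0`, `N (Sg - ε) = 0`, `tr Sg = ε (q + 1)` ⟹ `Scroll (locVar Sg N ε) (q - 1)`.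
* `scroll_of_st2`   : the same from the inputs which are on main: `(Sg² - q²) N = 0` (`ML.st2` + TRANSFER), the tame relation
  `Sg N = q N Sg`, `c' = tr Sg + ε (q + 1)` a unit, `c = tr Sg - ε (q + 1) = 0`.
* `c_mul_locVar`    : without `c = 0` : `c * x_i = 0` (`i < 3`).
* `N_eq`, `G_eq`    : the matrices in terms of the six variables.
* `N_map_eq_zero`, `Sg_map_eq` : modulo an ideal containing the six variables and `q - 1`, `ρ(τ) = 1` and `ρ(Φ) = ε` (scalar):
  the hypothesis of (GEN-H).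
* `trace_N_eq_zero`, `N_mul_N` : `det ρ(τ) = 1`, `tr ρ(τ) = 2` ⟹ `tr N = 0`, `N² = 0`.
-/

set_option autoImplicit false

namespace Fermat.Agent.ML.Hard

open Matrix

local notation "M₂" => Matrix (Fin 2) (Fin 2)

variable {R : Type*} [CommRing R]

/-- the six local variables `(x0, x1, x2, y0, y1, y2)` at a hard prime. -/
def locVar (Sg N : M₂ R) (ε : R) : Fin 6 → R :=
  ![N 0 1, N 1 1, -N 1 0, ε * Sg 0 1, ε * Sg 1 1 - 1, -(ε * Sg 1 0)]

variable (Sg N : M₂ R) (q ε : R)

theorem N_eq (htr : N.trace = 0) :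
    N = !![-locVar Sg N ε 1, locVar Sg N ε 0; -locVar Sg N ε 2, locVar Sg N ε 1] := by
  rw [Matrix.trace_fin_two] at htr
  ext i j
  fin_cases i <;> fin_cases j <;> simp [locVar]
  linear_combination htr

theorem G_eq (hε : ε * ε = 1) (hc : Sg.trace = ε * (q + 1)) :
    ε • Sg - 1 = !![(q - 1) - locVar Sg N ε 4, locVar Sg N ε 3; -locVar Sg N ε 5, locVar Sg N ε 4] := by
  rw [Matrix.trace_fin_two] at hc
  ext i j
  fin_cases i <;> fin_cases j <;> simp [locVar]
  linear_combination ε * hc + (q + 1) * hε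

/-- **[REL-H]** -/
theorem scroll_locVar (hε : ε * ε = 1) (hdet : Sg.det = q) (htr : N.trace = 0) (hN : N * N = 0)
    (hNG : N * (Sg - ε • (1 : M₂ R)) = 0) (hc : Sg.trace = ε * (q + 1)) :
    Scroll (locVar Sg N ε) (q - 1) := by
  rw [Matrix.trace_fin_two] at htr hc
  rw [Matrix.det_fin_two] at hdet
  have n00 := congrFun (congrFun hN 0) 0
  have g00 := congrFun (congrFun hNG 0) 0
  have g01 := congrFun (congrFun hNG 0) 1
  have g10 := congrFun (congrFun hNG 1) 0
  have g11 := congrFun (congrFun hNG 1) 1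
  simp only [Matrix.mul_apply, Fin.sum_univ_two, Matrix.sub_apply, Matrix.smul_apply, Matrix.one_apply_eq,
    Matrix.zero_apply, smul_eq_mul, mul_one, ne_eq, zero_ne_one, one_ne_zero, not_false_eq_true,
    Matrix.one_apply_ne, mul_zero, sub_zero] at n00 g00 g01 g10 g11
  have ha : N 0 0 = -N 1 1 := by linear_combination htr
  rw [ha] at n00 g00 g01
  have hs : Sg 0 0 = ε * (q + 1) - Sg 1 1 := by linear_combination hc
  rw [hs] at g00 g10 hdet
  constructor <;> simp only [locVar, Matrix.cons_val_zero, Matrix.cons_val_one, Matrix.cons_val]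
  · linear_combination n00
  · linear_combination (-ε) * g01 - N 0 1 * hε
  · linear_combination (ε) * g00 + N 1 1 * q * hε
  · linear_combination (-ε) * g11 + ε * g00 + (q - 1) * N 1 1 * hε
  · linear_combination (ε) * g10 - N 1 0 * q * hε
  · linear_combination (-(ε * ε)) * hdet + ((q + 1) * ε * Sg 1 1 - q) * hε

/-- **[REL-H]** from the inputs which are on main. -/
theorem scroll_of_st2 (hε : ε * ε = 1) (hdet : Sg.det = q) (hq : IsUnit q)
    (hc' : IsUnit (Sg.trace + ε * (q + 1)))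
    (hst : (Sg * Sg - (q * q) • (1 : M₂ R)) * N = 0) (htame : Sg * N = q • (N * Sg))
    (htr : N.trace = 0) (hN : N * N = 0) (hc : Sg.trace - ε * (q + 1) = 0) :
    Scroll (locVar Sg N ε) (q - 1) :=
  scroll_locVar Sg N q ε hε hdet htr hN
    (Raise.mul_sub_eq_zero Sg N q ε hε hdet hq hc' hst htame) (sub_eq_zero.1 hc)

/-- `c x_i = 0`, without assuming `c = 0`. -/
theorem c_mul_locVar (hε : ε * ε = 1) (hdet : Sg.det = q) (hq : IsUnit q)
    (hc' : IsUnit (Sg.trace + ε * (q + 1)))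
    (hst : (Sg * Sg - (q * q) • (1 : M₂ R)) * N = 0) (i : Fin 6) (hi : (i : ℕ) < 3) :
    (Sg.trace - ε * (q + 1)) * locVar Sg N ε i = 0 := by
  have h := Raise.c_smul_eq_zero Sg N q ε hε hdet hq hc' hst
  have h01 := congrFun (congrFun h 0) 1
  have h11 := congrFun (congrFun h 1) 1
  have h10 := congrFun (congrFun h 1) 0
  simp only [Matrix.smul_apply, smul_eq_mul, Matrix.zero_apply] at h01 h11 h10
  fin_cases i
  · simpa [locVar] using h01
  · simpa [locVar] using h11
  · simpa [locVar] using h10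
  · simp at hi
  · simp at hi
  · simp at hi

/-- `det ρ(τ) = 1`, `tr ρ(τ) = 2` : `tr N = 0`. -/
theorem trace_N_eq_zero (Tu : M₂ R) (htr : Tu.trace = 2) : (Tu - 1).trace = 0 := by
  rw [Matrix.trace_sub, htr, Matrix.trace_one]
  simp

/-- `det ρ(τ) = 1`, `tr ρ(τ) = 2` : `N² = 0`. -/
theorem N_mul_N (Tu : M₂ R) (htr : Tu.trace = 2) (hdet : Tu.det = 1) : (Tu - 1) * (Tu - 1) = 0 := by
  have h := Raise.cayley_two Tu
  rw [htr, hdet, one_smul] at h
  rw [sub_mul, mul_sub, mul_sub, h, mul_one, one_mul, one_mul, two_smul]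
  abel

section Quot

variable {S : Type*} [CommRing S] (φ : R →+* S)

/-- modulo the six variables, `ρ(τ) = 1`. -/
theorem N_map_eq_zero (htr : N.trace = 0) (h : ∀ i, φ (locVar Sg N ε i) = 0) : N.map φ = 0 := by
  have h0 := h 0
  have h1 := h 1
  have h2 := h 2
  simp only [locVar, Matrix.cons_val_zero, Matrix.cons_val_one, Matrix.cons_val, map_neg, neg_eq_zero] at h0 h1 h2
  rw [Matrix.trace_fin_two] at htr
  have h00 : φ (N 0 0) = 0 := by
    have : N 0 0 = -N 1 1 := by linear_combination htr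
    rw [this, map_neg, h1, neg_zero]
  ext i j
  fin_cases i <;> fin_cases j <;> simp [h0, h1, h2, h00]

/-- modulo the six variables and `q - 1`, `ρ(Φ) = ε`. -/
theorem Sg_map_eq (hε : ε * ε = 1) (hc : Sg.trace = ε * (q + 1)) (hq : φ q = 1)
    (h : ∀ i, φ (locVar Sg N ε i) = 0) : Sg.map φ = φ ε • (1 : M₂ S) := by
  have h3 := h 3
  have h4 := h 4
  have h5 := h 5
  simp only [locVar, Matrix.cons_val, map_neg, neg_eq_zero, map_mul,
    map_sub, map_one] at h3 h4 h5
  have hε' : φ ε * φ ε = 1 := by rw [← map_mul, hε, map_one]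
  rw [Matrix.trace_fin_two] at hc
  have hc' : φ (Sg 0 0) + φ (Sg 1 1) = φ ε * (1 + 1) := by
    rw [← map_add, hc, map_mul, map_add, hq, map_one]
  have e01 : φ (Sg 0 1) = 0 := by linear_combination φ ε * h3 - φ (Sg 0 1) * hε'
  have e10 : φ (Sg 1 0) = 0 := by linear_combination φ ε * h5 - φ (Sg 1 0) * hε'
  have e11 : φ (Sg 1 1) = φ ε := by linear_combination φ ε * h4 - φ (Sg 1 1) * hε'
  have e00 : φ (Sg 0 0) = φ ε := by linear_combination hc' - e11
  ext i j
  fin_cases i <;> fin_cases j <;> simp [e00, e01, e10, e11]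

end Quot

end Fermat.Agent.ML.Hard
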