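import Fermat.Agent.ML.Hard.RelH
import Fermat.Agent.ML.Hard.SM.Scroll

/-!
# ML / Hard / RelSM : **[REL-H]** in the form consumed by `SM.liftB`

* `Scroll.isScroll`, `scroll_iff_isScroll` : `Hard.Scroll x d ↔ SM.IsScroll d x`.
* `locVar_map` : the six local variables commute with ring homs.
* `isScroll_map_locVar` : `φ : A →+* S` (e.g. `Ideal.Quotient.mk J`); all relations are only required in `S` (after `φ`).
* `isScroll_mk_locVar`  : the same for `φ = mk J`, `q` a natural number with `q - 1 = p d'`, `c ∈ J`, relations true in `A`.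
-/

set_option autoImplicit false

namespace Fermat.Agent.ML.Hard

open Matrix

local notation "M₂" => Matrix (Fin 2) (Fin 2)

theorem Scroll.isScroll {A : Type*} [CommRing A] {x : Fin 6 → A} {d : A} (h : Scroll x d) :
    SM.IsScroll d x := by
  rw [SM.isScroll_iff]
  refine ⟨?_, h.r13, h.r14, h.r23, h.r24, ?_⟩
  · rw [sq]; exact h.r12
  · rw [sq]; exact h.r34

theorem scroll_iff_isScroll {A : Type*} [CommRing A] {x : Fin 6 → A} {d : A} :
    Scroll x d ↔ SM.IsScroll d x := by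
  refine ⟨Scroll.isScroll, fun h => ?_⟩
  rw [SM.isScroll_iff] at h
  obtain ⟨h1, h2, h3, h4, h5, h6⟩ := h
  exact ⟨by rw [← sq]; exact h1, h2, h3, h4, h5, by rw [← sq]; exact h6⟩

variable {A S : Type*} [CommRing A] [CommRing S]

theorem locVar_map (φ : A →+* S) (Sg N : M₂ A) (ε : A) :
    locVar (Sg.map φ) (N.map φ) (φ ε) = fun j => φ (locVar Sg N ε j) := by
  funext j
  fin_cases j <;> simp [locVar]

/-- **[REL-H]**, all relations only after `φ`. -/
theorem isScroll_map_locVar (φ : A →+* S) (Sg N : M₂ A) (q ε : A) (hε : φ ε * φ ε = 1)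
    (hdet : φ Sg.det = φ q) (hq : IsUnit (φ q)) (hc' : IsUnit (φ (Sg.trace + ε * (q + 1))))
    (hst : ((Sg * Sg - (q * q) • (1 : M₂ A)) * N).map φ = 0)
    (htame : (Sg * N).map φ = (q • (N * Sg)).map φ)
    (htr : φ N.trace = 0) (hN : (N * N).map φ = 0) (hc : φ (Sg.trace - ε * (q + 1)) = 0) :
    SM.IsScroll (φ q - 1) (fun j => φ (locVar Sg N ε j)) := by
  rw [← locVar_map]
  have tr' : ∀ X : M₂ A, (X.map φ).trace = φ X.trace := fun X => by
    rw [Matrix.trace_fin_two, Matrix.trace_fin_two, map_add]; rfl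
  have one' : (1 : M₂ A).map φ = 1 := Matrix.map_one φ (map_zero φ) (map_one φ)
  have smul' : ∀ (a : A) (X : M₂ A), (a • X).map φ = φ a • X.map φ := fun a X => by
    ext i j; simp
  refine (scroll_of_st2 (Sg.map φ) (N.map φ) (φ q) (φ ε) hε ?_ hq ?_ ?_ ?_ ?_ ?_ ?_).isScroll
  · rw [← hdet, RingHom.map_det]; rfl
  · rw [tr']; simpa using hc'
  · have sub' : ∀ X Y : M₂ A, (X - Y).map φ = X.map φ - Y.map φ := fun X Y => by
      ext i j; simp
    rw [Matrix.map_mul, sub', Matrix.map_mul, smul', one', map_mul] at hst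
    exact hst
  · rw [Matrix.map_mul, smul', Matrix.map_mul] at htame
    exact htame
  · rw [tr', htr]
  · rw [← Matrix.map_mul, hN]
  · rw [tr']; simpa using hc

/-- **[REL-H]** modulo an ideal `J ∋ c`; `q` a natural number, `q - 1 = p d'` : the hypothesis `hval` of `SM.liftB`. -/
theorem isScroll_mk_locVar (J : Ideal A) (Sg N : M₂ A) (q p : ℕ) (d' : ℤ) (hqd : (q : ℤ) - 1 = (p : ℤ) * d')
    (ε : A) (hε : ε * ε = 1) (hdet : Sg.det = (q : A)) (hq : IsUnit (q : A))
    (hc' : IsUnit (Sg.trace + ε * ((q : A) + 1)))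
    (hst : (Sg * Sg - ((q : A) * q) • (1 : M₂ A)) * N = 0) (htame : Sg * N = (q : A) • (N * Sg))
    (htr : N.trace = 0) (hN : N * N = 0) (hc : Sg.trace - ε * ((q : A) + 1) ∈ J) :
    SM.IsScroll ((((p : ℤ) * d' : ℤ)) : A ⧸ J) (fun j => Ideal.Quotient.mk J (locVar Sg N ε j)) := by
  have h := isScroll_map_locVar (Ideal.Quotient.mk J) Sg N (q : A) ε
    (by rw [← map_mul, hε, map_one]) (by rw [hdet]) (hq.map _) (hc'.map _)
    (by rw [hst]; ext i j; simp) (by rw [htame]) (by rw [htr, map_zero])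
    (by rw [hN]; ext i j; simp) (Ideal.Quotient.eq_zero_iff_mem.2 hc)
  have e : Ideal.Quotient.mk J (q : A) - 1 = ((((p : ℤ) * d' : ℤ)) : A ⧸ J) := by
    rw [← hqd]; push_cast; simp
  rwa [e] at h

end Fermat.Agent.ML.Hard
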