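/-
ML / HARD / StepFS : `stepF_BB`, `finalF_BB` for SUBMODULES `G ≤ Y ≤ V`, `Y' ≤ V'` (same interface as helper14's `Raise.step2S`, `final2S`), with
`J := Ann G` (resp. `Ann G ⊓ ker π`), the box basis of `Y'` replaced by its numerical criterion, and [NIL] built in.
-/
import Fermat.Agent.ML.Hard.Inst
import Fermat.Agent.ML.Hard.NilF
import Fermat.Agent.ML.Raise.StepS

set_option autoImplicit false

open MvPolynomial

namespace Fermat.Agent.ML.Hard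

open Fermat.Agent.ML.Raise Submodule

variable (p : ℕ) (Hr σ : Type) (D : Hr → ℤ)
variable {A : Type*} [CommRing A] {V : Type*} [AddCommGroup V] [Module A V]

/-- **[STEP-F]**, submodule form. -/
theorem stepFS [Fintype Hr] [Fintype σ] [Finite V]
    {V' : Type*} [AddCommGroup V'] [Module A V'] [Finite V']
    {a r D' d e E₀ f₁ Bd m : ℕ} [Fact p.Prime] (ha : 1 ≤ a) (z : Fin r → A)
    (mA : Ideal A) (hpm : (p : A) ∈ mA) (hres : ∀ s : A, ∃ c : ℤ, s - (c : A) ∈ mA)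
    (hz : ∀ i, z i ∈ mA)
    (Y G : Submodule A V) (hGY : G ≤ Y)
    (hpa : ∀ x ∈ Y, (p : A) ^ a • x = 0) (hza : ∀ (i : Fin r), ∀ x ∈ Y, z i ^ a • x = 0)
    (hcogen : Nat.card ↥(Y ⊓ (torsionBy A V (p : A) ⊓ ⨅ i, torsionBy A V (z i))) ≤ p ^ d)
    (he : p ^ d < 2 ^ e)
    (hE₀ : ∀ s ∈ mA ^ E₀, ∀ x ∈ Y, s • x = 0)
    (val : PV Hr σ → A)
    (hscr : ∀ q, Scroll (fun j => Ideal.Quotient.mk G.annihilator (val (Sum.inl (q, j))))
      ((((p : ℤ) * D q : ℤ)) : A ⧸ G.annihilator))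
    (hval : ∀ x, val x ∈ mA)
    (hgen : mA ≤ G.annihilator ⊔ Ideal.span (Set.range val) ⊔ Ideal.span {(p : A)})
    (pt : σ → ℤ) (hpt : ∀ s, (p : ℤ) ∣ pt s)
    (c β' : A) (Pc Pβ : MvPolynomial (PV Hr σ) ℤ) (hc : c - aeval val Pc ∈ G.annihilator)
    (hβ : β' - aeval val Pβ ∈ G.annihilator) (hxc : aeval (auxVal p Hr σ pt) Pc = 0)
    (hxβ : ¬ (p : ℤ) ^ (f₁ + 1) ∣ aeval (auxVal p Hr σ pt) Pβ) (hBd : d * f₁ < Bd)
    (hbig : p ^ (d * f₁ * SM.HB (Fintype.card Hr) (Fintype.card σ) (e * ((r + 1) * a + 1)) * d) <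
      Nat.card G)
    (Y' : Submodule A V')
    (hemb : ∀ x ∈ Y, c • x = 0 → ∃ x' ∈ Y', ∀ s : A, s • x' = 0 ↔ s • x = 0)
    (hpa' : ∀ x ∈ Y', (p : A) ^ a • x = 0) (hza' : ∀ (i : Fin r), ∀ x ∈ Y', z i ^ a • x = 0)
    (hcogen' : Nat.card ↥(Y' ⊓ (torsionBy A V' (p : A) ⊓ ⨅ i, torsionBy A V' (z i))) ≤ p ^ D')
    (hsize' : p ^ (D' * a ^ (r + 1)) ≤ Nat.card Y')
    (hm : (r + 1) * m + Bd ≤ a + 1) :
    p ^ (m ^ (r + 1)) ≤ Nat.card ↥(Y'.map (LinearMap.lsmul A V' β')) := by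
  obtain ⟨e', H'⟩ := exists_isBoxBasis_sub p ha z Y' hpa' hza' hcogen' hsize'
  rw [← card_range_lsmul]
  have hcG : Nat.card ↥(G.comap Y.subtype) = Nat.card G := by
    rw [card_comap_subtype, inf_eq_right.2 hGY]
  have hE₀' : ∀ s ∈ mA ^ E₀, ∀ x : ↥Y, s • x = 0 := fun s hs x => Subtype.ext (hE₀ s hs x.1 x.2)
  have hcg : Nat.card ↥(torsionBy A ↥Y (p : A) ⊓ ⨅ i, torsionBy A ↥Y (z i)) ≤ p ^ d := by
    rw [card_soc_subtype]; exact hcogen
  have hE := nilF (X := ↥Y) (p := p) (a := a) (e := e) z mA (fun x => Subtype.ext (hpa x.1 x.2))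
    (fun i x => Subtype.ext (hza i x.1 x.2)) (lt_of_le_of_lt hcg he) hE₀'
  refine stepF_BB p Hr σ D G.annihilator mA val (X := ↥Y) (X' := ↥Y') (E₁ := E₀)
    (Fact.out : p.Prime) z hpm hres hz hE₀' ((card_soc_le_of_le z mA hpm hz).trans hcg)
    (G.comap Y.subtype) (fun s hs x _ => hE s hs x) ?_ hscr hval hgen ?_ pt hpt c β' Pc Pβ hc hβ
    hxc hxβ hBd (by rw [hcG]; exact hbig) ?_ H' hm
  · intro s hs x hx
    exact Subtype.ext (Submodule.mem_annihilator.1 hs x.1 hx)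
  · intro s hs
    exact Submodule.mem_annihilator.2 fun x hx => hE₀ s hs x (hGY hx)
  · intro x hx
    obtain ⟨x', hx', h⟩ := hemb x.1 x.2 (by simpa using congrArg Subtype.val hx)
    refine ⟨⟨x', hx'⟩, fun s => ?_⟩
    rw [← Submodule.coe_eq_zero, ← Submodule.coe_eq_zero (x := s • x)]
    exact h s

/-- **[FINAL-F]**, submodule form: a class of `G` killed by `ker π` and not by `p^c`. -/
theorem finalFS [Fintype Hr] [Fintype σ] [Finite V]
    {a r d e E₀ n c : ℕ} [Fact p.Prime] (z : Fin r → A)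
    (mA : Ideal A) (hpm : (p : A) ∈ mA) (hres : ∀ s : A, ∃ c : ℤ, s - (c : A) ∈ mA)
    (hz : ∀ i, z i ∈ mA)
    (G : Submodule A V)
    (hpa : ∀ x ∈ G, (p : A) ^ a • x = 0) (hza : ∀ (i : Fin r), ∀ x ∈ G, z i ^ a • x = 0)
    (hcogen : Nat.card ↥(G ⊓ (torsionBy A V (p : A) ⊓ ⨅ i, torsionBy A V (z i))) ≤ p ^ d)
    (he : p ^ d < 2 ^ e)
    (hE₀ : ∀ s ∈ mA ^ E₀, ∀ x ∈ G, s • x = 0)
    (π : A →+* ZMod (p ^ n)) (hπm : ∀ s ∈ mA, (p : ZMod (p ^ n)) ∣ π s)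
    (val : PV Hr σ → A)
    (hscr : ∀ q, Scroll
      (fun j => Ideal.Quotient.mk (G.annihilator ⊓ RingHom.ker π) (val (Sum.inl (q, j))))
      ((((p : ℤ) * D q : ℤ)) : A ⧸ (G.annihilator ⊓ RingHom.ker π)))
    (hval : ∀ x, val x ∈ mA)
    (hgen : mA ≤ (G.annihilator ⊓ RingHom.ker π) ⊔ Ideal.span (Set.range val) ⊔
      Ideal.span {(p : A)})
    (hn : c * d < n)
    (hbig : p ^ (c * d * SM.HB (Fintype.card Hr) (Fintype.card σ) (e * ((r + 1) * a + 1)) * d) <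
      Nat.card G) :
    ∃ v ∈ G, (∀ s : A, π s = 0 → s • v = 0) ∧ (p : A) ^ c • v ≠ 0 := by
  have hE₀' : ∀ s ∈ mA ^ E₀, ∀ x : ↥G, s • x = 0 := fun s hs x => Subtype.ext (hE₀ s hs x.1 x.2)
  have hcg : Nat.card ↥(torsionBy A ↥G (p : A) ⊓ ⨅ i, torsionBy A ↥G (z i)) ≤ p ^ d := by
    rw [card_soc_subtype]; exact hcogen
  have hE := nilF (X := ↥G) (p := p) (a := a) (e := e) z mA (fun x => Subtype.ext (hpa x.1 x.2))
    (fun i x => Subtype.ext (hza i x.1 x.2)) (lt_of_le_of_lt hcg he) hE₀'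
  have hcT : Nat.card ↥(⊤ : Submodule A ↥G) = Nat.card G :=
    Nat.card_congr (Submodule.topEquiv (R := A) (M := ↥G)).toEquiv
  obtain ⟨v, hv1, hv2⟩ := finalF_BB p Hr σ D (G.annihilator ⊓ RingHom.ker π) mA val (X := ↥G)
    (E₁ := E₀ + n) (Fact.out : p.Prime) hpm hres hE₀' ((card_soc_le_of_le z mA hpm hz).trans hcg)
    ⊤ (fun s hs x _ => hE s hs x)
    (fun s hs x _ => Subtype.ext (Submodule.mem_annihilator.1 hs.1 x.1 x.2)) hscr hval hgen
    (by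
      intro s hs
      refine ⟨Submodule.mem_annihilator.2 fun x hx =>
        hE₀ s (Ideal.pow_le_pow_right (Nat.le_add_right _ _) hs) x hx, ?_⟩
      have h3 : mA ≤ (Ideal.span {(p : ZMod (p ^ n))}).comap π := fun b hb => by
        rw [Ideal.mem_comap, Ideal.mem_span_singleton]
        exact hπm b hb
      have h4 := (Ideal.pow_right_mono h3 _).trans (Ideal.le_comap_pow _ _)
        (Ideal.pow_le_pow_right (Nat.le_add_left n E₀) hs)
      rw [Ideal.mem_comap, Ideal.span_singleton_pow, Ideal.mem_span_singleton] at h4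
      have h5 : (p : ZMod (p ^ n)) ^ n = 0 := by
        rw [← Nat.cast_pow]
        exact ZMod.natCast_self _
      rw [h5, zero_dvd_iff] at h4
      exact h4)
    π (fun s hs => hs.2) hπm hn (by rw [hcT]; exact hbig)
  refine ⟨v.1, v.2, fun s hs => by simpa using congrArg Subtype.val (hv1 s hs), fun h => hv2 ?_⟩
  exact Subtype.ext h

end Fermat.Agent.ML.Hard
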